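import Mathlib
import Fermat.Prelude.Def_ModularCurve_PeriodMap

/-!
# S21, group-cohomology half: `finrank (parabolicHoms ℂ Γ ℂ) ≤ 2g`

For a finite-index subgroup `Γ ≤ SL(2, ℤ)` containing `-1`, with `X = SL(2, ℤ) ⧸ Γ`:
`finrank (parabolicHoms ℂ Γ ℂ) + #orbits(S) + #orbits(S*T) + #orbits(T) ≤ |X| + 2`.
(helper52)
-/

set_option autoImplicit false
set_option linter.unusedSectionVars false
set_option linter.style.haveILetI false

namespace Fermat.Agent.S21.ParabolicDim

open Module

section Abstract

variable {k V : Type*} [Field k] [AddCommGroup V] [Module k V]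

/-- The norm operator `1 + c + ... + c^(m-1)`. -/
def normOp (c : Module.End k V) (m : ℕ) : Module.End k V := ∑ i ∈ Finset.range m, c ^ i

theorem sub_one_mul_normOp (c : Module.End k V) (m : ℕ) :
    (c - 1) * normOp c m = c ^ m - 1 := by
  unfold normOp
  exact mul_geom_sum c m

theorem normOp_mul_sub_one (c : Module.End k V) (m : ℕ) :
    normOp c m * (c - 1) = c ^ m - 1 := by
  unfold normOp
  exact geom_sum_mul c m

theorem normOp_apply_of_fixed (c : Module.End k V) (m : ℕ) {v : V} (hv : c v = v) :
    normOp c m v = (m : k) • v := by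
  have hpow : ∀ i : ℕ, (c ^ i) v = v := by
    intro i
    induction i with
    | zero => simp
    | succ i ih => rw [pow_succ, Module.End.mul_apply, hv, ih]
  unfold normOp
  rw [LinearMap.sum_apply]
  simp only [hpow, Finset.sum_const, Finset.card_range]
  rw [Nat.cast_smul_eq_nsmul]

theorem range_normOp [CharZero k] (c : Module.End k V) {m : ℕ} (hm : 0 < m) (hc : c ^ m = 1) :
    LinearMap.range (normOp c m) = LinearMap.ker (c - 1) := by
  apply le_antisymm
  · rintro _ ⟨v, rfl⟩
    rw [LinearMap.mem_ker, ← Module.End.mul_apply, sub_one_mul_normOp, hc, sub_self,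
      LinearMap.zero_apply]
  · intro v hv
    rw [LinearMap.mem_ker, LinearMap.sub_apply, Module.End.one_apply, sub_eq_zero] at hv
    refine ⟨(m : k)⁻¹ • v, ?_⟩
    rw [map_smul, normOp_apply_of_fixed c m hv, smul_smul, inv_mul_cancel₀, one_smul]
    exact_mod_cast hm.ne'

theorem finrank_ker_normOp [CharZero k] [FiniteDimensional k V] (c : Module.End k V) {m : ℕ}
    (hm : 0 < m) (hc : c ^ m = 1) :
    finrank k (LinearMap.ker (normOp c m)) + finrank k (LinearMap.ker (c - 1)) = finrank k V := by
  rw [← range_normOp c hm hc, add_comm]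
  exact LinearMap.finrank_range_add_finrank_ker (normOp c m)

theorem finrank_inf_ker_add_finrank_map {V' : Type*} [AddCommGroup V'] [Module k V']
    [FiniteDimensional k V'] {M' : Type*} [AddCommGroup M']
    [Module k M'] (f : V' →ₗ[k] M') (p : Submodule k V') :
    finrank k ↥(p ⊓ LinearMap.ker f) + finrank k ↥(p.map f) = finrank k ↥p := by
  have h := LinearMap.finrank_range_add_finrank_ker (f.domRestrict p)
  rw [LinearMap.range_domRestrict, LinearMap.ker_domRestrict] at h
  have e : (Submodule.comap p.subtype (LinearMap.ker f))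
      = Submodule.comap p.subtype (p ⊓ LinearMap.ker f) := by
    rw [Submodule.comap_inf, Submodule.comap_subtype_self, top_inf_eq]
  rw [e, (Submodule.comapSubtypeEquivOfLe
    (inf_le_left : p ⊓ LinearMap.ker f ≤ p)).finrank_eq] at h
  omega

theorem finrank_range_add_le [FiniteDimensional k V] {M' : Type*} [AddCommGroup M']
    [Module k M'] (f : V →ₗ[k] M') (W : Submodule k V) :
    finrank k (LinearMap.range f) + finrank k W ≤ finrank k (W.map f) + finrank k V := by
  have h1 := finrank_inf_ker_add_finrank_map f W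
  have h2 := LinearMap.finrank_range_add_finrank_ker f
  have h3 : finrank k ↥(W ⊓ LinearMap.ker f) ≤ finrank k (LinearMap.ker f) :=
    Submodule.finrank_mono inf_le_right
  omega

theorem finrank_prod_submodule [FiniteDimensional k V] (p q : Submodule k V) :
    finrank k ↥(p.prod q) = finrank k p + finrank k q := by
  have hinj : Function.Injective (p.subtype.prodMap q.subtype) := by
    rintro ⟨a, b⟩ ⟨a', b'⟩ h
    simp only [LinearMap.prodMap_apply, Submodule.subtype_apply, Prod.mk.injEq] at h
    exact Prod.ext (Subtype.ext h.1) (Subtype.ext h.2)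
  have h := LinearMap.finrank_range_of_inj hinj
  rw [LinearMap.range_prodMap, Submodule.range_subtype, Submodule.range_subtype,
    Module.finrank_prod] at h
  exact h

variable (S U T : Module.End k V) (n : ℕ)

/-- `(a, b) ↦ N_T (S (b - a))`. -/
def thetaMap : V × V →ₗ[k] V :=
  (normOp T n * S) ∘ₗ (LinearMap.snd k V V - LinearMap.fst k V V)

@[simp] theorem thetaMap_apply (p : V × V) :
    thetaMap S T n p = normOp T n (S (p.2 - p.1)) := rfl

/-- The space of pairs `(a, b)` with `(1+S) a = 0`, `(1+U+U²) b = 0`. -/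
def pairSpace : Submodule k (V × V) :=
  (LinearMap.ker (normOp S 2)).prod (LinearMap.ker (normOp U 3))

/-- The constraint space `Y`. -/
def constraintSpace : Submodule k (V × V) :=
  pairSpace S U ⊓ LinearMap.ker (thetaMap S T n)

/-- The coboundary map `v ↦ ((S-1) v, (U-1) v)`. -/
def cobMap : V →ₗ[k] V × V := LinearMap.prod (S - 1) (U - 1)

theorem range_cobMap_le (hS : S ^ 2 = 1) (hU : U ^ 3 = 1) (hUST : U = S * T) (hT : T ^ n = 1) :
    LinearMap.range (cobMap S U) ≤ constraintSpace S U T n := by
  rintro _ ⟨v, rfl⟩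
  refine ⟨⟨?_, ?_⟩, ?_⟩
  · show normOp S 2 ((S - 1) v) = 0
    rw [← Module.End.mul_apply, normOp_mul_sub_one, hS, sub_self, LinearMap.zero_apply]
  · show normOp U 3 ((U - 1) v) = 0
    rw [← Module.End.mul_apply, normOp_mul_sub_one, hU, sub_self, LinearMap.zero_apply]
  · show thetaMap S T n (cobMap S U v) = 0
    rw [thetaMap_apply]
    show normOp T n (S ((U - 1) v - (S - 1) v)) = 0
    have h1 : S ((U - 1) v - (S - 1) v) = (T - 1) v := by
      have hSS : ∀ w : V, S (S w) = w := by
        intro w
        have := congrArg (fun f : Module.End k V => f w) hS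
        simpa [pow_two, Module.End.mul_apply] using this
      simp only [LinearMap.sub_apply, Module.End.one_apply, map_sub, hUST, Module.End.mul_apply,
        hSS]
      abel
    rw [h1, ← Module.End.mul_apply, normOp_mul_sub_one, hT, sub_self, LinearMap.zero_apply]

theorem finrank_constraintSpace_le [CharZero k] [FiniteDimensional k V]
    (hn : 0 < n) (hS : S ^ 2 = 1) (hU : U ^ 3 = 1) (hT : T ^ n = 1) :
    finrank k (constraintSpace S U T n) + finrank k (LinearMap.ker (T - 1))
        + finrank k ↥(LinearMap.range (1 - S) ⊔ LinearMap.range (1 - U))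
      ≤ finrank k (LinearMap.ker (normOp S 2)) + finrank k (LinearMap.ker (normOp U 3))
        + finrank k V := by
  set W : Submodule k V := LinearMap.range (1 - S) ⊔ LinearMap.range (1 - U) with hW
  have h1 := finrank_inf_ker_add_finrank_map (thetaMap S T n) (pairSpace S U)
  have h2 : finrank k ↥(pairSpace S U) =
      finrank k (LinearMap.ker (normOp S 2)) + finrank k (LinearMap.ker (normOp U 3)) :=
    finrank_prod_submodule _ _
  -- the image of the pair space under theta contains (N_T ∘ S) W
  have h3 : W.map (normOp T n * S) ≤ (pairSpace S U).map (thetaMap S T n) := by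
    rintro _ ⟨w, hw, rfl⟩
    obtain ⟨w1, hw1, w2, hw2, rfl⟩ := Submodule.mem_sup.mp hw
    obtain ⟨v1, rfl⟩ := hw1
    obtain ⟨v2, rfl⟩ := hw2
    refine ⟨(-(1 - S) v1, (1 - U) v2), ⟨?_, ?_⟩, ?_⟩
    · show normOp S 2 (-(1 - S) v1) = 0
      have : (1 - S : Module.End k V) = -(S - 1) := by abel
      rw [this, LinearMap.neg_apply, neg_neg, ← Module.End.mul_apply, normOp_mul_sub_one, hS,
        sub_self, LinearMap.zero_apply]
    · show normOp U 3 ((1 - U) v2) = 0
      have : (1 - U : Module.End k V) = -(U - 1) := by abel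
      rw [this, LinearMap.neg_apply, map_neg, ← Module.End.mul_apply, normOp_mul_sub_one, hU,
        sub_self, LinearMap.zero_apply, neg_zero]
    · rw [thetaMap_apply]
      show normOp T n (S ((1 - U) v2 - -(1 - S) v1)) = (normOp T n * S) ((1 - S) v1 + (1 - U) v2)
      rw [Module.End.mul_apply]
      congr 2
      abel
  have h4 : finrank k ↥(W.map (normOp T n * S)) ≤ finrank k ↥((pairSpace S U).map (thetaMap S T n)) :=
    Submodule.finrank_mono h3
  have h5 := finrank_range_add_le (normOp T n * S) W
  -- range (N_T * S) = range N_T = ker (T - 1)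
  have hSsurj : Function.Surjective S := by
    intro v
    refine ⟨S v, ?_⟩
    have := congrArg (fun f : Module.End k V => f v) hS
    simpa [pow_two, Module.End.mul_apply] using this
  have h6 : LinearMap.range (normOp T n * S) = LinearMap.ker (T - 1) := by
    rw [← range_normOp T hn hT]
    show LinearMap.range ((normOp T n).comp S) = _
    rw [LinearMap.range_comp, LinearMap.range_eq_top.mpr hSsurj, Submodule.map_top]
  rw [h6] at h5
  have h7 : constraintSpace S U T n = pairSpace S U ⊓ LinearMap.ker (thetaMap S T n) := rfl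
  rw [h7]
  omega

end Abstract

section Perm

variable (k : Type*) [Field k] {G : Type*} [Group G] {X : Type*} [MulAction G X]

/-- The left regular action of `g` on functions `X → k`: `(g • v) x = v (g⁻¹ • x)`. -/
def act (g : G) : Module.End k (X → k) := LinearMap.funLeft k k (fun x => g⁻¹ • x)

@[simp] theorem act_apply (g : G) (v : X → k) (x : X) : act k g v x = v (g⁻¹ • x) := rfl

theorem act_one : act k (1 : G) = (1 : Module.End k (X → k)) := by
  ext v x
  simp

theorem act_mul (g h : G) : act k (g * h) = (act k g * act k h : Module.End k (X → k)) := by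
  apply LinearMap.ext
  intro v
  funext x
  simp [Module.End.mul_apply, mul_smul]

theorem act_pow (g : G) (n : ℕ) : act k (g ^ n) = (act k g ^ n : Module.End k (X → k)) := by
  induction n with
  | zero => simp [act_one]
  | succ n ih => rw [pow_succ, pow_succ, act_mul, ih]


theorem act_inv_act (g : G) (v : X → k) : act k g⁻¹ (act k g v) = v := by
  funext x; simp

theorem act_act_inv (g : G) (v : X → k) : act k g (act k g⁻¹ v) = v := by
  funext x; simp

theorem mem_ker_act_sub_one {g : G} {v : X → k} :
    v ∈ LinearMap.ker (act k g - 1) ↔ ∀ x, v (g⁻¹ • x) = v x := by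
  rw [LinearMap.mem_ker, LinearMap.sub_apply, Module.End.one_apply, sub_eq_zero]
  exact ⟨fun h x => congrFun h x, fun h => funext h⟩

/-- Invariants under two generators of a transitive group are constant: dimension at most 1. -/
theorem finrank_inf_ker_le_one [Finite X] [MulAction.IsPretransitive G X] {s u : G}
    (hgen : Subgroup.closure {s, u} = ⊤) :
    finrank k ↥(LinearMap.ker (act k s - 1 : Module.End k (X → k)) ⊓
      LinearMap.ker (act k u - 1 : Module.End k (X → k))) ≤ 1 := by
  classical
  have hle : (LinearMap.ker (act k s - 1 : Module.End k (X → k)) ⊓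
      LinearMap.ker (act k u - 1 : Module.End k (X → k))) ≤ Submodule.span k {fun _ : X => (1 : k)} := by
    rintro v ⟨hs, hu⟩
    rw [SetLike.mem_coe, mem_ker_act_sub_one] at hs hu
    have hall : ∀ g : G, ∀ x, v (g⁻¹ • x) = v x := by
      intro g
      have hg : g ∈ Subgroup.closure {s, u} := by rw [hgen]; exact Subgroup.mem_top g
      induction hg using Subgroup.closure_induction with
      | mem y hy =>
        rcases hy with rfl | rfl
        · exact hs
        · exact hu
      | one => intro x; simp
      | mul a b _ _ iha ihb => intro x; rw [mul_inv_rev, mul_smul, ihb, iha]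
      | inv a _ iha =>
        intro x; have := iha (a • x); rw [inv_smul_smul] at this; rw [inv_inv]; exact this.symm
    rcases isEmpty_or_nonempty X with hX | ⟨⟨x₀⟩⟩
    · have : v = 0 := funext fun x => (hX.false x).elim
      rw [this]; exact Submodule.zero_mem _
    · rw [Submodule.mem_span_singleton]
      refine ⟨v x₀, ?_⟩
      funext x
      obtain ⟨g, hg⟩ := MulAction.exists_smul_eq G x₀ x
      simp only [Pi.smul_apply, smul_eq_mul, mul_one]
      have := hall g⁻¹ x₀
      rw [inv_inv, hg] at this
      exact this.symm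
  calc finrank k _ ≤ finrank k ↥(Submodule.span k {fun _ : X => (1 : k)}) :=
        Submodule.finrank_mono hle
    _ ≤ 1 := by
        have := finrank_span_le_card (R := k) ({fun _ : X => (1 : k)} : Set (X → k))
        simpa using this

/-- The augmentation submodule generated by two generators has codimension at most 1. -/
theorem card_le_finrank_sup_range_add_one [Finite X] [MulAction.IsPretransitive G X] {s u : G}
    (hgen : Subgroup.closure {s, u} = ⊤) :
    Nat.card X ≤ finrank k ↥(LinearMap.range (1 - act k s : Module.End k (X → k)) ⊔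
      LinearMap.range (1 - act k u : Module.End k (X → k))) + 1 := by
  classical
  letI := Fintype.ofFinite X
  set W : Submodule k (X → k) := LinearMap.range (1 - act k s : Module.End k (X → k)) ⊔
      LinearMap.range (1 - act k u : Module.End k (X → k)) with hW
  have hall : ∀ g : G, ∀ v : X → k, (1 - act k g : Module.End k (X → k)) v ∈ W := by
    intro g
    have hg : g ∈ Subgroup.closure {s, u} := by rw [hgen]; exact Subgroup.mem_top g
    induction hg using Subgroup.closure_induction with
    | mem y hy =>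
      rcases hy with rfl | rfl
      · intro v; exact Submodule.mem_sup_left ⟨v, rfl⟩
      · intro v; exact Submodule.mem_sup_right ⟨v, rfl⟩
    | one => intro v; rw [act_one, sub_self]; exact Submodule.zero_mem _
    | mul a b _ _ iha ihb =>
      intro v
      have : (1 - act k (a * b) : Module.End k (X → k)) v
          = (1 - act k a : Module.End k (X → k)) (act k b v) + (1 - act k b : Module.End k (X → k)) v := by
        rw [act_mul]
        simp only [LinearMap.sub_apply, Module.End.one_apply, Module.End.mul_apply]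
        abel
      rw [this]
      exact Submodule.add_mem _ (iha _) (ihb _)
    | inv a _ iha =>
      intro v
      have : (1 - act k a⁻¹ : Module.End k (X → k)) v
          = - (1 - act k a : Module.End k (X → k)) (act k a⁻¹ v) := by
        simp only [LinearMap.sub_apply, Module.End.one_apply, act_act_inv]
        abel
      rw [this]
      exact Submodule.neg_mem _ (iha _)
  -- the sum map
  let sumMap : (X → k) →ₗ[k] k := ∑ x : X, LinearMap.proj x
  have hsum : ∀ v, sumMap v = ∑ x, v x := by
    intro v; simp [sumMap, LinearMap.sum_apply]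
  have hker : LinearMap.ker sumMap ≤ W := by
    intro v hv
    rw [LinearMap.mem_ker, hsum] at hv
    rcases isEmpty_or_nonempty X with hX | ⟨⟨x₀⟩⟩
    · have : v = 0 := funext fun x => (hX.false x).elim
      rw [this]; exact Submodule.zero_mem _
    · have hdecomp : v = ∑ x, v x • (Pi.single x (1 : k) - Pi.single x₀ (1 : k)) := by
        have h1 : v = ∑ x, v x • (Pi.single x (1 : k) : X → k) := by
          funext y
          simp [Finset.sum_apply, Pi.single_apply]
        have h2 : ∑ x, v x • (Pi.single x₀ (1 : k) : X → k) = 0 := by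
          rw [← Finset.sum_smul, hv, zero_smul]
        calc v = ∑ x, v x • (Pi.single x (1 : k) : X → k) - ∑ x, v x • (Pi.single x₀ (1 : k) : X → k) := by
              rw [h2, sub_zero]; exact h1
          _ = _ := by
              rw [← Finset.sum_sub_distrib]
              apply Finset.sum_congr rfl
              intro x _
              rw [smul_sub]
      rw [hdecomp]
      apply Submodule.sum_mem
      intro x _
      apply Submodule.smul_mem
      obtain ⟨g, rfl⟩ := MulAction.exists_smul_eq G x₀ x
      have hsingle : (Pi.single (g • x₀) (1 : k) : X → k) = act k g (Pi.single x₀ (1 : k)) := by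
        funext y
        simp only [act_apply, Pi.single_apply]
        by_cases h : y = g • x₀
        · simp [h]
        · have : g⁻¹ • y ≠ x₀ := fun h' => h (by rw [← h', smul_inv_smul])
          simp [h, this]
      have : (Pi.single (g • x₀) (1 : k) - Pi.single x₀ (1 : k) : X → k)
          = - (1 - act k g : Module.End k (X → k)) (Pi.single x₀ (1 : k)) := by
        rw [hsingle]
        simp only [LinearMap.sub_apply, Module.End.one_apply]
        abel
      rw [this]
      exact Submodule.neg_mem _ (hall g _)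
  have h1 := LinearMap.finrank_range_add_finrank_ker sumMap
  have h2 : finrank k (LinearMap.range sumMap) ≤ 1 := by
    calc finrank k (LinearMap.range sumMap) ≤ finrank k k := Submodule.finrank_le _
      _ = 1 := Module.finrank_self k
  have h3 : finrank k (LinearMap.ker sumMap) ≤ finrank k W := Submodule.finrank_mono hker
  have h4 : finrank k (X → k) = Nat.card X := by
    rw [Module.finrank_fintype_fun_eq_card, Nat.card_eq_fintype_card]
  omega


theorem invariant_zpowers {g : G} {v : X → k} (hv : ∀ x, v (g⁻¹ • x) = v x)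
    (h : G) (hh : h ∈ Subgroup.zpowers g) (x : X) : v (h • x) = v x := by
  obtain ⟨j, rfl⟩ := Subgroup.mem_zpowers_iff.mp hh
  have hv' : ∀ x, v (g • x) = v x := fun x => by
    have := hv (g • x); rw [inv_smul_smul] at this; exact this.symm
  clear hh
  induction j using Int.induction_on generalizing x with
  | zero => simp
  | succ i ih => rw [zpow_add_one, mul_smul, ih, hv']
  | pred i ih => rw [zpow_sub_one, mul_smul, ih, hv]

theorem finrank_ker_act_sub_one [Finite X] (g : G) :
    finrank k (LinearMap.ker (act k g - 1 : Module.End k (X → k)))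
      = Nat.card (MulAction.orbitRel.Quotient (Subgroup.zpowers g) X) := by
  classical
  letI := Fintype.ofFinite X
  set Ω := MulAction.orbitRel.Quotient (Subgroup.zpowers g) X
  letI : Fintype Ω := Fintype.ofFinite Ω
  let π : X → Ω := Quotient.mk''
  have hπ : Function.Surjective π := Quotient.mk''_surjective
  let pull : (Ω → k) →ₗ[k] (X → k) := LinearMap.funLeft k k π
  have hinj : Function.Injective pull := LinearMap.funLeft_injective_of_surjective k k π hπ
  have hrange : LinearMap.range pull = LinearMap.ker (act k g - 1 : Module.End k (X → k)) := by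
    apply le_antisymm
    · rintro _ ⟨f, rfl⟩
      rw [mem_ker_act_sub_one]
      intro x
      show f (π (g⁻¹ • x)) = f (π x)
      congr 1
      apply Quotient.sound'
      rw [MulAction.orbitRel_apply]
      exact ⟨⟨g⁻¹, Subgroup.inv_mem _ (Subgroup.mem_zpowers g)⟩, rfl⟩
    · intro v hv
      rw [mem_ker_act_sub_one] at hv
      refine ⟨Quotient.lift v ?_, ?_⟩
      · intro a b hab
        change MulAction.orbitRel (Subgroup.zpowers g) X a b at hab
        rw [MulAction.orbitRel_apply] at hab
        obtain ⟨⟨h, hh⟩, rfl⟩ := hab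
        exact invariant_zpowers k hv h hh b
      · funext x
        rfl
  rw [← hrange, LinearMap.finrank_range_of_inj hinj, Module.finrank_fintype_fun_eq_card,
    Nat.card_eq_fintype_card]


end Perm

section Shapiro

variable {G : Type*} [Group G] (H : Subgroup G) {A : Type*} [AddCommGroup A]

/-- A chosen coset representative. -/
noncomputable def rep (x : G ⧸ H) : G := Quotient.out x

theorem rep_spec (x : G ⧸ H) : ((rep H x : G) : G ⧸ H) = x := QuotientGroup.out_eq' x

theorem cocElt_mem (g : G) (x : G ⧸ H) : (rep H x)⁻¹ * (g * rep H (g⁻¹ • x)) ∈ H := by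
  rw [← QuotientGroup.eq, rep_spec]
  have : ((g * rep H (g⁻¹ • x) : G) : G ⧸ H) = g • ((rep H (g⁻¹ • x) : G) : G ⧸ H) := rfl
  rw [this, rep_spec, smul_inv_smul]

/-- The element of `H` whose `φ`-value is the Shapiro cocycle. -/
noncomputable def cocElt (g : G) (x : G ⧸ H) : H := ⟨_, cocElt_mem H g x⟩

theorem cocElt_mul (g₁ g₂ : G) (x : G ⧸ H) :
    cocElt H (g₁ * g₂) x = cocElt H g₁ x * cocElt H g₂ (g₁⁻¹ • x) := by
  apply Subtype.ext
  simp only [cocElt, Subgroup.coe_mul, mul_inv_rev, mul_smul]
  group

/-- The Shapiro cocycle of an additive character `φ` of `H`. -/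
noncomputable def coc (φ : Additive H →+ A) (g : G) (x : G ⧸ H) : A :=
  φ (Additive.ofMul (cocElt H g x))

theorem coc_mul (φ : Additive H →+ A) (g₁ g₂ : G) (x : G ⧸ H) :
    coc H φ (g₁ * g₂) x = coc H φ g₁ x + coc H φ g₂ (g₁⁻¹ • x) := by
  unfold coc
  rw [cocElt_mul, ofMul_mul, map_add]

theorem coc_one (φ : Additive H →+ A) : coc H φ 1 = 0 := by
  funext x
  have h := coc_mul H φ 1 1 x
  rw [mul_one, inv_one, one_smul] at h
  simpa using h


end Shapiro

section Combine

variable {k V : Type*} [Field k] [CharZero k] [AddCommGroup V] [Module k V]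
  [FiniteDimensional k V]

/-- The abstract dimension bound. -/
theorem abstract_bound (S U T : Module.End k V) (n : ℕ) (hn : 0 < n) (hS : S ^ 2 = 1)
    (hU : U ^ 3 = 1) (hUST : U = S * T) (hT : T ^ n = 1)
    (P : Submodule k (V × V)) (hP : P ≤ constraintSpace S U T n)
    (hdisj : Disjoint P (LinearMap.range (cobMap S U))) :
    finrank k P + finrank k (LinearMap.ker (S - 1)) + finrank k (LinearMap.ker (U - 1))
        + finrank k (LinearMap.ker (T - 1))
        + finrank k ↥(LinearMap.range (1 - S) ⊔ LinearMap.range (1 - U))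
      ≤ 2 * finrank k V + finrank k ↥(LinearMap.ker (S - 1) ⊓ LinearMap.ker (U - 1)) := by
  have hB := range_cobMap_le S U T n hS hU hUST hT
  have h1 : finrank k P + finrank k (LinearMap.range (cobMap S U))
      ≤ finrank k (constraintSpace S U T n) := by
    have h := Submodule.finrank_sup_add_finrank_inf_eq P (LinearMap.range (cobMap S U))
    rw [hdisj.eq_bot, finrank_bot, add_zero] at h
    rw [← h]
    exact Submodule.finrank_mono (sup_le hP hB)
  have h2 := LinearMap.finrank_range_add_finrank_ker (cobMap S U)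
  have h3 : LinearMap.ker (cobMap S U) = LinearMap.ker (S - 1) ⊓ LinearMap.ker (U - 1) :=
    LinearMap.ker_prod _ _
  rw [h3] at h2
  have h4 := finrank_ker_normOp S (by norm_num : 0 < 2) hS
  have h5 := finrank_ker_normOp U (by norm_num : 0 < 3) hU
  have h6 := finrank_constraintSpace_le S U T n hn hS hU hT
  omega

end Combine

section ShapiroLinear

variable (k : Type*) [Field k] {G : Type*} [Group G] (H : Subgroup G)

theorem coc_mul' (φ : Additive H →+ k) (g₁ g₂ : G) :
    coc H φ (g₁ * g₂) = coc H φ g₁ + act k g₁ (coc H φ g₂) := by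
  funext x
  simp [coc_mul]

theorem normOp_succ {V : Type*} [AddCommGroup V] [Module k V] (c : Module.End k V) (m : ℕ) :
    normOp c (m + 1) = 1 + c * normOp c m := by
  unfold normOp
  rw [Finset.sum_range_succ', pow_zero, add_comm, Finset.mul_sum]
  congr 1
  apply Finset.sum_congr rfl
  intro i _
  rw [pow_succ']

theorem coc_pow (φ : Additive H →+ k) (g : G) (m : ℕ) :
    coc H φ (g ^ m) = normOp (act k g) m (coc H φ g) := by
  induction m with
  | zero => simp [coc_one, normOp]
  | succ m ih =>
    rw [pow_succ', coc_mul', ih, normOp_succ]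
    simp [Module.End.mul_apply]

/-- If the Shapiro cocycle of `φ` agrees with a coboundary on two generators then `φ = 0`. -/
theorem eq_zero_of_coc_eq_cob (φ : Additive H →+ k) {s u : G}
    (hgen : Subgroup.closure {s, u} = ⊤) (v : G ⧸ H → k)
    (hs : coc H φ s = act k s v - v) (hu : coc H φ u = act k u v - v) : φ = 0 := by
  have hall : ∀ g : G, coc H φ g = act k g v - v := by
    intro g
    have hg : g ∈ Subgroup.closure {s, u} := by rw [hgen]; exact Subgroup.mem_top g
    induction hg using Subgroup.closure_induction with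
    | mem y hy =>
      rcases hy with rfl | rfl
      · exact hs
      · exact hu
    | one => rw [coc_one, act_one]; simp
    | mul a b _ _ iha ihb =>
      rw [coc_mul', iha, ihb, act_mul, map_sub, Module.End.mul_apply]
      abel
    | inv a _ iha =>
      have h := coc_mul' k H φ a a⁻¹
      rw [mul_inv_cancel, coc_one, iha] at h
      have h2 : act k a (coc H φ a⁻¹) = v - act k a v := by
        have := eq_neg_of_add_eq_zero_right h.symm
        rw [this]; abel
      have h3 := congrArg (act k a⁻¹) h2
      rw [act_inv_act, map_sub, act_inv_act] at h3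
      exact h3
  -- evaluate at the base coset
  set x₀ : G ⧸ H := ((1 : G) : G ⧸ H) with hx₀
  have hr₀ : rep H x₀ ∈ H := by
    have h := rep_spec H x₀
    rw [hx₀, QuotientGroup.eq] at h
    simpa using H.inv_mem h
  apply AddMonoidHom.ext
  intro a
  set h : H := Additive.toMul a with hh
  have ha : a = Additive.ofMul h := rfl
  rw [ha]
  have hfix : (h : G)⁻¹ • x₀ = x₀ := by
    rw [hx₀]
    show (((h : G)⁻¹ * 1 : G) : G ⧸ H) = ((1 : G) : G ⧸ H)
    rw [QuotientGroup.eq]
    simp
  have hval : coc H φ (h : G) x₀ = 0 := by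
    rw [hall]
    simp [hfix]
  have hElt : cocElt H (h : G) x₀ = (⟨rep H x₀, hr₀⟩ : H)⁻¹ * h * ⟨rep H x₀, hr₀⟩ := by
    apply Subtype.ext
    simp only [cocElt, hfix, Subgroup.coe_mul, Subgroup.coe_inv]
    group
  unfold coc at hval
  rw [hElt, ofMul_mul, ofMul_mul, ofMul_inv, map_add, map_add, map_neg] at hval
  simpa using hval

/-- The Shapiro cocycle vanishes on a central element of `H` on which `φ` vanishes. -/
theorem coc_central (φ : Additive H →+ k) {z : G} (hzH : z ∈ H) (hzc : ∀ g : G, g * z = z * g)
    (hφz : φ (Additive.ofMul ⟨z, hzH⟩) = 0) : coc H φ z = 0 := by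
  funext x
  have hfix : z⁻¹ • x = x := by
    conv_lhs => rw [← rep_spec H x]
    conv_rhs => rw [← rep_spec H x]
    show ((z⁻¹ * rep H x : G) : G ⧸ H) = ((rep H x : G) : G ⧸ H)
    rw [QuotientGroup.eq]
    have : (z⁻¹ * rep H x)⁻¹ * rep H x = z := by
      rw [mul_inv_rev, inv_inv, mul_assoc, ← hzc (rep H x), ← mul_assoc, inv_mul_cancel, one_mul]
    rw [this]; exact hzH
  have hElt : cocElt H z x = ⟨z, hzH⟩ := by
    apply Subtype.ext
    simp only [cocElt, hfix]
    have hc := hzc (rep H x)
    rw [← hc, ← mul_assoc, inv_mul_cancel, one_mul]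
  show coc H φ z x = 0
  unfold coc
  rw [hElt, hφz]

theorem act_eq_one_of_fixes {g : G} (hg : ∀ x : G ⧸ H, g • x = x) :
    act k g = (1 : Module.End k (G ⧸ H → k)) := by
  apply LinearMap.ext
  intro v
  funext x
  have : g⁻¹ • x = x := by
    have := hg (g⁻¹ • x); rw [smul_inv_smul] at this; exact this.symm
  simp [this]

theorem central_fixes {z : G} (hzH : z ∈ H) (hzc : ∀ g : G, g * z = z * g) (x : G ⧸ H) :
    z • x = x := by
  conv_lhs => rw [← rep_spec H x]
  conv_rhs => rw [← rep_spec H x]
  show ((z * rep H x : G) : G ⧸ H) = ((rep H x : G) : G ⧸ H)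
  rw [QuotientGroup.eq]
  have : (z * rep H x)⁻¹ * rep H x = z⁻¹ := by
    rw [← hzc, mul_inv_rev, mul_assoc, inv_mul_cancel, mul_one]
  rw [this]; exact H.inv_mem hzH

/-- The linear map `φ ↦ (c_φ(s), c_φ(u))`. -/
noncomputable def shapiroMap (s u : G) :
    (Additive H →+ k) →ₗ[k] (G ⧸ H → k) × (G ⧸ H → k) where
  toFun φ := (coc H φ s, coc H φ u)
  map_add' _ _ := rfl
  map_smul' _ _ := rfl

@[simp] theorem shapiroMap_apply (s u : G) (φ : Additive H →+ k) :
    shapiroMap k H s u φ = (coc H φ s, coc H φ u) := rfl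

theorem shapiroMap_injective {s u : G} (hgen : Subgroup.closure {s, u} = ⊤) :
    Function.Injective (shapiroMap k H s u) := by
  rw [← LinearMap.ker_eq_bot, LinearMap.ker_eq_bot']
  intro φ hφ
  rw [shapiroMap_apply, Prod.mk_eq_zero] at hφ
  exact eq_zero_of_coc_eq_cob k H φ hgen 0 (by rw [hφ.1]; simp) (by rw [hφ.2]; simp)

end ShapiroLinear

section MainGeneral

variable (k : Type*) [Field k] [CharZero k] {G : Type*} [Group G] (H : Subgroup G)
  [H.FiniteIndex]

theorem exists_pow_fixes (t : G) : ∃ n : ℕ, 0 < n ∧ ∀ x : G ⧸ H, t ^ n • x = x := by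
  haveI : Finite (G ⧸ H) := Subgroup.finite_quotient_of_finiteIndex
  refine ⟨orderOf (MulAction.toPermHom G (G ⧸ H) t),
    orderOf_pos (MulAction.toPermHom G (G ⧸ H) t), fun x => ?_⟩
  have h : (MulAction.toPermHom G (G ⧸ H) t) ^ orderOf (MulAction.toPermHom G (G ⧸ H) t) = 1 :=
    pow_orderOf_eq_one _
  rw [← map_pow] at h
  have := congrArg (fun e : Equiv.Perm (G ⧸ H) => e x) h
  simpa using this

/-- The general dimension bound for additive characters of a finite-index subgroup `H` of a
group generated by `s` and `u = s * t`, with `s² = u³ = z` central in `H`. -/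
theorem general_bound {s u t z : G} (hust : u = s * t) (hs2 : s ^ 2 = z) (hu3 : u ^ 3 = z)
    (hzH : z ∈ H) (hzc : ∀ g : G, g * z = z * g) (hgen : Subgroup.closure {s, u} = ⊤)
    (P : Submodule k (Additive H →+ k))
    (hPz : ∀ φ ∈ P, φ (Additive.ofMul ⟨z, hzH⟩) = 0)
    (hPpar : ∀ φ ∈ P, ∀ (m : ℕ) (x : G ⧸ H) (hm : (rep H x)⁻¹ * (t ^ m * rep H x) ∈ H),
      φ (Additive.ofMul ⟨_, hm⟩) = 0) :
    Module.Finite k (Additive H →+ k) ∧
    finrank k P + Nat.card (MulAction.orbitRel.Quotient (Subgroup.zpowers s) (G ⧸ H))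
      + Nat.card (MulAction.orbitRel.Quotient (Subgroup.zpowers u) (G ⧸ H))
      + Nat.card (MulAction.orbitRel.Quotient (Subgroup.zpowers t) (G ⧸ H))
      ≤ H.index + 2 := by
  classical
  haveI : Finite (G ⧸ H) := Subgroup.finite_quotient_of_finiteIndex
  obtain ⟨n, hn, htn⟩ := exists_pow_fixes H t
  set S : Module.End k (G ⧸ H → k) := act k s with hSdef
  set U : Module.End k (G ⧸ H → k) := act k u with hUdef
  set T : Module.End k (G ⧸ H → k) := act k t with hTdef
  have hzfix : ∀ x : G ⧸ H, z • x = x := central_fixes H hzH hzc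
  have hS : S ^ 2 = 1 := by
    rw [hSdef, ← act_pow, hs2]; exact act_eq_one_of_fixes k H hzfix
  have hU : U ^ 3 = 1 := by
    rw [hUdef, ← act_pow, hu3]; exact act_eq_one_of_fixes k H hzfix
  have hUST : U = S * T := by rw [hUdef, hust, act_mul]
  have hT : T ^ n = 1 := by
    rw [hTdef, ← act_pow]; exact act_eq_one_of_fixes k H htn
  have hSS : ∀ w : G ⧸ H → k, S (S w) = w := by
    intro w
    have := congrArg (fun f : Module.End k (G ⧸ H → k) => f w) hS
    simpa [pow_two, Module.End.mul_apply] using this
  set Ψ := shapiroMap k H s u with hΨdef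
  have hΨ : Function.Injective Ψ := shapiroMap_injective k H hgen
  have hfin : Module.Finite k (Additive H →+ k) := Module.Finite.of_injective Ψ hΨ
  refine ⟨hfin, ?_⟩
  set P' : Submodule k ((G ⧸ H → k) × (G ⧸ H → k)) := P.map Ψ with hP'def
  have hP' : P' ≤ constraintSpace S U T n := by
    rintro _ ⟨φ, hφ, rfl⟩
    have hcz : coc H φ z = 0 := coc_central k H φ hzH hzc (hPz φ hφ)
    refine ⟨⟨?_, ?_⟩, ?_⟩
    · show normOp S 2 (coc H φ s) = 0
      rw [hSdef, ← coc_pow, hs2, hcz]
    · show normOp U 3 (coc H φ u) = 0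
      rw [hUdef, ← coc_pow, hu3, hcz]
    · show thetaMap S T n (coc H φ s, coc H φ u) = 0
      rw [thetaMap_apply]
      have h1 : coc H φ u - coc H φ s = S (coc H φ t) := by
        rw [hust, coc_mul']; abel
      show normOp T n (S (coc H φ u - coc H φ s)) = 0
      rw [h1, hSS, hTdef, ← coc_pow]
      funext x
      have hfix : (t ^ n)⁻¹ • x = x := by
        have := htn ((t ^ n)⁻¹ • x); rw [smul_inv_smul] at this; exact this.symm
      have hm : (rep H x)⁻¹ * (t ^ n * rep H x) ∈ H := by
        have := cocElt_mem H (t ^ n) x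
        rwa [hfix] at this
      have hElt : cocElt H (t ^ n) x = ⟨_, hm⟩ := by
        apply Subtype.ext
        simp only [cocElt, hfix]
      show coc H φ (t ^ n) x = 0
      unfold coc
      rw [hElt]
      exact hPpar φ hφ n x hm
  have hdisj : Disjoint P' (LinearMap.range (cobMap S U)) := by
    rw [Submodule.disjoint_def]
    rintro _ ⟨φ, _, rfl⟩ ⟨v, hv⟩
    have hv1 : coc H φ s = act k s v - v := by
      have := congrArg Prod.fst hv
      rw [hΨdef, shapiroMap_apply] at this
      simpa [cobMap, hSdef] using this.symm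
    have hv2 : coc H φ u = act k u v - v := by
      have := congrArg Prod.snd hv
      rw [hΨdef, shapiroMap_apply] at this
      simpa [cobMap, hUdef] using this.symm
    have : φ = 0 := eq_zero_of_coc_eq_cob k H φ hgen v hv1 hv2
    rw [this, map_zero]
  have hmain := abstract_bound S U T n hn hS hU hUST hT P' hP' hdisj
  have e1 : finrank k P' = finrank k P :=
    (Submodule.equivMapOfInjective Ψ hΨ P).finrank_eq.symm
  have e2 : finrank k (LinearMap.ker (S - 1)) =
      Nat.card (MulAction.orbitRel.Quotient (Subgroup.zpowers s) (G ⧸ H)) :=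
    finrank_ker_act_sub_one k s
  have e3 : finrank k (LinearMap.ker (U - 1)) =
      Nat.card (MulAction.orbitRel.Quotient (Subgroup.zpowers u) (G ⧸ H)) :=
    finrank_ker_act_sub_one k u
  have e4 : finrank k (LinearMap.ker (T - 1)) =
      Nat.card (MulAction.orbitRel.Quotient (Subgroup.zpowers t) (G ⧸ H)) :=
    finrank_ker_act_sub_one k t
  have e5 : finrank k ↥(LinearMap.ker (S - 1) ⊓ LinearMap.ker (U - 1)) ≤ 1 :=
    finrank_inf_ker_le_one k hgen
  have e6 : Nat.card (G ⧸ H) ≤ finrank k ↥(LinearMap.range (1 - S) ⊔ LinearMap.range (1 - U)) + 1 :=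
    card_le_finrank_sup_range_add_one k hgen
  have e7 : finrank k (G ⧸ H → k) = Nat.card (G ⧸ H) := by
    letI := Fintype.ofFinite (G ⧸ H)
    rw [Module.finrank_fintype_fun_eq_card, Nat.card_eq_fintype_card]
  have e8 : H.index = Nat.card (G ⧸ H) := rfl
  omega

end MainGeneral

section SL2

open scoped MatrixGroups
open ModularGroup ModularCurve.Period

theorem S_sq : (S : SL(2, ℤ)) ^ 2 = -1 := by decide

theorem ST_cube : ((S : SL(2, ℤ)) * T) ^ 3 = -1 := by decide

theorem closure_S_ST : Subgroup.closure ({S, S * T} : Set SL(2, ℤ)) = ⊤ := by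
  rw [eq_top_iff, ← SpecialLinearGroup.SL2Z_generators, Subgroup.closure_le]
  rintro g (rfl | rfl)
  · exact Subgroup.subset_closure (by simp)
  · have h1 : (S : SL(2, ℤ)) ∈ Subgroup.closure ({S, S * T} : Set SL(2, ℤ)) :=
      Subgroup.subset_closure (by simp)
    have h2 : (S : SL(2, ℤ)) * T ∈ Subgroup.closure ({S, S * T} : Set SL(2, ℤ)) :=
      Subgroup.subset_closure (by simp)
    have h3 : (S : SL(2, ℤ))⁻¹ * (S * T) ∈ Subgroup.closure ({S, S * T} : Set SL(2, ℤ)) :=
      Subgroup.mul_mem _ (Subgroup.inv_mem _ h1) h2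
    rwa [inv_mul_cancel_left] at h3

theorem neg_one_central (g : SL(2, ℤ)) : g * (-1) = (-1) * g := by
  rw [mul_neg, neg_mul, mul_one, one_mul]

theorem trace_conj_T_pow (a : SL(2, ℤ)) (m : ℕ) :
    ((a⁻¹ * (T ^ m * a) : SL(2, ℤ)) : Matrix (Fin 2) (Fin 2) ℤ).trace = 2 := by
  have h1 : ((a⁻¹ * (T ^ m * a) : SL(2, ℤ)) : Matrix (Fin 2) (Fin 2) ℤ)
      = ((a⁻¹ : SL(2, ℤ)) : Matrix (Fin 2) (Fin 2) ℤ)
        * ((T ^ m * a : SL(2, ℤ)) : Matrix (Fin 2) (Fin 2) ℤ) :=
    Matrix.SpecialLinearGroup.coe_mul _ _
  rw [h1, Matrix.trace_mul_comm, ← Matrix.SpecialLinearGroup.coe_mul, mul_assoc,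
    mul_inv_cancel, mul_one]
  have h2 : ((T ^ m : SL(2, ℤ)) : Matrix (Fin 2) (Fin 2) ℤ) = !![1, (m : ℤ); 0, 1] := by
    have := ModularGroup.coe_T_zpow (m : ℤ)
    rwa [zpow_natCast] at this
  rw [h2, Matrix.trace_fin_two_of]
  norm_num

/-- **Main theorem** (group-cohomology half of Eichler–Shimura): for a finite-index subgroup
`Γ ≤ SL(2, ℤ)` containing `-1`, the space of parabolic additive characters is
finite-dimensional and
`dim + #orbits(S) + #orbits(S T) + #orbits(T) ≤ [SL(2, ℤ) : Γ] + 2`,
the orbits being taken on `SL(2, ℤ) ⧸ Γ`. -/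
theorem finrank_parabolicHoms_add_orbits_le (Γ : Subgroup SL(2, ℤ)) [Γ.FiniteIndex]
    (hneg : (-1 : SL(2, ℤ)) ∈ Γ) :
    Module.Finite ℂ (Additive Γ →+ ℂ) ∧
    finrank ℂ (parabolicHoms ℂ Γ ℂ)
      + Nat.card (MulAction.orbitRel.Quotient (Subgroup.zpowers (S : SL(2, ℤ))) (SL(2, ℤ) ⧸ Γ))
      + Nat.card (MulAction.orbitRel.Quotient (Subgroup.zpowers ((S : SL(2, ℤ)) * T))
          (SL(2, ℤ) ⧸ Γ))
      + Nat.card (MulAction.orbitRel.Quotient (Subgroup.zpowers (T : SL(2, ℤ))) (SL(2, ℤ) ⧸ Γ))
      ≤ Γ.index + 2 := by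
  refine general_bound ℂ Γ (s := S) (u := S * T) (t := T) (z := -1) rfl S_sq ST_cube hneg
    neg_one_central closure_S_ST (parabolicHoms ℂ Γ ℂ) ?_ ?_
  · intro φ hφ
    rw [mem_parabolicHoms_iff] at hφ
    apply hφ ⟨-1, hneg⟩
    show ((-1 : SL(2, ℤ)) : Matrix (Fin 2) (Fin 2) ℤ).trace ^ 2 = 4
    simp
  · intro φ hφ m x hm
    rw [mem_parabolicHoms_iff] at hφ
    apply hφ ⟨_, hm⟩
    show ((_ : SL(2, ℤ)) : Matrix (Fin 2) (Fin 2) ℤ).trace ^ 2 = 4
    rw [trace_conj_T_pow]
    norm_num

theorem finite_parabolicHoms (Γ : Subgroup SL(2, ℤ)) [Γ.FiniteIndex]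
    (hneg : (-1 : SL(2, ℤ)) ∈ Γ) : Module.Finite ℂ (parabolicHoms ℂ Γ ℂ) := by
  haveI := (finrank_parabolicHoms_add_orbits_le Γ hneg).1
  infer_instance

end SL2

end Fermat.Agent.S21.ParabolicDim
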