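import Mathlib
import Fermat.Statements.S21
import Fermat.Agent.S22.Primitive2
import Fermat.Agent.S22.SepAux

/-!
# S21, analytic half, part 1: the equivariant primitive and the period map

For `f : CuspForm (Gamma0 N) 2` the function `primF f := prim 1 ⇑f` (the primitive of `f` vanishing
at `i∞`, from `Fermat.Agent.S22.Primitive2`) satisfies `ModularCurve.HasEquivariantPrimitive N f`.
Consequently `periodMap N f γ = primF f (γ • z) - primF f z` for every `z`, the period map is
`ℂ`-linear, and `periodHomPair` unfolds to its explicit formula.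
-/

set_option autoImplicit false

open Complex Filter Topology Function
open UpperHalfPlane hiding I
open scoped MatrixGroups Manifold ModularForm
open ModularCurve ModularCurve.Period CongruenceSubgroup
open Fermat.Agent.S22

namespace Fermat.Agent.S21.PeriodPrim

variable {N : ℕ}

/-- The derivative of `z ↦ s • z` for `s : SL(2, ℤ)`. -/
theorem det_mapGL (s : SL(2, ℤ)) :
    ((Matrix.SpecialLinearGroup.mapGL ℝ s : GL (Fin 2) ℝ) : Matrix (Fin 2) (Fin 2) ℝ).det = 1 := by
  have := (Matrix.SpecialLinearGroup.map (Int.castRingHom ℝ) s).det_coe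
  simpa using this

/-- The derivative of `z ↦ s • z` for `s : SL(2, ℤ)`. -/
theorem hasDerivAt_SL_smul (s : SL(2, ℤ)) (τ : ℍ) :
    HasDerivAt (fun z : ℂ => ((s • ofComplex z : ℍ) : ℂ))
      (1 / denom (Matrix.SpecialLinearGroup.mapGL ℝ s) τ ^ 2) τ := by
  have hdet : 0 < ((Matrix.SpecialLinearGroup.mapGL ℝ s : GL (Fin 2) ℝ) :
      Matrix (Fin 2) (Fin 2) ℝ).det := by
    rw [det_mapGL]; exact one_pos
  have h := (hasStrictDerivAt_smul hdet τ).hasDerivAt
  rw [det_mapGL] at h
  have h2 : (((1 : ℝ) : ℂ)) / denom (Matrix.SpecialLinearGroup.mapGL ℝ s) τ ^ 2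
      = 1 / denom (Matrix.SpecialLinearGroup.mapGL ℝ s) τ ^ 2 := by simp
  rw [h2] at h
  exact h

/-- Cusp forms for `Γ₀(N)` are cuspidal of period `1`. -/
theorem isCuspidal_coe [NeZero N] {k : ℤ} (f : CuspForm (Gamma0 N) k) :
    IsCuspidal 1 (f : ℍ → ℂ) := by
  obtain ⟨h1, h2, h3⟩ := SepAux.self_props f
  exact ⟨by simpa using h2, h1, h3⟩

/-- All `SL(2, ℤ)`-translates of a cusp form for `Γ₀(N)` are cuspidal, with a common period. -/
theorem exists_isCuspidal_slash [NeZero N] {k : ℤ} (f : CuspForm (Gamma0 N) k) :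
    ∃ M : ℕ, 0 < M ∧ ∀ s : SL(2, ℤ), IsCuspidal (M : ℝ) ((f : ℍ → ℂ) ∣[k] s) := by
  obtain ⟨M, hM, h⟩ := SepAux.translate_props f
  exact ⟨M, hM, fun s => ⟨by simpa using (h s).2.1, (h s).1, (h s).2.2⟩⟩

/-- The primitive of a weight-two cusp form vanishing at `i∞`. -/
noncomputable def primF (f : CuspForm (Gamma0 N) 2) : ℍ → ℂ := prim 1 (f : ℍ → ℂ)

section

variable [NeZero N] (f : CuspForm (Gamma0 N) 2)

theorem hasDerivAt_primF (τ : ℍ) : HasDerivAt (primF f ∘ ofComplex) (f τ) τ :=
  hasDerivAt_prim one_pos (isCuspidal_coe f) τ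

theorem isZeroAtImInfty_primF : IsZeroAtImInfty (primF f) :=
  (isCuspidal_prim one_pos (isCuspidal_coe f)).zero

theorem mdiff_primF : MDiff (primF f) :=
  (isCuspidal_prim one_pos (isCuspidal_coe f)).hol

omit [NeZero N] in
theorem slash_two_apply (s : SL(2, ℤ)) (τ : ℍ) :
    ((f : ℍ → ℂ) ∣[(2 : ℤ)] s) τ =
      f (s • τ) * (1 / denom (Matrix.SpecialLinearGroup.mapGL ℝ s) τ ^ 2) := by
  rw [ModularForm.SL_slash_apply]
  have : denom (Matrix.SpecialLinearGroup.toGL
      ((Matrix.SpecialLinearGroup.map (Int.castRingHom ℝ)) s)) τ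
      = denom (Matrix.SpecialLinearGroup.mapGL ℝ s) τ := rfl
  rw [this, zpow_neg, one_div]
  norm_cast

/-- The derivative of `w ↦ primF f (s • w)` is `f ∣[2] s`. -/
theorem hasDerivAt_primF_smul (s : SL(2, ℤ)) (τ : ℍ) :
    HasDerivAt ((fun w : ℍ => primF f (s • w)) ∘ ofComplex) (((f : ℍ → ℂ) ∣[(2 : ℤ)] s) τ) τ := by
  have h1 := hasDerivAt_primF f (s • τ)
  have h2 := hasDerivAt_SL_smul s τ
  have h3 : ((s • ofComplex (τ : ℂ) : ℍ) : ℂ) = ((s • τ : ℍ) : ℂ) := by
    rw [ofComplex_apply]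
  have h4 := HasDerivAt.comp_of_eq (τ : ℂ) h1 h2 h3.symm
  rw [slash_two_apply]
  refine h4.congr_of_eventuallyEq ?_
  filter_upwards with z
  simp only [comp_apply, ofComplex_apply]

omit [NeZero N] in
/-- Weight-two invariance of `f` under `Γ₀(N)`, pointwise. -/
theorem slash_two_eq_self {γ : SL(2, ℤ)} (hγ : γ ∈ Gamma0 N) (τ : ℍ) :
    ((f : ℍ → ℂ) ∣[(2 : ℤ)] γ) τ = f τ := by
  have h := SlashInvariantFormClass.slash_action_eq f (Matrix.SpecialLinearGroup.mapGL ℝ γ)
    (Subgroup.mem_map_of_mem _ hγ)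
  have h2 := congrFun h τ
  exact h2

/-- The period constant: `primF f (γ • z) - primF f z` does not depend on `z`. -/
theorem primF_smul_sub_const {γ : SL(2, ℤ)} (hγ : γ ∈ Gamma0 N) (z z' : ℍ) :
    primF f (γ • z) - primF f z = primF f (γ • z') - primF f z' := by
  have hd : ∀ τ : ℍ, HasDerivAt ((fun w : ℍ => primF f (γ • w) - primF f w) ∘ ofComplex) 0 τ := by
    intro τ
    have h1 := hasDerivAt_primF_smul f γ τ
    rw [slash_two_eq_self f hγ] at h1
    have h2 := h1.sub (hasDerivAt_primF f τ)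
    rw [sub_self] at h2
    exact h2
  exact eq_of_hasDerivAt_zero hd z z'

theorem isEquivariantPrimitive_primF : IsEquivariantPrimitive (Gamma0 N) (primF f) := by
  intro γ
  exact ⟨primF f ((γ : SL(2, ℤ)) • UpperHalfPlane.I) - primF f UpperHalfPlane.I,
    fun z => primF_smul_sub_const f γ.2 z UpperHalfPlane.I⟩

/-- `primF f` has a limit at every cusp. -/
theorem exists_tendsto_primF_smul (δ : SL(2, ℤ)) :
    ∃ L : ℂ, Tendsto (fun w : ℍ => primF f (δ • w)) atImInfty (𝓝 L) := by
  obtain ⟨M, hM, hcusp⟩ := exists_isCuspidal_slash f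
  have hM' : (0 : ℝ) < M := by exact_mod_cast hM
  set P := prim (M : ℝ) ((f : ℍ → ℂ) ∣[(2 : ℤ)] δ) with hP
  have hd : ∀ τ : ℍ, HasDerivAt ((fun w : ℍ => primF f (δ • w) - P w) ∘ ofComplex) 0 τ := by
    intro τ
    have h1 := hasDerivAt_primF_smul f δ τ
    have h2 := h1.sub (hasDerivAt_prim hM' (hcusp δ) τ)
    rw [sub_self] at h2
    exact h2
  refine ⟨primF f (δ • UpperHalfPlane.I) - P UpperHalfPlane.I, ?_⟩
  have hconst : ∀ w : ℍ, primF f (δ • w) =
      P w + (primF f (δ • UpperHalfPlane.I) - P UpperHalfPlane.I) := by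
    intro w
    have := eq_of_hasDerivAt_zero hd w UpperHalfPlane.I
    linear_combination this
  have hPz : Tendsto P atImInfty (𝓝 0) := (isCuspidal_prim hM' (hcusp δ)).zero
  have h3 := hPz.add_const (primF f (δ • UpperHalfPlane.I) - P UpperHalfPlane.I)
  rw [zero_add] at h3
  refine h3.congr fun w => ?_
  rw [hconst w]

/-- **AN1**: every weight-two cusp form for `Γ₀(N)` has an equivariant primitive. -/
theorem hasEquivariantPrimitive_primF : HasEquivariantPrimitive N f (primF f) :=
  ⟨hasDerivAt_primF f, isZeroAtImInfty_primF f, isEquivariantPrimitive_primF f,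
    exists_tendsto_primF_smul f⟩

/-- Uniqueness of the equivariant primitive. -/
theorem eq_primF {F : ℍ → ℂ} (hF : HasEquivariantPrimitive N f F) : F = primF f :=
  eq_prim one_pos (isCuspidal_coe f) hF.1 hF.2.1

/-- The period map in terms of `primF`, with an arbitrary base point. -/
theorem periodMap_apply (γ : Gamma0 N) (z : ℍ) :
    periodMap N f (Additive.ofMul γ) = primF f ((γ : SL(2, ℤ)) • z) - primF f z := by
  obtain ⟨F₀, h₀, hp⟩ := periodMap_def N f (hasEquivariantPrimitive_primF f)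
  have hF₀ : F₀ = primF f := eq_primF f h₀
  subst hF₀
  rw [hp, IsEquivariantPrimitive.periodHom_apply, ← h₀.2.2.1.sub_eq_period γ z]

end

section Linear

variable [NeZero N]

theorem primF_add (f g : CuspForm (Gamma0 N) 2) : primF (f + g) = primF f + primF g := by
  unfold primF
  have : ((f + g : CuspForm (Gamma0 N) 2) : ℍ → ℂ) = (f : ℍ → ℂ) + (g : ℍ → ℂ) := rfl
  rw [this]
  exact prim_add one_pos (isCuspidal_coe f) (isCuspidal_coe g)

theorem primF_smul (c : ℂ) (f : CuspForm (Gamma0 N) 2) : primF (c • f) = c • primF f := by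
  unfold primF
  have : ((c • f : CuspForm (Gamma0 N) 2) : ℍ → ℂ) = c • (f : ℍ → ℂ) := rfl
  rw [this]
  exact prim_smul one_pos c (isCuspidal_coe f)

theorem periodMap_add (f g : CuspForm (Gamma0 N) 2) :
    periodMap N (f + g) = periodMap N f + periodMap N g := by
  refine AddMonoidHom.ext fun γ => ?_
  obtain ⟨γ, rfl⟩ := Additive.ofMul.surjective γ
  rw [AddMonoidHom.add_apply, periodMap_apply _ γ UpperHalfPlane.I,
    periodMap_apply _ γ UpperHalfPlane.I, periodMap_apply _ γ UpperHalfPlane.I, primF_add]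
  simp only [Pi.add_apply]
  ring

theorem periodMap_smul (c : ℂ) (f : CuspForm (Gamma0 N) 2) :
    periodMap N (c • f) = c • periodMap N f := by
  refine AddMonoidHom.ext fun γ => ?_
  obtain ⟨γ, rfl⟩ := Additive.ofMul.surjective γ
  rw [AddMonoidHom.smul_apply, periodMap_apply _ γ UpperHalfPlane.I,
    periodMap_apply _ γ UpperHalfPlane.I, primF_smul]
  simp only [Pi.smul_apply, smul_eq_mul]
  ring

/-- The period map as a `ℂ`-linear map. -/
noncomputable def pml (N : ℕ) [NeZero N] :
    CuspForm (Gamma0 N) 2 →ₗ[ℂ] (Additive (Gamma0 N) →+ ℂ) where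
  toFun f := periodMap N f
  map_add' := periodMap_add
  map_smul' := periodMap_smul

@[simp] theorem pml_apply (f : CuspForm (Gamma0 N) 2) : pml N f = periodMap N f := rfl

theorem existsPeriodMapLinear : ExistsPeriodMapLinear N := ⟨pml N, fun _ => rfl⟩

/-- The explicit formula for `periodHomPair`. -/
theorem periodHomPair_eq :
    periodHomPair N = LinearMap.coprod
      ((LinearMap.id + charInvolution N ℂ ℂ) ∘ₗ pml N)
      ((LinearMap.id - charInvolution N ℂ ℂ) ∘ₗ pml N) := by
  obtain ⟨p, hp, h⟩ := periodHomPair_def N existsPeriodMapLinear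
  have : p = pml N := LinearMap.ext fun f => by rw [hp f, pml_apply]
  rw [h, this]

theorem periodHomPair_apply (f g : CuspForm (Gamma0 N) 2) :
    periodHomPair N (f, g) =
      (periodMap N f + charInvolution N ℂ ℂ (periodMap N f)) +
        (periodMap N g - charInvolution N ℂ ℂ (periodMap N g)) := by
  rw [periodHomPair_eq]
  simp [LinearMap.coprod_apply]

end Linear

end Fermat.Agent.S21.PeriodPrim
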