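import Mathlib
import Fermat.Agent.S21.PeriodPrim

/-!
# S21, analytic half, part 3: injectivity of `periodHomPair` (glue)

Given the maximum principle lemma `[MAX]` (as the hypothesis `MaxPrincipleStatement N`), the map
`periodHomPair N` is injective.  No conjugate cusp form is needed: we use the reflected primitive
`F̃ z = conj (F (J • z))`, `J • z = -conj z`, as a plain holomorphic function on `ℍ`.
-/

set_option autoImplicit false

open Complex Filter Topology Function
open UpperHalfPlane hiding I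
open scoped MatrixGroups Manifold ModularForm ComplexConjugate
open ModularCurve ModularCurve.Period CongruenceSubgroup

namespace Fermat.Agent.S21.Injective

open Fermat.Agent.S21.PeriodPrim

/-- The statement of the maximum principle lemma `[MAX]`. -/
def MaxPrincipleStatement (N : ℕ) : Prop :=
  ∀ H : ℍ → ℂ, MDiff H →
    (∀ γ ∈ Gamma0 N, ∀ z : ℍ, (H (γ • z)).re = (H z).re) →
    (∀ δ : SL(2, ℤ), ∃ L : ℂ, Tendsto (fun w : ℍ => H (δ • w)) atImInfty (𝓝 L)) →
    ∀ z w : ℍ, H z = H w

/-- The reflection `F̃ z = conj (F (-conj z))`. -/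
noncomputable def refl (F : ℍ → ℂ) : ℍ → ℂ := fun z => conj (F (J • z))

theorem J_smul_SL_smul (γ : SL(2, ℤ)) (z : ℍ) : J • (γ • z) = (jConjSL γ) • (J • z) := by
  have h : J * (Matrix.SpecialLinearGroup.mapGL ℝ γ)
      = (Matrix.SpecialLinearGroup.mapGL ℝ (jConjSL γ)) * J := by
    ext i j
    fin_cases i <;> fin_cases j <;> simp [Matrix.mul_apply, Fin.sum_univ_two, jConjMat]
  calc J • (γ • z) = J • ((Matrix.SpecialLinearGroup.mapGL ℝ γ) • z) := rfl
    _ = (J * (Matrix.SpecialLinearGroup.mapGL ℝ γ)) • z := (mul_smul _ _ _).symm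
    _ = ((Matrix.SpecialLinearGroup.mapGL ℝ (jConjSL γ)) * J) • z := by rw [h]
    _ = (Matrix.SpecialLinearGroup.mapGL ℝ (jConjSL γ)) • (J • z) := mul_smul _ _ _
    _ = (jConjSL γ) • (J • z) := rfl

theorem im_J_smul (z : ℍ) : (J • z).im = z.im := by
  have h := coe_J_smul z
  have h2 : ((J • z : ℍ) : ℂ).im = (-conj (z : ℂ)).im := by rw [h]
  simpa using h2

theorem tendsto_J_smul_atImInfty : Tendsto (fun w : ℍ => J • w) atImInfty atImInfty := by
  rw [atImInfty, tendsto_comap_iff]
  have : (UpperHalfPlane.im ∘ fun w : ℍ => J • w) = UpperHalfPlane.im := by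
    funext w
    simp only [comp_apply]
    exact im_J_smul w
  rw [this]
  exact tendsto_comap

/-- Derivative of the reflection. -/
theorem hasDerivAt_refl {F : ℍ → ℂ} {f' : ℂ} (τ : ℍ)
    (h : HasDerivAt (F ∘ ofComplex) f' ((J • τ : ℍ) : ℂ)) :
    HasDerivAt (refl F ∘ ofComplex) (-conj f') τ := by
  -- `g₁ u = (F ∘ ofComplex) (-u)` has derivative `-f'` at `conj τ`
  have hneg : HasDerivAt (fun u : ℂ => -u) (-1) (conj (τ : ℂ)) := (hasDerivAt_id _).neg
  have hpt : -(conj (τ : ℂ)) = ((J • τ : ℍ) : ℂ) := (coe_J_smul τ).symm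
  have h1 : HasDerivAt (fun u : ℂ => (F ∘ ofComplex) (-u)) (f' * (-1)) (conj (τ : ℂ)) := by
    have h' : HasDerivAt (F ∘ ofComplex) f' (-(conj (τ : ℂ))) := by rw [hpt]; exact h
    exact HasDerivAt.comp (conj (τ : ℂ)) h' hneg
  have h2 := h1.conj_conj
  rw [Complex.conj_conj] at h2
  have h3 : conj (f' * (-1)) = -conj f' := by simp
  rw [h3] at h2
  refine h2.congr_of_eventuallyEq ?_
  filter_upwards [isOpen_upperHalfPlaneSet.mem_nhds τ.im_pos] with z hz
  simp only [comp_apply, refl]
  congr 2
  apply UpperHalfPlane.ext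
  rw [coe_J_smul, ofComplex_apply_of_im_pos hz]
  rw [ofComplex_apply_of_im_pos (by simpa using hz)]

theorem mdiff_refl {F : ℍ → ℂ} (hF : MDiff F) : MDiff (refl F) := by
  intro τ
  rw [UpperHalfPlane.mdifferentiableAt_iff]
  have h := (UpperHalfPlane.mdifferentiableAt_iff.mp (hF (J • τ))).hasDerivAt
  exact (hasDerivAt_refl τ h).differentiableAt

section Main

variable {N : ℕ} [NeZero N] (f : CuspForm (Gamma0 N) 2)

/-- The period constant of `f` at `γ`. -/
noncomputable abbrev per (γ : Gamma0 N) : ℂ := periodMap N f (Additive.ofMul γ)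

theorem primF_smul_eq (γ : Gamma0 N) (z : ℍ) :
    primF f ((γ : SL(2, ℤ)) • z) = primF f z + per f γ := by
  rw [per, periodMap_apply f γ z]; ring

theorem refl_primF_smul_eq (γ : Gamma0 N) (z : ℍ) :
    refl (primF f) ((γ : SL(2, ℤ)) • z) = refl (primF f) z + conj (per f (jConjGamma0 N γ)) := by
  simp only [refl]
  rw [J_smul_SL_smul, ← map_add]
  congr 1
  have := primF_smul_eq f (jConjGamma0 N γ) (J • z)
  rw [jConjGamma0_coe] at this
  exact this

theorem exists_tendsto_refl_primF_smul (δ : SL(2, ℤ)) :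
    ∃ L : ℂ, Tendsto (fun w : ℍ => refl (primF f) (δ • w)) atImInfty (𝓝 L) := by
  obtain ⟨L, hL⟩ := exists_tendsto_primF_smul f (jConjSL δ)
  refine ⟨conj L, ?_⟩
  have h1 : Tendsto (fun w : ℍ => primF f ((jConjSL δ) • (J • w))) atImInfty (𝓝 L) :=
    hL.comp tendsto_J_smul_atImInfty
  have h2 := (Complex.continuous_conj.tendsto L).comp h1
  refine h2.congr fun w => ?_
  simp only [comp_apply, refl, J_smul_SL_smul]

/-- The combination `a F + b F̃` is constant as soon as all its jumps are purely imaginary. -/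
theorem const_of_re_jump_eq_zero (hmax : MaxPrincipleStatement N) (a b : ℂ)
    (h : ∀ γ : Gamma0 N, (a * per f γ + b * conj (per f (jConjGamma0 N γ))).re = 0) :
    ∀ z w : ℍ, a * primF f z + b * refl (primF f) z = a * primF f w + b * refl (primF f) w := by
  have hmd : MDiff (fun z : ℍ => a * primF f z + b * refl (primF f) z) :=
    ((mdiff_primF f).const_smul a).add ((mdiff_refl (mdiff_primF f)).const_smul b)
  refine hmax (fun z : ℍ => a * primF f z + b * refl (primF f) z) hmd ?_ ?_
  · intro γ hγ z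
    have h1 := primF_smul_eq f ⟨γ, hγ⟩ z
    have h2 := refl_primF_smul_eq f ⟨γ, hγ⟩ z
    simp only at h1 h2
    have h3 := h ⟨γ, hγ⟩
    have h4 : a * primF f (γ • z) + b * refl (primF f) (γ • z)
        = (a * primF f z + b * refl (primF f) z)
          + (a * per f ⟨γ, hγ⟩ + b * conj (per f (jConjGamma0 N ⟨γ, hγ⟩))) := by
      rw [h1, h2]; ring
    simp only [h4, Complex.add_re, h3, add_zero]
  · intro δ
    obtain ⟨L₁, hL₁⟩ := exists_tendsto_primF_smul f δ
    obtain ⟨L₂, hL₂⟩ := exists_tendsto_refl_primF_smul f δ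
    exact ⟨a * L₁ + b * L₂, (hL₁.const_mul a).add (hL₂.const_mul b)⟩

/-- A cusp form whose primitive is constant vanishes. -/
theorem eq_zero_of_primF_const (h : ∀ z w : ℍ, primF f z = primF f w) : f = 0 := by
  ext τ
  have h1 := hasDerivAt_primF f τ
  have h2 : primF f ∘ ofComplex = fun _ => primF f τ := funext fun z => h _ _
  rw [h2] at h1
  have h3 := (hasDerivAt_const (τ : ℂ) (primF f τ)).unique h1
  simpa using h3.symm

/-- If the periods of `f` are anti-invariant under `γ ↦ jγj`, then `f = 0`. -/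
theorem eq_zero_of_per_jConj_eq_neg (hmax : MaxPrincipleStatement N)
    (h : ∀ γ : Gamma0 N, per f (jConjGamma0 N γ) = -per f γ) : f = 0 := by
  apply eq_zero_of_primF_const
  have h1 := const_of_re_jump_eq_zero f hmax 1 1 (fun γ => by
    rw [h γ]; simp)
  have h2 := const_of_re_jump_eq_zero f hmax I (-I) (fun γ => by
    rw [h γ]; simp)
  intro z w
  have e1 := h1 z w
  have e2 := h2 z w
  have hI : I * I = -1 := Complex.I_mul_I
  linear_combination (1 / 2 : ℂ) * e1 - (I / 2) * e2 +
    ((primF f z - refl (primF f) z - primF f w + refl (primF f) w) / 2) * hI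

/-- If the periods of `f` are invariant under `γ ↦ jγj`, then `f = 0`. -/
theorem eq_zero_of_per_jConj_eq (hmax : MaxPrincipleStatement N)
    (h : ∀ γ : Gamma0 N, per f (jConjGamma0 N γ) = per f γ) : f = 0 := by
  apply eq_zero_of_primF_const
  have h1 := const_of_re_jump_eq_zero f hmax I I (fun γ => by
    rw [h γ]; simp)
  have h2 := const_of_re_jump_eq_zero f hmax 1 (-1) (fun γ => by
    rw [h γ]; simp)
  intro z w
  have e1 := h1 z w
  have e2 := h2 z w
  have hI : I * I = -1 := Complex.I_mul_I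
  linear_combination (-I / 2) * e1 + (1 / 2 : ℂ) * e2 +
    ((primF f z + refl (primF f) z - primF f w - refl (primF f) w) / 2) * hI

end Main

/-- **AN3**: `periodHomPair N` is injective (given the maximum principle lemma). -/
theorem injective_periodHomPair {N : ℕ} [NeZero N] (hmax : MaxPrincipleStatement N) :
    Function.Injective (periodHomPair N) := by
  rw [injective_iff_map_eq_zero]
  rintro ⟨f, g⟩ h
  rw [periodHomPair_apply] at h
  have key : ∀ γ : Gamma0 N,
      per f γ + per f (jConjGamma0 N γ) + (per g γ - per g (jConjGamma0 N γ)) = 0 := by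
    intro γ
    have := DFunLike.congr_fun h (Additive.ofMul γ)
    simpa [charInvolution_apply] using this
  have hf : ∀ γ : Gamma0 N, per f (jConjGamma0 N γ) = -per f γ := by
    intro γ
    have e1 := key γ
    have e2 := key (jConjGamma0 N γ)
    rw [jConjGamma0_jConjGamma0] at e2
    linear_combination (1 / 2 : ℂ) * e1 + (1 / 2 : ℂ) * e2
  have hg : ∀ γ : Gamma0 N, per g (jConjGamma0 N γ) = per g γ := by
    intro γ
    have e1 := key γ
    have e2 := key (jConjGamma0 N γ)
    rw [jConjGamma0_jConjGamma0] at e2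
    linear_combination (-1 / 2 : ℂ) * e1 + (1 / 2 : ℂ) * e2
  rw [eq_zero_of_per_jConj_eq_neg f hmax hf, eq_zero_of_per_jConj_eq g hmax hg]
  rfl

end Fermat.Agent.S21.Injective
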