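import Mathlib

/-!
# S21, sub-lemma PARA-CLASS: parabolic elements of `SL(2, ℤ)` are conjugate to `± T ^ m`
-/

set_option autoImplicit false

namespace Fermat.Agent.S21.ParaClass

open Matrix
open scoped MatrixGroups

/-- An element of `SL(2, ℤ)` whose first column is `(1, 0)` is a power of `T`. -/
theorem eq_T_zpow_of_col (M : SL(2, ℤ)) (h00 : M 0 0 = 1) (h10 : M 1 0 = 0) :
    M = ModularGroup.T ^ (M 0 1) := by
  have hdet := Matrix.det_fin_two (M : Matrix (Fin 2) (Fin 2) ℤ)
  rw [M.det_coe, h00, h10] at hdet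
  have h11 : M 1 1 = 1 := by linarith
  ext i j
  rw [ModularGroup.coe_T_zpow]
  fin_cases i <;> fin_cases j <;> simp [h00, h10, h11]

/-- An element of `SL(2, ℤ)` of trace `2` is conjugate to a power of `T`. -/
theorem exists_conj_of_trace_eq_two (γ : SL(2, ℤ))
    (h : (γ : Matrix (Fin 2) (Fin 2) ℤ).trace = 2) :
    ∃ (δ : SL(2, ℤ)) (m : ℤ), γ = δ * ModularGroup.T ^ m * δ⁻¹ := by
  set a := γ 0 0 with ha
  set b := γ 0 1 with hb
  set c := γ 1 0 with hc
  set d := γ 1 1 with hd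
  have htr : a + d = 2 := by
    rw [Matrix.trace_fin_two] at h
    exact h
  have hdet : a * d - b * c = 1 := by
    have := Matrix.det_fin_two (γ : Matrix (Fin 2) (Fin 2) ℤ)
    rw [γ.det_coe] at this
    exact this.symm
  set e := a - 1 with he
  have hd' : d = 1 - e := by rw [he]; linarith
  have hrel : e * e + b * c = 0 := by
    rw [hd'] at hdet
    have : a = e + 1 := by rw [he]; ring
    rw [this] at hdet
    linarith [hdet]
  by_cases h0 : e = 0 ∧ c = 0
  · -- `γ` is already a power of `T`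
    refine ⟨1, b, ?_⟩
    rw [one_mul, inv_one, mul_one]
    have h00 : γ 0 0 = 1 := by
      have := h0.1
      rw [he] at this
      linarith
    exact eq_T_zpow_of_col γ h00 h0.2
  · set t : ℤ := (Int.gcd e c : ℤ) with ht
    have ht0 : t ≠ 0 := by
      rw [ht]
      intro h1
      apply h0
      have : Int.gcd e c = 0 := by exact_mod_cast h1
      exact Int.gcd_eq_zero_iff.mp this
    obtain ⟨x, hx⟩ : t ∣ e := Int.gcd_dvd_left e c
    obtain ⟨z, hz⟩ : t ∣ c := Int.gcd_dvd_right e c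
    have hbez : t = e * Int.gcdA e c + c * Int.gcdB e c := Int.gcd_eq_gcd_ab e c
    set A := Int.gcdA e c with hA
    set B := Int.gcdB e c with hB
    have hbez' : x * A + z * B = 1 := by
      have h1 : t * (x * A + z * B) = t * 1 := by
        rw [mul_one]
        conv_rhs => rw [hbez, hx, hz]
        ring
      exact mul_left_cancel₀ ht0 h1
    -- the fixed vector `(x, z)`
    have hfix1 : e * x + b * z = 0 := by
      have h1 : t * (e * x + b * z) = t * 0 := by
        rw [mul_zero]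
        have : t * (e * x + b * z) = e * (t * x) + b * (t * z) := by ring
        rw [this, ← hx, ← hz]
        exact hrel
      exact mul_left_cancel₀ ht0 h1
    have hfix2 : c * x - e * z = 0 := by
      have h1 : t * (c * x - e * z) = t * 0 := by
        rw [mul_zero]
        have : t * (c * x - e * z) = c * (t * x) - e * (t * z) := by ring
        rw [this, ← hx, ← hz]
        ring
      exact mul_left_cancel₀ ht0 h1
    let δ : SL(2, ℤ) := ⟨!![x, -B; z, A], by
      rw [Matrix.det_fin_two_of]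
      linear_combination hbez'⟩
    have hδ : (δ : Matrix (Fin 2) (Fin 2) ℤ) = !![x, -B; z, A] := rfl
    have hδinv : ((δ⁻¹ : SL(2, ℤ)) : Matrix (Fin 2) (Fin 2) ℤ) = !![A, B; -z, x] := by
      rw [Matrix.SpecialLinearGroup.coe_inv, hδ, Matrix.adjugate_fin_two_of]
      simp
    have hγ : (γ : Matrix (Fin 2) (Fin 2) ℤ) = !![a, b; c, d] := by
      ext i j
      fin_cases i <;> fin_cases j <;> rfl
    set M : SL(2, ℤ) := δ⁻¹ * γ * δ with hM
    have hMcoe : (M : Matrix (Fin 2) (Fin 2) ℤ) = !![A, B; -z, x] * !![a, b; c, d] * !![x, -B; z, A] := by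
      rw [hM, Matrix.SpecialLinearGroup.coe_mul, Matrix.SpecialLinearGroup.coe_mul, hδinv, hγ, hδ]
    have ha' : a = e + 1 := by rw [he]; ring
    have hM00 : M 0 0 = 1 := by
      have : M 0 0 = (M : Matrix (Fin 2) (Fin 2) ℤ) 0 0 := rfl
      rw [this, hMcoe]
      simp [Matrix.mul_apply, Fin.sum_univ_two]
      rw [hd', ha']
      linear_combination (A) * hfix1 + (B) * hfix2 + hbez'
    have hM10 : M 1 0 = 0 := by
      have : M 1 0 = (M : Matrix (Fin 2) (Fin 2) ℤ) 1 0 := rfl
      rw [this, hMcoe]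
      simp [Matrix.mul_apply, Fin.sum_univ_two]
      rw [hd', ha']
      linear_combination (-z) * hfix1 + (x) * hfix2
    refine ⟨δ, M 0 1, ?_⟩
    rw [← eq_T_zpow_of_col M hM00 hM10, hM]
    group

/-- **PARA-CLASS.**  An element of `SL(2, ℤ)` with `trace ^ 2 = 4` is `± δ T ^ m δ⁻¹`. -/
theorem exists_conj_T_zpow (γ : SL(2, ℤ))
    (h : ((γ : Matrix (Fin 2) (Fin 2) ℤ).trace) ^ 2 = 4) :
    ∃ (δ : SL(2, ℤ)) (m : ℤ), γ = δ * ModularGroup.T ^ m * δ⁻¹ ∨
      γ = -(δ * ModularGroup.T ^ m * δ⁻¹) := by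
  have h2 : (γ : Matrix (Fin 2) (Fin 2) ℤ).trace = 2 ∨
      (γ : Matrix (Fin 2) (Fin 2) ℤ).trace = -2 := by
    have : ((γ : Matrix (Fin 2) (Fin 2) ℤ).trace) ^ 2 = 2 ^ 2 := by rw [h]; norm_num
    exact sq_eq_sq_iff_eq_or_eq_neg.mp this
  rcases h2 with h2 | h2
  · obtain ⟨δ, m, hδ⟩ := exists_conj_of_trace_eq_two γ h2
    exact ⟨δ, m, Or.inl hδ⟩
  · have h3 : ((-γ : SL(2, ℤ)) : Matrix (Fin 2) (Fin 2) ℤ).trace = 2 := by
      rw [Matrix.SpecialLinearGroup.coe_neg, Matrix.trace_neg, h2]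
      norm_num
    obtain ⟨δ, m, hδ⟩ := exists_conj_of_trace_eq_two (-γ) h3
    refine ⟨δ, m, Or.inr ?_⟩
    rw [← hδ, neg_neg]

end Fermat.Agent.S21.ParaClass
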