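import Mathlib
import Fermat.Agent.S21.PeriodPrim
import Fermat.Agent.S21.ParaClass

/-!
# S21, analytic half, part 2: periods of parabolic elements vanish

`periodMap N f` lies in `parabolicHoms`, hence so does the range of `periodHomPair N`.
-/

set_option autoImplicit false

open Complex Filter Topology Function
open UpperHalfPlane hiding I
open scoped MatrixGroups Manifold ModularForm
open ModularCurve ModularCurve.Period CongruenceSubgroup

namespace Fermat.Agent.S21.Parabolic

open Fermat.Agent.S21.PeriodPrim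

variable {N : ℕ} [NeZero N]

theorem tendsto_T_zpow_smul_atImInfty (m : ℤ) :
    Tendsto (fun w : ℍ => (ModularGroup.T ^ m) • w) atImInfty atImInfty := by
  rw [atImInfty, tendsto_comap_iff]
  have : (UpperHalfPlane.im ∘ fun w : ℍ => (ModularGroup.T ^ m) • w) = UpperHalfPlane.im := by
    funext w
    simp only [comp_apply]
    rw [ModularGroup.im_T_zpow_smul]
  rw [this]
  exact tendsto_comap

/-- The period of an element of `Γ₀(N)` which acts on `ℍ` like `δ T^m δ⁻¹` vanishes. -/
theorem periodMap_eq_zero_of_smul_eq (f : CuspForm (Gamma0 N) 2) (γ : Gamma0 N)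
    (δ : SL(2, ℤ)) (m : ℤ)
    (h : ∀ w : ℍ, (γ : SL(2, ℤ)) • (δ • w) = δ • ((ModularGroup.T ^ m) • w)) :
    periodMap N f (Additive.ofMul γ) = 0 := by
  obtain ⟨L, hL⟩ := exists_tendsto_primF_smul f δ
  have h1 : Tendsto (fun w : ℍ => primF f (δ • ((ModularGroup.T ^ m) • w))) atImInfty (𝓝 L) :=
    hL.comp (tendsto_T_zpow_smul_atImInfty m)
  have h2 := h1.sub hL
  rw [sub_self] at h2
  have h3 : (fun w : ℍ => primF f (δ • ((ModularGroup.T ^ m) • w)) - primF f (δ • w))
      = fun _ => periodMap N f (Additive.ofMul γ) := by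
    funext w
    rw [periodMap_apply f γ (δ • w), h w]
  rw [h3] at h2
  exact tendsto_nhds_unique tendsto_const_nhds h2

/-- **AN2**: the period map takes values in the parabolic homomorphisms. -/
theorem periodMap_mem_parabolicHoms (f : CuspForm (Gamma0 N) 2) :
    periodMap N f ∈ parabolicHoms ℂ (Gamma0 N) ℂ := by
  rw [mem_parabolicHoms_iff]
  intro γ hγ
  obtain ⟨δ, m, h | h⟩ := ParaClass.exists_conj_T_zpow (γ : SL(2, ℤ)) hγ
  · refine periodMap_eq_zero_of_smul_eq f γ δ m fun w => ?_
    rw [h, mul_smul, mul_smul, inv_smul_smul]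
  · refine periodMap_eq_zero_of_smul_eq f γ δ m fun w => ?_
    rw [h, ModularGroup.SL_neg_smul, mul_smul, mul_smul, inv_smul_smul]

/-- The range of `periodHomPair` consists of parabolic homomorphisms. -/
theorem range_periodHomPair_le :
    LinearMap.range (periodHomPair N) ≤ parabolicHoms ℂ (Gamma0 N) ℂ := by
  rintro _ ⟨⟨f, g⟩, rfl⟩
  rw [periodHomPair_apply]
  have hf := periodMap_mem_parabolicHoms f
  have hg := periodMap_mem_parabolicHoms g
  exact Submodule.add_mem _
    (Submodule.add_mem _ hf (charInvolution_mem_parabolicHoms N ℂ ℂ hf))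
    (Submodule.sub_mem _ hg (charInvolution_mem_parabolicHoms N ℂ ℂ hg))

end Fermat.Agent.S21.Parabolic
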