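import Mathlib
import Fermat.Agent.S21.Parabolic
import Fermat.Agent.S21.Injective
import Fermat.Agent.Lib.QExpFinDim
import Fermat.Prelude.Def_ModularCurve_GenusNumerics

/-!
# S21: final assembly (conditional on `[MAX]`, the group-cohomology bound `GC`, and `S20`)

* `finrank_cuspForm_le`: the upper bound `dim S₂(Γ₀(N)) ≤ g` (input for S20) from
  `[MAX]` and `GC`;
* `result_of`: the S21 statement from `[MAX]`, `GC` and the lower bound `g ≤ dim S₂(Γ₀(N))`.
-/

set_option autoImplicit false

open Complex Filter Topology Function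
open UpperHalfPlane hiding I
open scoped MatrixGroups Manifold ModularForm
open ModularCurve ModularCurve.Period CongruenceSubgroup

namespace Fermat.Agent.S21.Assembly

open Fermat.Agent.S21.PeriodPrim Fermat.Agent.S21.Parabolic Fermat.Agent.S21.Injective

variable (N : ℕ) [NeZero N]

/-- `periodHomPair` corestricted to the parabolic homomorphisms. -/
noncomputable def periodHomPairPar :
    (CuspForm (Gamma0 N) 2 × CuspForm (Gamma0 N) 2) →ₗ[ℂ] parabolicHoms ℂ (Gamma0 N) ℂ :=
  (periodHomPair N).codRestrict (parabolicHoms ℂ (Gamma0 N) ℂ)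
    fun x => range_periodHomPair_le (LinearMap.mem_range_self _ x)

theorem periodHomPairPar_injective (hmax : MaxPrincipleStatement N) :
    Function.Injective (periodHomPairPar N) := by
  intro x y h
  apply injective_periodHomPair hmax
  have := congrArg Subtype.val h
  exact this

theorem finrank_prod_cuspForm :
    Module.finrank ℂ (CuspForm (Gamma0 N) 2 × CuspForm (Gamma0 N) 2)
      = 2 * Module.finrank ℂ (CuspForm (Gamma0 N) 2) := by
  have : FiniteDimensional ℂ (CuspForm (Gamma0 N) 2) :=
    Fermat.Agent.Lib.QExpFinDim.finiteDimensional_cuspForm N 2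
  rw [Module.finrank_prod]; ring

/-- **(UB)**: `2 * dim S₂(Γ₀(N)) ≤ dim parabolicHoms`. -/
theorem two_mul_finrank_cuspForm_le_finrank_parabolicHoms (hmax : MaxPrincipleStatement N)
    [Module.Finite ℂ (parabolicHoms ℂ (Gamma0 N) ℂ)] :
    2 * Module.finrank ℂ (CuspForm (Gamma0 N) 2)
      ≤ Module.finrank ℂ (parabolicHoms ℂ (Gamma0 N) ℂ) := by
  rw [← finrank_prod_cuspForm]
  exact LinearMap.finrank_le_finrank_of_injective (periodHomPairPar_injective N hmax)

/-- **(UB)** in the form needed for S20: `dim S₂(Γ₀(N)) ≤ genusFormula N`. -/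
theorem finrank_cuspForm_le (hmax : MaxPrincipleStatement N)
    (hfin : Module.Finite ℂ (parabolicHoms ℂ (Gamma0 N) ℂ))
    (hGC : (Module.finrank ℂ (parabolicHoms ℂ (Gamma0 N) ℂ) : ℚ) ≤ 2 * genusFormula N) :
    (Module.finrank ℂ (CuspForm (Gamma0 N) 2) : ℚ) ≤ genusFormula N := by
  have h := two_mul_finrank_cuspForm_le_finrank_parabolicHoms N hmax
  have h' : ((2 * Module.finrank ℂ (CuspForm (Gamma0 N) 2) : ℕ) : ℚ)
      ≤ (Module.finrank ℂ (parabolicHoms ℂ (Gamma0 N) ℂ) : ℚ) := by exact_mod_cast h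
  push_cast at h'
  linarith

/-- **S21** from `[MAX]`, `GC` and the lower bound of S20. -/
theorem result_of (hmax : MaxPrincipleStatement N)
    (hfin : Module.Finite ℂ (parabolicHoms ℂ (Gamma0 N) ℂ))
    (hGC : (Module.finrank ℂ (parabolicHoms ℂ (Gamma0 N) ℂ) : ℚ) ≤ 2 * genusFormula N)
    (hLB : genusFormula N ≤ (Module.finrank ℂ (CuspForm (Gamma0 N) 2) : ℚ)) :
    Function.Injective (periodHomPair N)
      ∧ LinearMap.range (periodHomPair N) = parabolicHoms ℂ (Gamma0 N) ℂ := by
  refine ⟨injective_periodHomPair hmax, ?_⟩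
  have : FiniteDimensional ℂ (CuspForm (Gamma0 N) 2) :=
    Fermat.Agent.Lib.QExpFinDim.finiteDimensional_cuspForm N 2
  apply Submodule.eq_of_le_of_finrank_le (range_periodHomPair_le (N := N))
  rw [LinearMap.finrank_range_of_inj (injective_periodHomPair hmax), finrank_prod_cuspForm]
  have h1 : (Module.finrank ℂ (parabolicHoms ℂ (Gamma0 N) ℂ) : ℚ)
      ≤ ((2 * Module.finrank ℂ (CuspForm (Gamma0 N) 2) : ℕ) : ℚ) := by
    push_cast
    linarith
  exact_mod_cast h1

end Fermat.Agent.S21.Assembly
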