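import Mathlib
import Fermat.Agent.S21.ParabolicDim
import Fermat.Agent.S24.Pkg_COMB_card
import Fermat.Agent.S24.Pkg_COMB_ell
import Fermat.Agent.S24.Pkg_COMB_cusp

/-!
# S21: the group-cohomology bound for `Γ₀(N)`

`finrank ℂ (parabolicHoms ℂ (Gamma0 N) ℂ) ≤ 2 * genusFormula N`, from helper52's general bound
(`ParabolicDim.finrank_parabolicHoms_add_orbits_le`) and the orbit counts of S24 package COMB.
-/

set_option autoImplicit false

open scoped MatrixGroups
open ModularCurve ModularCurve.Period CongruenceSubgroup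

namespace Fermat.Agent.S21.GCBound

open Fermat.Agent.S24

variable (N : ℕ) [NeZero N]

omit [NeZero N] in
theorem neg_one_mem_Gamma0 : (-1 : SL(2, ℤ)) ∈ Gamma0 N := by
  rw [Gamma0_mem]
  simp

theorem finite_parabolicHoms : Module.Finite ℂ (parabolicHoms ℂ (Gamma0 N) ℂ) :=
  ParabolicDim.finite_parabolicHoms (Gamma0 N) (neg_one_mem_Gamma0 N)

/-- **GC for `Γ₀(N)`**: `dim parabolicHoms ≤ 2g`. -/
theorem finrank_parabolicHoms_le :
    (Module.finrank ℂ (parabolicHoms ℂ (Gamma0 N) ℂ) : ℚ) ≤ 2 * genusFormula N := by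
  have h := (ParabolicDim.finrank_parabolicHoms_add_orbits_le (Gamma0 N) (neg_one_mem_Gamma0 N)).2
  have hidx : (Gamma0 N).index = dedekindPsi N := card_X0Cosets N
  have hS : 2 * Nat.card (MulAction.orbitRel.Quotient
      (Subgroup.zpowers (ModularGroup.S : SL(2, ℤ))) (SL(2, ℤ) ⧸ Gamma0 N))
      = dedekindPsi N + nuTwo N := two_mul_numOrbits_S N
  have hST : 3 * Nat.card (MulAction.orbitRel.Quotient
      (Subgroup.zpowers ((ModularGroup.S : SL(2, ℤ)) * ModularGroup.T)) (SL(2, ℤ) ⧸ Gamma0 N))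
      = dedekindPsi N + 2 * nuThree N := three_mul_numOrbits_ST N
  have hT : Nat.card (MulAction.orbitRel.Quotient
      (Subgroup.zpowers (ModularGroup.T : SL(2, ℤ))) (SL(2, ℤ) ⧸ Gamma0 N))
      = cuspCount N := numOrbits_T N
  generalize Nat.card (MulAction.orbitRel.Quotient
      (Subgroup.zpowers (ModularGroup.S : SL(2, ℤ))) (SL(2, ℤ) ⧸ Gamma0 N)) = a at h hS
  generalize Nat.card (MulAction.orbitRel.Quotient
      (Subgroup.zpowers ((ModularGroup.S : SL(2, ℤ)) * ModularGroup.T)) (SL(2, ℤ) ⧸ Gamma0 N)) = b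
      at h hST
  generalize Nat.card (MulAction.orbitRel.Quotient
      (Subgroup.zpowers (ModularGroup.T : SL(2, ℤ))) (SL(2, ℤ) ⧸ Gamma0 N)) = c at h hT
  rw [hidx] at h
  subst hT
  have hq : ((Module.finrank ℂ (parabolicHoms ℂ (Gamma0 N) ℂ) + a + b + cuspCount N : ℕ) : ℚ)
      ≤ ((dedekindPsi N + 2 : ℕ) : ℚ) := by exact_mod_cast h
  have hSq : (2 : ℚ) * a = dedekindPsi N + nuTwo N := by exact_mod_cast hS
  have hSTq : (3 : ℚ) * b = dedekindPsi N + 2 * nuThree N := by exact_mod_cast hST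
  push_cast at hq
  unfold genusFormula
  linarith

end Fermat.Agent.S21.GCBound
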