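import Mathlib

/-!
# S21 [MAX]: a holomorphic function on `ℍ` whose real part is `Γ₀(N)`-invariant and which has a
limit at every cusp is constant.
-/

set_option autoImplicit false

open UpperHalfPlane hiding I
open Complex Filter Topology Function Metric Set
open scoped MatrixGroups Manifold Real

namespace Fermat.Agent.S21.MaxPrinciple

local notation "𝕢" => Periodic.qParam

/-- `δ T^N δ⁻¹ ∈ Γ₀(N)`. -/
theorem conj_T_pow_mem_Gamma0 (N : ℕ) (δ : SL(2, ℤ)) :
    δ * ModularGroup.T ^ (N : ℤ) * δ⁻¹ ∈ CongruenceSubgroup.Gamma0 N := by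
  have h1 : ModularGroup.T ^ (N : ℤ) ∈ CongruenceSubgroup.Gamma N :=
    CongruenceSubgroup.ModularGroup_T_pow_mem_Gamma N N dvd_rfl
  have h2 : δ * ModularGroup.T ^ (N : ℤ) * δ⁻¹ ∈ CongruenceSubgroup.Gamma N :=
    (CongruenceSubgroup.Gamma_normal N).conj_mem _ h1 δ
  rw [CongruenceSubgroup.Gamma_mem] at h2
  rw [CongruenceSubgroup.Gamma0_mem]
  exact h2.2.2.1

/-- Precomposition with `δ ∈ SL(2,ℤ)` preserves holomorphy. -/
theorem mdiff_comp_smul {H : ℍ → ℂ} (hH : MDiff H) (δ : SL(2, ℤ)) :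
    MDiff (fun w : ℍ => H (δ • w)) := by
  have h1 : MDiff (fun τ : ℍ ↦ (δ : GL (Fin 2) ℝ) • τ) :=
    UpperHalfPlane.mdifferentiable_smul (g := (δ : GL (Fin 2) ℝ)) (by simp)
  exact hH.comp h1

/-- **Maximum principle for the real part**: a holomorphic function on a connected open set whose
real part attains its maximum is constant. -/
theorem const_of_isMaxOn_re {U : Set ℂ} (hU : IsOpen U) (hUc : IsPreconnected U) {f : ℂ → ℂ}
    (hf : DifferentiableOn ℂ f U) {c : ℂ} (hc : c ∈ U) (hmax : ∀ z ∈ U, (f z).re ≤ (f c).re) :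
    ∀ z ∈ U, f z = f c := by
  set E : ℂ → ℂ := fun z => Complex.exp (f z) with hE
  have hEd : DifferentiableOn ℂ E U := fun z hz => (hf z hz).cexp
  have hEmax : IsMaxOn (norm ∘ E) U c := by
    intro z hz
    simp only [Function.comp_apply, hE, Complex.norm_exp]
    exact Real.exp_le_exp.mpr (hmax z hz)
  have hEq : EqOn E (const ℂ (E c)) U :=
    Complex.eqOn_of_isPreconnected_of_isMaxOn_norm hUc hU hEd hc hEmax
  have hderiv : U.EqOn (deriv f) 0 := by
    intro z hz
    have hfz : DifferentiableAt ℂ f z := hf.differentiableAt (hU.mem_nhds hz)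
    have h1 : HasDerivAt E (Complex.exp (f z) * deriv f z) z := hfz.hasDerivAt.cexp
    have h2 : E =ᶠ[𝓝 z] fun _ => E c := by
      filter_upwards [hU.mem_nhds hz] with w hw using hEq hw
    have h3 : deriv E z = 0 := by
      rw [h2.deriv_eq]; simp
    rw [h1.deriv] at h3
    simpa [Complex.exp_ne_zero] using h3
  intro z hz
  exact hU.is_const_of_deriv_eq_zero hUc hf hderiv hz hc

/-- A holomorphic function on `ℍ` whose real part vanishes identically is constant. -/
theorem const_of_re_eq_zero {D : ℍ → ℂ} (hD : MDiff D) (hre : ∀ z, (D z).re = 0) (z w : ℍ) :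
    D z = D w := by
  have hd : DifferentiableOn ℂ (D ∘ ofComplex) upperHalfPlaneSet :=
    UpperHalfPlane.mdifferentiable_iff.mp hD
  have hconv : IsPreconnected upperHalfPlaneSet := Convex.isPreconnected (convex_halfSpace_im_gt 0)
  have key := const_of_isMaxOn_re isOpen_upperHalfPlaneSet hconv hd (c := (w : ℂ)) w.im_pos
    (fun x hx => by simp [hre])
  have := key (z : ℂ) z.im_pos
  simpa using this


theorem T_pow_smul_coe (N : ℕ) (w : ℍ) :
    ((ModularGroup.T ^ (N : ℤ) • w : ℍ) : ℂ) = (w : ℂ) + ((N : ℝ) : ℂ) := by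
  rw [UpperHalfPlane.modular_T_zpow_smul, UpperHalfPlane.coe_vadd]
  push_cast
  ring

theorem T_pow_smul_im (N : ℕ) (w : ℍ) : (ModularGroup.T ^ (N : ℤ) • w : ℍ).im = w.im := by
  have h := congrArg Complex.im (T_pow_smul_coe N w)
  simpa using h

theorem tendsto_T_pow_smul_atImInfty (N : ℕ) :
    Tendsto (fun w : ℍ => ModularGroup.T ^ (N : ℤ) • w) atImInfty atImInfty := by
  rw [atImInfty, tendsto_comap_iff]
  have : (UpperHalfPlane.im ∘ fun w : ℍ => ModularGroup.T ^ (N : ℤ) • w) = UpperHalfPlane.im := by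
    funext w
    exact T_pow_smul_im N w
  rw [this]
  exact tendsto_comap

/-- `H ∘ δ` is invariant under `w ↦ w + N`. -/
theorem comp_smul_T_pow {N : ℕ} {H : ℍ → ℂ} (hH : MDiff H)
    (hinv : ∀ γ ∈ CongruenceSubgroup.Gamma0 N, ∀ z : ℍ, (H (γ • z)).re = (H z).re)
    (δ : SL(2, ℤ)) {L : ℂ} (hL : Tendsto (fun w : ℍ => H (δ • w)) atImInfty (𝓝 L)) (w : ℍ) :
    H (δ • (ModularGroup.T ^ (N : ℤ) • w)) = H (δ • w) := by
  set G : ℍ → ℂ := fun w => H (δ • w) with hGdef
  set D : ℍ → ℂ := fun w => G (ModularGroup.T ^ (N : ℤ) • w) - G w with hDdef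
  have hG : MDiff G := mdiff_comp_smul hH δ
  have hD : MDiff D := (mdiff_comp_smul hG (ModularGroup.T ^ (N : ℤ))).sub hG
  have hre : ∀ z, (D z).re = 0 := by
    intro z
    have h1 : δ • (ModularGroup.T ^ (N : ℤ) • z) =
        (δ * ModularGroup.T ^ (N : ℤ) * δ⁻¹) • (δ • z) := by
      rw [mul_smul, mul_smul, inv_smul_smul]
    simp only [hDdef, hGdef, Complex.sub_re, h1, hinv _ (conj_T_pow_mem_Gamma0 N δ), sub_self]
  have hconst := const_of_re_eq_zero hD hre
  have hlim : Tendsto D atImInfty (𝓝 0) := by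
    have h1 : Tendsto (fun w : ℍ => G (ModularGroup.T ^ (N : ℤ) • w)) atImInfty (𝓝 L) :=
      hL.comp (tendsto_T_pow_smul_atImInfty N)
    have h2 : Tendsto D atImInfty (𝓝 (L - L)) := h1.sub hL
    rwa [sub_self] at h2
  have hlim' : Tendsto D atImInfty (𝓝 (D w)) := by
    have : D = fun _ => D w := funext fun z => hconst z w
    rw [this]
    exact tendsto_const_nhds
  have h0 : D w = 0 := tendsto_nhds_unique hlim' hlim
  exact sub_eq_zero.mp h0

theorem periodic_comp_ofComplex {N : ℕ} {H : ℍ → ℂ} (hH : MDiff H)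
    (hinv : ∀ γ ∈ CongruenceSubgroup.Gamma0 N, ∀ z : ℍ, (H (γ • z)).re = (H z).re)
    (δ : SL(2, ℤ)) {L : ℂ} (hL : Tendsto (fun w : ℍ => H (δ • w)) atImInfty (𝓝 L)) :
    Periodic ((fun w : ℍ => H (δ • w)) ∘ ofComplex) ((N : ℝ) : ℂ) := by
  intro z
  by_cases hz : 0 < z.im
  · have hz' : 0 < (z + ((N : ℝ) : ℂ)).im := by simpa using hz
    simp only [comp_apply, ofComplex_apply_of_im_pos hz, ofComplex_apply_of_im_pos hz']
    have h1 : (⟨z + ((N : ℝ) : ℂ), hz'⟩ : ℍ) = ModularGroup.T ^ (N : ℤ) • (⟨z, hz⟩ : ℍ) := by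
      apply UpperHalfPlane.ext
      rw [T_pow_smul_coe]
    rw [h1]
    exact comp_smul_T_pow hH hinv δ hL _
  · rw [not_lt] at hz
    have hz' : (z + ((N : ℝ) : ℂ)).im ≤ 0 := by simpa using hz
    simp only [comp_apply]
    rw [ofComplex_apply_eq_of_im_nonpos hz' hz]


/-- **[MAX]** A holomorphic function on `ℍ` whose real part is `Γ₀(N)`-invariant and which has a
limit at every cusp is constant. -/
theorem const_of_re_invariant {N : ℕ} [NeZero N] (H : ℍ → ℂ) (hH : MDiff H)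
    (hinv : ∀ γ ∈ CongruenceSubgroup.Gamma0 N, ∀ z : ℍ, (H (γ • z)).re = (H z).re)
    (hcusp : ∀ δ : SL(2, ℤ), ∃ L : ℂ, Tendsto (fun w : ℍ => H (δ • w)) atImInfty (𝓝 L)) :
    ∀ z w : ℍ, H z = H w := by
  classical
  have hN : (0 : ℝ) < N := by exact_mod_cast Nat.pos_of_ne_zero (NeZero.ne N)
  let G : SL(2, ℤ) → ℍ → ℂ := fun δ w => H (δ • w)
  let h : SL(2, ℤ) → ℂ → ℂ := fun δ => UpperHalfPlane.cuspFunction (N : ℝ) (G δ)
  have hGd : ∀ δ, MDiff (G δ) := fun δ => mdiff_comp_smul hH δ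
  have hGper : ∀ δ, Periodic (G δ ∘ ofComplex) ((N : ℝ) : ℂ) := fun δ => by
    obtain ⟨L, hL⟩ := hcusp δ
    exact periodic_comp_ofComplex hH hinv δ hL
  have hGbd : ∀ δ, IsBoundedAtImInfty (G δ) := fun δ => by
    obtain ⟨L, hL⟩ := hcusp δ
    exact hL.isBigO_one ℝ
  have hhd : ∀ δ, DifferentiableOn ℂ (h δ) (ball 0 1) := fun δ =>
    UpperHalfPlane.differentiableOn_cuspFunction_ball hN (hGper δ) (hGd δ) (hGbd δ)
  have hheq : ∀ δ (w : ℍ), h δ (𝕢 (N : ℝ) w) = G δ w := fun δ w =>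
    UpperHalfPlane.eq_cuspFunction w hN.ne' (hGper δ)
  -- the radius of the compact disc
  set r : ℝ := Real.exp (-π / N) with hr
  have hr0 : 0 < r := Real.exp_pos _
  have hr1 : r < 1 := by
    rw [hr, Real.exp_lt_one_iff]
    exact div_neg_of_neg_of_pos (neg_lt_zero.mpr Real.pi_pos) hN
  -- coset representatives
  let Q := SL(2, ℤ) ⧸ CongruenceSubgroup.Gamma0 N
  let _instQ : Fintype Q := Subgroup.fintypeQuotientOfFiniteIndex
  let rep : Q → SL(2, ℤ) := fun q => (Quotient.out q)⁻¹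
  -- every value of `Re H` is a value of some `Re h_q` on the closed disc
  have hval : ∀ z : ℍ, ∃ q : Q, ∃ x ∈ closedBall (0 : ℂ) r, (H z).re = (h (rep q) x).re := by
    intro z
    obtain ⟨g, hg⟩ := ModularGroup.exists_smul_mem_fd z
    have him : 1 / 2 ≤ (g • z).im := by
      have h3 := ModularGroup.three_le_four_mul_im_sq_of_mem_fd hg
      nlinarith [(g • z).im_pos]
    obtain ⟨γ', hγ', hout⟩ : ∃ γ' ∈ CongruenceSubgroup.Gamma0 N,
        Quotient.out (QuotientGroup.mk g : Q) = g * γ' := by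
      obtain ⟨⟨γ', hγ'⟩, h⟩ := QuotientGroup.mk_out_eq_mul (CongruenceSubgroup.Gamma0 N) g
      exact ⟨γ', hγ', h⟩
    refine ⟨QuotientGroup.mk g, 𝕢 (N : ℝ) ((g • z : ℍ) : ℂ), ?_, ?_⟩
    · rw [mem_closedBall_zero_iff, Periodic.norm_qParam, hr]
      apply Real.exp_le_exp.mpr
      rw [div_le_div_iff_of_pos_right hN]
      have : (g • z).im = ((g • z : ℍ) : ℂ).im := rfl
      rw [← this]
      nlinarith [Real.pi_pos]
    · rw [hheq]
      show (H z).re = (H (rep (QuotientGroup.mk g) • (g • z))).re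
      have h1 : rep (QuotientGroup.mk g) • (g • z) = γ'⁻¹ • z := by
        simp only [rep, hout, mul_inv_rev, mul_smul, inv_smul_smul]
      rw [h1, hinv _ (inv_mem hγ')]
  -- maximise
  have hcont : ∀ δ, ContinuousOn (fun x => (h δ x).re) (closedBall 0 r) := fun δ =>
    Complex.continuous_re.comp_continuousOn
      ((hhd δ).continuousOn.mono (closedBall_subset_ball hr1))
  have hmaxq : ∀ q : Q, ∃ x ∈ closedBall (0 : ℂ) r, ∀ y ∈ closedBall (0 : ℂ) r,
      (h (rep q) y).re ≤ (h (rep q) x).re := fun q =>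
    (isCompact_closedBall 0 r).exists_isMaxOn (nonempty_closedBall.mpr hr0.le) (hcont (rep q))
  choose xq hxq hxqmax using hmaxq
  obtain ⟨q0, -, hq0⟩ := Finset.exists_max_image Finset.univ (fun q => (h (rep q) (xq q)).re)
    ⟨(QuotientGroup.mk 1 : Q), Finset.mem_univ _⟩
  set M := (h (rep q0) (xq q0)).re with hMdef
  have hM : ∀ z : ℍ, (H z).re ≤ M := by
    intro z
    obtain ⟨q, x, hx, hxe⟩ := hval z
    rw [hxe]
    exact (hxqmax q x hx).trans (hq0 q (Finset.mem_univ _))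
  -- the bound on the punctured unit disc
  have hball' : ∀ x ∈ ball (0 : ℂ) 1, x ≠ 0 → (h (rep q0) x).re ≤ M := by
    intro x hx hx0
    have hx1 : ‖x‖ < 1 := mem_ball_zero_iff.mp hx
    have him := Periodic.im_invQParam_pos_of_norm_lt_one hN hx1 hx0
    have h1 : x = 𝕢 (N : ℝ) ((⟨Periodic.invQParam N x, him⟩ : ℍ) : ℂ) :=
      (Periodic.qParam_right_inv hN.ne' hx0).symm
    rw [h1, hheq]
    exact hM _
  have hball : ∀ x ∈ ball (0 : ℂ) 1, (h (rep q0) x).re ≤ M := by
    intro x hx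
    rcases eq_or_ne x 0 with rfl | hx0
    · have hc : ContinuousAt (h (rep q0)) 0 :=
        (hhd _).continuousOn.continuousAt (ball_mem_nhds 0 one_pos)
      have ht : Tendsto (fun x => (h (rep q0) x).re) (𝓝[≠] 0) (𝓝 (h (rep q0) 0).re) :=
        ((Complex.continuous_re.continuousAt).comp hc).tendsto.mono_left nhdsWithin_le_nhds
      refine le_of_tendsto ht ?_
      have h1 : ∀ᶠ x in 𝓝[≠] (0 : ℂ), x ∈ ball (0 : ℂ) 1 :=
        nhdsWithin_le_nhds (ball_mem_nhds 0 one_pos)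
      filter_upwards [h1, self_mem_nhdsWithin] with x hx hx0
      exact hball' x hx hx0
    · exact hball' x hx hx0
  -- maximum principle on the unit disc
  have hc : xq q0 ∈ ball (0 : ℂ) 1 := closedBall_subset_ball hr1 (hxq q0)
  have hconst := const_of_isMaxOn_re isOpen_ball (convex_ball (0 : ℂ) 1).isPreconnected
    (hhd (rep q0)) hc hball
  have hGconst : ∀ w : ℍ, G (rep q0) w = h (rep q0) (xq q0) := by
    intro w
    rw [← hheq]
    exact hconst _ (mem_ball_zero_iff.mpr (Periodic.norm_qParam_lt_one hN w.im_pos))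
  have hHconst : ∀ z : ℍ, H z = h (rep q0) (xq q0) := by
    intro z
    have := hGconst ((rep q0)⁻¹ • z)
    simpa [G, smul_inv_smul] using this
  intro z w
  rw [hHconst z, hHconst w]

end Fermat.Agent.S21.MaxPrinciple
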