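import Mathlib
import Fermat.Agent.S21.Assembly
import Fermat.Agent.S21.MaxPrinciple
import Fermat.Agent.S21.GCBound

/-!
# S21: unconditional consequences of the analytic half + `[MAX]` + `GC`

* `injective_periodHomPair`: `periodHomPair N` is injective;
* `finrank_cuspForm_le`: `dim S₂(Γ₀(N)) ≤ genusFormula N` (the upper bound needed for S20);
* `result_of_lowerBound`: the S21 statement from the lower bound `genusFormula N ≤ dim S₂(Γ₀(N))`.
-/

set_option autoImplicit false

open UpperHalfPlane
open scoped MatrixGroups
open ModularCurve ModularCurve.Period CongruenceSubgroup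

namespace Fermat.Agent.S21.Main

variable (N : ℕ) [NeZero N]

theorem maxPrincipleStatement : Injective.MaxPrincipleStatement N :=
  fun H hH hinv hcusp => MaxPrinciple.const_of_re_invariant H hH hinv hcusp

/-- `periodHomPair N` is injective. -/
theorem injective_periodHomPair : Function.Injective (periodHomPair N) :=
  Injective.injective_periodHomPair (maxPrincipleStatement N)

/-- The range of `periodHomPair N` consists of parabolic homomorphisms. -/
theorem range_periodHomPair_le :
    LinearMap.range (periodHomPair N) ≤ parabolicHoms ℂ (Gamma0 N) ℂ :=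
  Parabolic.range_periodHomPair_le

/-- **Upper bound for S20**: `dim S₂(Γ₀(N)) ≤ genusFormula N`. -/
theorem finrank_cuspForm_le :
    (Module.finrank ℂ (CuspForm (Gamma0 N) 2) : ℚ) ≤ genusFormula N :=
  Assembly.finrank_cuspForm_le N (maxPrincipleStatement N) (GCBound.finite_parabolicHoms N)
    (GCBound.finrank_parabolicHoms_le N)

/-- **S21** from the lower bound of S20. -/
theorem result_of_lowerBound
    (hLB : genusFormula N ≤ (Module.finrank ℂ (CuspForm (Gamma0 N) 2) : ℚ)) :
    Function.Injective (periodHomPair N)
      ∧ LinearMap.range (periodHomPair N) = parabolicHoms ℂ (Gamma0 N) ℂ :=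
  Assembly.result_of N (maxPrincipleStatement N) (GCBound.finite_parabolicHoms N)
    (GCBound.finrank_parabolicHoms_le N) hLB

/-- **S21** from S20. -/
theorem result_of_S20
    (hS20 : (Module.finrank ℂ (CuspForm (Gamma0 N) 2) : ℚ) = genusFormula N) :
    Function.Injective (periodHomPair N)
      ∧ LinearMap.range (periodHomPair N) = parabolicHoms ℂ (Gamma0 N) ℂ :=
  result_of_lowerBound N hS20.ge

end Fermat.Agent.S21.Main
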