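import Fermat.Agent.S22.Primitive2
import Fermat.Agent.S22.SepAux
import Fermat.Agent.S22.SepAux2
import Fermat.Agent.S22.CuspBound
import Fermat.Agent.S24.HolH
import Fermat.Prelude.Def_ModularCurve_PeriodMapBundled

/-!
# S21 (AN1 core): the decaying primitive of a weight 2 cusp form is an equivariant primitive

For `f : CuspForm (Gamma0 N) 2`, `F := prim 1 f` (the primitive vanishing at `i∞`) satisfies
`ModularCurve.HasEquivariantPrimitive N f F`:
`F ∘ δ = prim N (f ∣[2] δ) + const` for every `δ ∈ SL(2,ℤ)`, which gives both the equivariance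
(for `δ ∈ Γ₀(N)`) and the limits at all cusps.
-/

set_option autoImplicit false

open Complex Filter Topology CuspForm Function
open UpperHalfPlane hiding I
open scoped MatrixGroups Manifold ModularForm

namespace Fermat.Agent.S21.EquivPrim

open Fermat.Agent.S22

variable {N : ℕ}

/-- A cusp form for `Γ₀(N)` is slash-invariant under `Γ₀(N)` (as a plain function). -/
theorem cuspForm_slash_eq {k : ℤ} (f : CuspForm (CongruenceSubgroup.Gamma0 N) k) (γ : SL(2, ℤ))
    (hγ : γ ∈ CongruenceSubgroup.Gamma0 N) : (f : ℍ → ℂ) ∣[k] γ = f :=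
  f.slash_action_eq' (Matrix.SpecialLinearGroup.mapGL ℝ γ) ⟨γ, hγ, rfl⟩

/-- A cusp form for `Γ₀(N)` is cuspidal of period `1`. -/
theorem isCuspidal_one [NeZero N] {k : ℤ} (f : CuspForm (CongruenceSubgroup.Gamma0 N) k) :
    IsCuspidal 1 (f : ℍ → ℂ) := by
  obtain ⟨h1, h2, h3⟩ := SepAux.self_props f
  refine ⟨?_, h1, h3⟩
  simpa using h2

/-- Every `SL(2,ℤ)`-translate of a cusp form for `Γ₀(N)` is cuspidal of period `N`. -/
theorem isCuspidal_translate [NeZero N] {k : ℤ} (f : CuspForm (CongruenceSubgroup.Gamma0 N) k)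
    (s : SL(2, ℤ)) : IsCuspidal (N : ℝ) ((f : ℍ → ℂ) ∣[k] s) := by
  obtain ⟨M, hM0, hM⟩ := SepAux.translate_props f
  obtain ⟨h1, _, h3⟩ := hM s
  refine ⟨?_, h1, h3⟩
  rw [← SepAux.T_zpow_natCast_invariant_iff_periodic_ofReal]
  intro z
  exact slash_periodic_of_invariant (f : ℍ → ℂ) (cuspForm_slash_eq f) s z

open Fermat.Agent.S24.HolH in
/-- Chain rule: the derivative of `F ∘ δ` for a primitive `F` of `f`. -/
theorem hasDerivAt_comp_smul {F f : ℍ → ℂ} (hF : ∀ τ : ℍ, HasDerivAt (F ∘ ofComplex) (f τ) τ)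
    (δ : SL(2, ℤ)) (τ : ℍ) :
    HasDerivAt ((fun z : ℍ => F (δ • z)) ∘ ofComplex) ((f ∣[(2 : ℤ)] δ) τ) τ := by
  have h1 := hasDerivAt_moeb δ τ.im_pos
  have h2 : HasDerivAt (F ∘ ofComplex) (f (δ • τ)) (moeb δ (τ : ℂ)) := by
    have := hF (δ • τ)
    rwa [coe_smul_eq_moeb] at this
  have h3 := h2.comp (τ : ℂ) h1
  have hval : f (δ • τ) * (1 / ((δ 1 0 : ℂ) * (τ : ℂ) + (δ 1 1 : ℂ)) ^ 2) = (f ∣[(2 : ℤ)] δ) τ := by
    rw [ModularForm.SL_slash_apply, ModularGroup.denom_apply]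
    rw [show (-(2 : ℤ)) = -((2 : ℕ) : ℤ) by norm_num, zpow_neg, zpow_natCast]
    simp [one_div]
  rw [hval] at h3
  refine h3.congr_of_eventuallyEq ?_
  filter_upwards [isOpen_upperHalfPlaneSet.mem_nhds τ.im_pos] with z hz
  simp only [comp_apply]
  rw [ofComplex_moeb δ hz]

/-- `prim 1 f ∘ δ` and `prim N (f ∣[2] δ)` differ by a constant. -/
theorem exists_prim_smul_eq [NeZero N] (f : CuspForm (CongruenceSubgroup.Gamma0 N) 2)
    (δ : SL(2, ℤ)) :
    ∃ L : ℂ, ∀ z : ℍ, prim 1 (f : ℍ → ℂ) (δ • z) =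
      prim (N : ℝ) ((f : ℍ → ℂ) ∣[(2 : ℤ)] δ) z + L := by
  have hN : (0 : ℝ) < N := Nat.cast_pos.mpr (NeZero.pos N)
  have hf := isCuspidal_one f
  have hφ := isCuspidal_translate f δ
  set D : ℍ → ℂ := fun z => prim 1 (f : ℍ → ℂ) (δ • z) -
    prim (N : ℝ) ((f : ℍ → ℂ) ∣[(2 : ℤ)] δ) z with hD
  have hd : ∀ τ : ℍ, HasDerivAt (D ∘ ofComplex) 0 τ := by
    intro τ
    have h1 := hasDerivAt_comp_smul (hasDerivAt_prim one_pos hf) δ τ
    have h2 := hasDerivAt_prim hN hφ τ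
    have h3 := h1.sub h2
    rw [sub_self] at h3
    exact h3
  refine ⟨D UpperHalfPlane.I, fun z => ?_⟩
  have := eq_of_hasDerivAt_zero hd z UpperHalfPlane.I
  simp only [hD] at this ⊢
  linear_combination this

/-- AN1 core: `prim 1 f` is an equivariant primitive of `f` with limits at all cusps. -/
theorem hasEquivariantPrimitive_prim [NeZero N] (f : CuspForm (CongruenceSubgroup.Gamma0 N) 2) :
    ModularCurve.HasEquivariantPrimitive N f (prim 1 (f : ℍ → ℂ)) := by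
  have hN : (0 : ℝ) < N := Nat.cast_pos.mpr (NeZero.pos N)
  have hf := isCuspidal_one f
  refine ⟨hasDerivAt_prim one_pos hf, (isCuspidal_prim one_pos hf).zero, ?_, ?_⟩
  · intro γ
    obtain ⟨L, hL⟩ := exists_prim_smul_eq f (γ : SL(2, ℤ))
    refine ⟨L, fun z => ?_⟩
    rw [hL z, cuspForm_slash_eq f γ γ.2,
      prim_eq_prim hN one_pos (by
        have := isCuspidal_translate f (γ : SL(2, ℤ))
        rwa [cuspForm_slash_eq f γ γ.2] at this) hf]
    ring
  · intro δ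
    obtain ⟨L, hL⟩ := exists_prim_smul_eq f δ
    refine ⟨L, ?_⟩
    have h0 : Tendsto (prim (N : ℝ) ((f : ℍ → ℂ) ∣[(2 : ℤ)] δ)) atImInfty (𝓝 0) :=
      (isCuspidal_prim hN (isCuspidal_translate f δ)).zero
    have h1 := h0.add_const L
    rw [zero_add] at h1
    refine h1.congr fun w => ?_
    rw [hL w]

end Fermat.Agent.S21.EquivPrim
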