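import Mathlib
import Fermat.Agent.S21.ParabolicDim

/-!
# Burnside-type conversion: orbits of a cyclic action versus fixed points (helper52)

For `g` acting on a finite set `X` with `g ^ m` acting trivially (`0 < m`):
`m * #orbits(zpowers g) = ∑ i < m, #Fix(g ^ i)`.
Proved through the trace of the averaging projector on `X → ℚ`.
-/

set_option autoImplicit false
set_option linter.unusedSectionVars false
set_option linter.style.haveILetI false

namespace Fermat.Agent.S21.OrbitCounts

open Module Fermat.Agent.S21.ParabolicDim

variable {G : Type*} [Group G] {X : Type*} [MulAction G X]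

/-- The trace of the permutation operator of `g` on `X → k` is the number of fixed points. -/
theorem trace_act (k : Type*) [Field k] [Fintype X] [DecidableEq X] (g : G) :
    LinearMap.trace k (X → k) (act k g) = (Nat.card (MulAction.fixedBy X g) : k) := by
  rw [LinearMap.trace_eq_matrix_trace k (Pi.basisFun k X), LinearMap.toMatrix_eq_toMatrix',
    Matrix.trace]
  simp only [Matrix.diag_apply, LinearMap.toMatrix'_apply, act_apply, Pi.single_apply]
  rw [Finset.sum_boole, Nat.card_eq_fintype_card, Fintype.card_subtype]
  congr 2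
  ext x
  simp only [Finset.mem_filter, Finset.mem_univ, true_and, MulAction.mem_fixedBy]
  constructor
  · intro h
    have := congrArg (g • ·) h
    simp only [smul_inv_smul] at this
    exact this.symm
  · intro h
    rw [inv_smul_eq_iff, h]

/-- Burnside for a cyclic action: `m * #orbits = ∑_{i<m} #Fix(g^i)` if `g^m` acts trivially. -/
theorem card_orbits_mul [Finite X] (g : G) {m : ℕ} (hm : 0 < m) (hg : ∀ x : X, g ^ m • x = x) :
    m * Nat.card (MulAction.orbitRel.Quotient (Subgroup.zpowers g) X)
      = ∑ i ∈ Finset.range m, Nat.card (MulAction.fixedBy X (g ^ i)) := by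
  classical
  letI := Fintype.ofFinite X
  set A : Module.End ℚ (X → ℚ) := act ℚ g with hA
  have hAm : A ^ m = 1 := by
    rw [hA, ← act_pow]
    apply LinearMap.ext
    intro v
    funext x
    have : (g ^ m)⁻¹ • x = x := by
      have := hg ((g ^ m)⁻¹ • x); rw [smul_inv_smul] at this; exact this.symm
    simp [this]
  -- the averaging projector
  set π : Module.End ℚ (X → ℚ) := ((m : ℚ)⁻¹) • normOp A m with hπ
  have hm0 : (m : ℚ) ≠ 0 := by exact_mod_cast hm.ne'
  have hproj : LinearMap.IsProj (LinearMap.ker (A - 1)) π := by
    constructor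
    · intro v
      rw [hπ, LinearMap.smul_apply]
      apply Submodule.smul_mem
      rw [← range_normOp A hm hAm]
      exact ⟨v, rfl⟩
    · intro v hv
      rw [LinearMap.mem_ker, LinearMap.sub_apply, Module.End.one_apply, sub_eq_zero] at hv
      rw [hπ, LinearMap.smul_apply, normOp_apply_of_fixed A m hv, smul_smul,
        inv_mul_cancel₀ hm0, one_smul]
  have htr := hproj.trace
  rw [hπ, map_smul, finrank_ker_act_sub_one ℚ g] at htr
  have hsum : LinearMap.trace ℚ (X → ℚ) (normOp A m)
      = ∑ i ∈ Finset.range m, (Nat.card (MulAction.fixedBy X (g ^ i)) : ℚ) := by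
    unfold normOp
    rw [map_sum]
    apply Finset.sum_congr rfl
    intro i _
    rw [hA, ← act_pow, trace_act]
  rw [hsum, smul_eq_mul] at htr
  have h2 : ((m * Nat.card (MulAction.orbitRel.Quotient (Subgroup.zpowers g) X) : ℕ) : ℚ)
      = ((∑ i ∈ Finset.range m, Nat.card (MulAction.fixedBy X (g ^ i)) : ℕ) : ℚ) := by
    push_cast
    rw [← htr]
    field_simp
  exact_mod_cast h2

/-- Involution case: `2 * #orbits = |X| + #Fix g`. -/
theorem two_mul_card_orbits [Finite X] (g : G) (hg : ∀ x : X, g ^ 2 • x = x) :
    2 * Nat.card (MulAction.orbitRel.Quotient (Subgroup.zpowers g) X)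
      = Nat.card X + Nat.card (MulAction.fixedBy X g) := by
  rw [card_orbits_mul g (by norm_num) hg]
  simp only [Finset.sum_range_succ, Finset.sum_range_zero, pow_zero, pow_one, zero_add]
  congr 1
  have : MulAction.fixedBy X (1 : G) = Set.univ := by
    ext x; simp [MulAction.mem_fixedBy]
  rw [this, Nat.card_coe_set_eq, Set.ncard_univ]

/-- Order-three case: `3 * #orbits = |X| + 2 * #Fix g`. -/
theorem three_mul_card_orbits [Finite X] (g : G) (hg : ∀ x : X, g ^ 3 • x = x) :
    3 * Nat.card (MulAction.orbitRel.Quotient (Subgroup.zpowers g) X)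
      = Nat.card X + 2 * Nat.card (MulAction.fixedBy X g) := by
  rw [card_orbits_mul g (by norm_num) hg]
  simp only [Finset.sum_range_succ, Finset.sum_range_zero, pow_zero, pow_one, zero_add]
  have h1 : MulAction.fixedBy X (1 : G) = Set.univ := by
    ext x; simp [MulAction.mem_fixedBy]
  have h2 : MulAction.fixedBy X (g ^ 2) = MulAction.fixedBy X g := by
    ext x
    simp only [MulAction.mem_fixedBy]
    constructor
    · intro h
      have h3 := hg x
      rw [pow_succ, mul_smul] at h3
      -- g^2 • g • x = x and g^2 • x = x
      have : g ^ 2 • g • x = g ^ 2 • x := by rw [h3, h]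
      exact smul_left_cancel _ this
    · intro h
      rw [pow_two, mul_smul, h, h]
  rw [h1, h2, Nat.card_coe_set_eq, Set.ncard_univ]
  ring

end Fermat.Agent.S21.OrbitCounts
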