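import Mathlib
import Fermat.Prelude.Def_ModularCurve_PeriodMap
import Fermat.Prelude.Def_ModularCurve_GenusNumerics
import Fermat.Agent.S21.ParabolicDim
import Fermat.Agent.S21.OrbitCounts

/-!
# `finrank (parabolicHoms ℂ (Gamma0 N) ℂ) ≤ 2 * genusFormula N` from the coset counts (helper52)

The four counting inputs (index, fixed points of `S` and `S*T`, `T`-orbits on
`SL(2, ℤ) ⧸ Gamma0 N`) are hypotheses, to be supplied by the S24 layer-D results.
-/

set_option autoImplicit false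

namespace Fermat.Agent.S21.Gamma0Bound

open Module ModularGroup ModularCurve ModularCurve.Period CongruenceSubgroup
open scoped MatrixGroups

theorem neg_one_mem_Gamma0 (N : ℕ) : (-1 : SL(2, ℤ)) ∈ Gamma0 N := by
  rw [Gamma0_mem]
  simp

/-- Orbit form of the bound for `Gamma0 N`. -/
theorem finrank_parabolicHoms_Gamma0_orbits (N : ℕ) [NeZero N] :
    Module.Finite ℂ (parabolicHoms ℂ (Gamma0 N) ℂ) ∧
    6 * finrank ℂ (parabolicHoms ℂ (Gamma0 N) ℂ)
      + 3 * Nat.card (MulAction.fixedBy (SL(2, ℤ) ⧸ Gamma0 N) (S : SL(2, ℤ)))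
      + 4 * Nat.card (MulAction.fixedBy (SL(2, ℤ) ⧸ Gamma0 N) ((S : SL(2, ℤ)) * T))
      + 6 * Nat.card (MulAction.orbitRel.Quotient (Subgroup.zpowers (T : SL(2, ℤ)))
          (SL(2, ℤ) ⧸ Gamma0 N))
      ≤ (Gamma0 N).index + 12 := by
  have hneg := neg_one_mem_Gamma0 N
  refine ⟨ParabolicDim.finite_parabolicHoms (Gamma0 N) hneg, ?_⟩
  have : Finite (SL(2, ℤ) ⧸ Gamma0 N) := Subgroup.finite_quotient_of_finiteIndex
  have hmain := (ParabolicDim.finrank_parabolicHoms_add_orbits_le (Gamma0 N) hneg).2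
  have hzfix : ∀ x : SL(2, ℤ) ⧸ Gamma0 N, (-1 : SL(2, ℤ)) • x = x :=
    ParabolicDim.central_fixes (Gamma0 N) hneg ParabolicDim.neg_one_central
  have h2 := OrbitCounts.two_mul_card_orbits (X := SL(2, ℤ) ⧸ Gamma0 N) (S : SL(2, ℤ))
    (by intro x; rw [ParabolicDim.S_sq]; exact hzfix x)
  have h3 := OrbitCounts.three_mul_card_orbits (X := SL(2, ℤ) ⧸ Gamma0 N)
    ((S : SL(2, ℤ)) * T) (by intro x; rw [ParabolicDim.ST_cube]; exact hzfix x)
  have key : ∀ a oS oU d fS fU μ : ℕ, a + oS + oU + d ≤ μ + 2 → 2 * oS = μ + fS →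
      3 * oU = μ + 2 * fU → 6 * a + 3 * fS + 4 * fU + 6 * d ≤ μ + 12 := by
    intro a oS oU d fS fU μ h1 h2 h3; omega
  exact key _ _ _ _ _ _ _ hmain h2 h3

/-- The bound `dim parabolicHoms ≤ 2 g` for `Gamma0 N`, given the four coset counts. -/
theorem finrank_parabolicHoms_Gamma0_le (N : ℕ) [NeZero N]
    (hidx : (Gamma0 N).index = dedekindPsi N)
    (hS : Nat.card (MulAction.fixedBy (SL(2, ℤ) ⧸ Gamma0 N) (S : SL(2, ℤ))) = nuTwo N)
    (hU : Nat.card (MulAction.fixedBy (SL(2, ℤ) ⧸ Gamma0 N) ((S : SL(2, ℤ)) * T)) = nuThree N)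
    (hT : Nat.card (MulAction.orbitRel.Quotient (Subgroup.zpowers (T : SL(2, ℤ)))
          (SL(2, ℤ) ⧸ Gamma0 N)) = cuspCount N) :
    (finrank ℂ (parabolicHoms ℂ (Gamma0 N) ℂ) : ℚ) ≤ 2 * genusFormula N := by
  have h := (finrank_parabolicHoms_Gamma0_orbits N).2
  rw [hidx, hS, hU, hT] at h
  have hq : (6 * finrank ℂ (parabolicHoms ℂ (Gamma0 N) ℂ) + 3 * nuTwo N + 4 * nuThree N
      + 6 * cuspCount N : ℚ) ≤ (dedekindPsi N : ℚ) + 12 := by exact_mod_cast h
  unfold genusFormula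
  linarith

/-- Final linear-algebra step of S21: an injective linear map from a space of dimension `2g`
into `Additive Γ →+ ℂ` with range inside `parabolicHoms` has range equal to `parabolicHoms`,
once `finrank parabolicHoms ≤ 2g`. -/
theorem range_eq_parabolicHoms_of_finrank {Γ : Subgroup SL(2, ℤ)} {M : Type*} [AddCommGroup M]
    [Module ℂ M] [Module.Finite ℂ M] [Module.Finite ℂ (parabolicHoms ℂ Γ ℂ)]
    (f : M →ₗ[ℂ] (Additive Γ →+ ℂ)) (hinj : Function.Injective f)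
    (hrange : LinearMap.range f ≤ parabolicHoms ℂ Γ ℂ)
    (hdim : finrank ℂ (parabolicHoms ℂ Γ ℂ) ≤ finrank ℂ M) :
    LinearMap.range f = parabolicHoms ℂ Γ ℂ := by
  have h1 : finrank ℂ (LinearMap.range f) = finrank ℂ M := LinearMap.finrank_range_of_inj hinj
  exact Submodule.eq_of_le_of_finrank_le hrange (by rw [h1]; exact hdim)

end Fermat.Agent.S21.Gamma0Bound
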