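import Mathlib
import Fermat.Agent.S21.Gamma0Bound
import Fermat.Agent.S24.Pkg_COMB_card
import Fermat.Agent.S24.Pkg_COMB_ell
import Fermat.Agent.S24.Pkg_COMB_cusp

/-!
# S21, statement `GC` (unconditional): `finrank (parabolicHoms ℂ (Gamma0 N) ℂ) ≤ 2 * genusFormula N`

Combines `Gamma0Bound.finrank_parabolicHoms_Gamma0_le` (helper52) with the S24 package COMB
coset counts (index, fixed points of `S`, `S*T`, orbits of `T` on `SL(2,ℤ) ⧸ Γ₀(N)`).
-/

set_option autoImplicit false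

namespace Fermat.Agent.S21.GC

open Module ModularGroup ModularCurve ModularCurve.Period CongruenceSubgroup
open scoped MatrixGroups

/-- `parabolicHoms ℂ (Gamma0 N) ℂ` is finite-dimensional. -/
theorem finite_parabolicHoms_Gamma0 (N : ℕ) [NeZero N] :
    Module.Finite ℂ (parabolicHoms ℂ (Gamma0 N) ℂ) :=
  (Gamma0Bound.finrank_parabolicHoms_Gamma0_orbits N).1

/-- **GC**: `dim parabolicHoms(Γ₀(N)) ≤ 2 g`. -/
theorem finrank_parabolicHoms_Gamma0_le (N : ℕ) [NeZero N] :
    (finrank ℂ (parabolicHoms ℂ (Gamma0 N) ℂ) : ℚ) ≤ 2 * genusFormula N := by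
  refine Gamma0Bound.finrank_parabolicHoms_Gamma0_le N ?_ ?_ ?_ ?_
  · rw [Subgroup.index_eq_card]; exact Fermat.Agent.S24.card_X0Cosets N
  · exact Fermat.Agent.S24.card_fixedBy_S_X0Cosets N
  · exact Fermat.Agent.S24.card_fixedBy_ST_X0Cosets N
  · exact Fermat.Agent.S24.numOrbits_T N

end Fermat.Agent.S21.GC
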