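/-
S21 / AN3 (helper35): injectivity core for the period map pair.
A holomorphic function on `ℍ` whose imaginary part is `Γ₀(N)`-invariant and which has a limit
at every cusp is constant (maximum modulus principle on the compactified modular curve).
-/
import Mathlib
import Fermat.Prelude.Def_ModularCurve_PeriodHomPair

set_option autoImplicit false

open UpperHalfPlane CongruenceSubgroup Filter Topology Complex
open scoped MatrixGroups Manifold

namespace Fermat.Agent.S21.Inj35

/-- If `Im E` has a maximum at an interior point of an open connected set on which `E` is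
holomorphic, then `E` is constant there. -/
theorem eqOn_const_of_im_le {E : ℂ → ℂ} {U : Set ℂ} (hU : IsOpen U) (hc : IsPreconnected U)
    (hE : DifferentiableOn ℂ E U) {c : ℂ} (hcU : c ∈ U)
    (hmax : ∀ z ∈ U, (E z).im ≤ (E c).im) : ∀ z ∈ U, E z = E c := by
  set g : ℂ → ℂ := fun z => Complex.exp (-Complex.I * E z) with hg
  have hgd : DifferentiableOn ℂ g U := fun z hz =>
    (((hE z hz).const_mul (-Complex.I)).cexp)
  have hnorm : ∀ z, ‖g z‖ = Real.exp ((E z).im) := by
    intro z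
    rw [hg, Complex.norm_exp]
    congr 1
    simp [Complex.mul_re]
  have hmaxg : IsMaxOn (norm ∘ g) U c := by
    intro z hz
    simp only [Function.comp_apply, hnorm]
    exact Real.exp_le_exp.mpr (hmax z hz)
  have hgconst := Complex.eqOn_of_isPreconnected_of_isMaxOn_norm hc hU hgd hcU hmaxg
  -- derivative of E vanishes on U
  have hderiv : U.EqOn (deriv E) 0 := by
    intro z hz
    have hEz : DifferentiableAt ℂ E z := (hE z hz).differentiableAt (hU.mem_nhds hz)
    have h1 : HasDerivAt g (Complex.exp (-Complex.I * E z) * (-Complex.I * deriv E z)) z :=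
      ((hEz.hasDerivAt.const_mul (-Complex.I)).cexp)
    have h2 : HasDerivAt g 0 z := by
      have : g =ᶠ[𝓝 z] fun _ => g c := by
        filter_upwards [hU.mem_nhds hz] with w hw using hgconst hw
      exact (hasDerivAt_const z (g c)).congr_of_eventuallyEq this
    have h3 := h1.unique h2
    have h4 : Complex.exp (-Complex.I * E z) ≠ 0 := Complex.exp_ne_zero _
    have h5 : -Complex.I * deriv E z = 0 := by
      rcases mul_eq_zero.mp h3 with h | h
      · exact absurd h h4
      · exact h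
    have h6 : deriv E z = 0 := by
      rcases mul_eq_zero.mp h5 with h | h
      · exact absurd h (by simp)
      · exact h
    simpa using h6
  intro z hz
  exact hU.is_const_of_deriv_eq_zero hc hE hderiv hz hcU


/-- Step 1: a holomorphic function on `ℍ` whose imaginary part attains its supremum is
constant. -/
theorem const_of_im_le_of_mem {A : ℍ → ℂ} (hA : MDiff A) (τ₀ : ℍ)
    (hmax : ∀ τ : ℍ, (A τ).im ≤ (A τ₀).im) : ∀ τ : ℍ, A τ = A τ₀ := by
  have hd : DifferentiableOn ℂ (A ∘ ofComplex) {z : ℂ | 0 < z.im} :=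
    UpperHalfPlane.mdifferentiable_iff.mp hA
  have hconn : IsPreconnected {z : ℂ | 0 < z.im} :=
    (Complex.isConnected_of_upperHalfPlane (r := 0) subset_rfl
      (fun z hz => le_of_lt (show 0 < z.im from hz))).isPreconnected
  have key := eqOn_const_of_im_le isOpen_upperHalfPlaneSet hconn hd (c := (τ₀ : ℂ)) τ₀.im_pos
    (by
      intro z hz
      simp only [Function.comp_apply, ofComplex_apply]
      exact hmax _)
  intro τ
  have := key (τ : ℂ) τ.im_pos
  simpa only [Function.comp_apply, ofComplex_apply] using this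

/-- A holomorphic function on `ℍ` with identically zero imaginary part is constant. -/
theorem const_of_im_eq_zero {D : ℍ → ℂ} (hD : MDiff D) (h0 : ∀ τ : ℍ, (D τ).im = 0) (τ₀ : ℍ) :
    ∀ τ : ℍ, D τ = D τ₀ :=
  const_of_im_le_of_mem hD τ₀ (fun τ => by rw [h0 τ, h0 τ₀])


theorem mdiff_comp_smul {A : ℍ → ℂ} (hA : MDiff A) (δ : SL(2, ℤ)) :
    MDiff (fun w : ℍ => A (δ • w)) := by
  have hg : 0 < ((δ : GL (Fin 2) ℝ)).det.val := by simp
  exact hA.comp (mdifferentiable_smul hg)

theorem conj_T_pow_mem (N : ℕ) (δ : SL(2, ℤ)) :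
    δ * ModularGroup.T ^ (N : ℤ) * δ⁻¹ ∈ Gamma0 N := by
  have h1 : ModularGroup.T ^ (N : ℤ) ∈ CongruenceSubgroup.Gamma N := by
    simpa using ModularGroup_T_pow_mem_Gamma N N dvd_rfl
  have h2 : δ * ModularGroup.T ^ (N : ℤ) * δ⁻¹ ∈ CongruenceSubgroup.Gamma N :=
    (Gamma_normal (N := N)).conj_mem _ h1 δ
  rw [Gamma_mem] at h2
  rw [Gamma0_mem]
  exact h2.2.2.1

theorem tendsto_T_zpow_smul (n : ℤ) :
    Tendsto (fun w : ℍ => ModularGroup.T ^ n • w) atImInfty atImInfty := by
  simp only [atImInfty, tendsto_comap_iff, Function.comp_def, ModularGroup.im_T_zpow_smul]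
  exact tendsto_comap

section cusp

variable {N : ℕ} {A : ℍ → ℂ}

/-- the translate `w ↦ A (δ • w)` is `N`-periodic, if `Im A` is `Γ₀(N)`-invariant and
`A (δ • w)` has a limit at `i∞`. -/
theorem periodic_comp_smul (hA : MDiff A)
    (hinv : ∀ γ ∈ Gamma0 N, ∀ τ : ℍ, (A (γ • τ)).im = (A τ).im)
    (δ : SL(2, ℤ)) {L : ℂ} (hL : Tendsto (fun w : ℍ => A (δ • w)) atImInfty (𝓝 L)) (w : ℍ) :
    A (δ • (ModularGroup.T ^ (N : ℤ) • w)) = A (δ • w) := by
  set D : ℍ → ℂ := fun w => A (δ • (ModularGroup.T ^ (N : ℤ) • w)) - A (δ • w) with hD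
  have hDd : MDiff D :=
    (mdiff_comp_smul (mdiff_comp_smul hA δ) (ModularGroup.T ^ (N : ℤ))).sub (mdiff_comp_smul hA δ)
  have him : ∀ τ : ℍ, (D τ).im = 0 := by
    intro τ
    have h1 : δ • (ModularGroup.T ^ (N : ℤ) • τ)
        = (δ * ModularGroup.T ^ (N : ℤ) * δ⁻¹) • (δ • τ) := by
      simp [mul_smul]
    simp only [hD, Complex.sub_im, h1, hinv _ (conj_T_pow_mem N δ), sub_self]
  have hconst := const_of_im_eq_zero hDd him w
  have hlim : Tendsto D atImInfty (𝓝 (L - L)) :=
    (hL.comp (tendsto_T_zpow_smul (N : ℤ))).sub hL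
  have hlim' : Tendsto D atImInfty (𝓝 (D w)) := by
    have : D = fun _ => D w := funext fun τ => hconst τ
    rw [this]; exact tendsto_const_nhds
  have : D w = L - L := tendsto_nhds_unique hlim' hlim
  rw [sub_self] at this
  exact sub_eq_zero.mp this


open Function in
/-- Step 2: if `Im A` is bounded above by the imaginary part of a cusp limit, `A` is constant. -/
theorem const_of_im_le_cusp (hN : N ≠ 0) (hA : MDiff A)
    (hinv : ∀ γ ∈ Gamma0 N, ∀ τ : ℍ, (A (γ • τ)).im = (A τ).im)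
    (δ : SL(2, ℤ)) {L : ℂ} (hL : Tendsto (fun w : ℍ => A (δ • w)) atImInfty (𝓝 L))
    (hmax : ∀ τ : ℍ, (A τ).im ≤ L.im) : ∀ τ : ℍ, A τ = L := by
  set G : ℍ → ℂ := fun w => A (δ • w) with hG
  set g : ℂ → ℂ := G ∘ ofComplex with hg
  set h : ℝ := (N : ℝ) with hh
  have hpos : 0 < h := by
    rw [hh]; exact_mod_cast Nat.pos_of_ne_zero hN
  have hGd : MDiff G := mdiff_comp_smul hA δ
  have hper : Periodic g h := by
    intro z
    by_cases hz : 0 < z.im
    · have hz' : 0 < (z + (h : ℂ)).im := by simpa [hh] using hz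
      have e1 : ofComplex (z + (h : ℂ)) = ModularGroup.T ^ (N : ℤ) • ofComplex z := by
        apply UpperHalfPlane.ext
        rw [ModularGroup.coe_T_zpow_smul_eq, ofComplex_apply_of_im_pos hz',
          ofComplex_apply_of_im_pos hz]
        simp [hh]
      simp only [hg, hG, Function.comp_apply, e1]
      exact periodic_comp_smul hA hinv δ hL _
    · have hz1 : z.im ≤ 0 := not_lt.mp hz
      have hz2 : (z + (h : ℂ)).im ≤ 0 := by simpa [hh] using hz1
      simp only [hg, Function.comp_apply, ofComplex_apply_eq_of_im_nonpos hz2 hz1]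
  have hhol : ∀ z : ℂ, 0 < z.im → DifferentiableAt ℂ g z := by
    intro z hz
    exact ((UpperHalfPlane.mdifferentiable_iff.mp hGd) z hz).differentiableAt
      (isOpen_upperHalfPlaneSet.mem_nhds hz)
  have hhol' : ∀ᶠ z in comap Complex.im atTop, DifferentiableAt ℂ g z := by
    filter_upwards [preimage_mem_comap (Ioi_mem_atTop 0)] with z hz using hhol z hz
  have htend : Tendsto g (comap Complex.im atTop) (𝓝 L) := hL.comp tendsto_comap_im_ofComplex
  have hbd : BoundedAtFilter (comap Complex.im atTop) g := htend.isBigO_one ℝ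
  set Φ : ℂ → ℂ := Function.Periodic.cuspFunction h g with hΦ
  have hΦ0 : Φ 0 = L := by
    have h1 := Function.Periodic.tendsto_at_I_inf hpos hper hhol' hbd
    have hne : (comap Complex.im atTop).NeBot :=
      (atTop_neBot).comap_of_surj (fun y => ⟨⟨0, y⟩, rfl⟩)
    exact tendsto_nhds_unique h1 htend
  have hΦd : DifferentiableOn ℂ Φ (Metric.ball 0 1) := by
    intro q hq
    apply DifferentiableAt.differentiableWithinAt
    by_cases hq0 : q = 0
    · rw [hq0]
      exact Function.Periodic.differentiableAt_cuspFunction_zero hpos hper hhol' hbd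
    · have hz : 0 < (Function.Periodic.invQParam h q).im := by
        rw [Function.Periodic.im_invQParam]
        have hq1 : ‖q‖ < 1 := by simpa using hq
        have hq2 : 0 < ‖q‖ := norm_pos_iff.mpr hq0
        have hlog : Real.log ‖q‖ < 0 := Real.log_neg hq2 hq1
        have : 0 < h / (2 * Real.pi) := by positivity
        have h3 : -h / (2 * Real.pi) * Real.log ‖q‖ = (h / (2 * Real.pi)) * (-Real.log ‖q‖) := by
          ring
        rw [h3]
        exact mul_pos this (by linarith)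
      have := Function.Periodic.differentiableAt_cuspFunction hpos.ne' hper (hhol _ hz)
      rwa [Function.Periodic.qParam_right_inv hpos.ne' hq0] at this
  have hΦle : ∀ q ∈ Metric.ball (0 : ℂ) 1, (Φ q).im ≤ (Φ 0).im := by
    intro q hq
    by_cases hq0 : q = 0
    · rw [hq0]
    · rw [hΦ0, hΦ, Function.Periodic.cuspFunction_eq_of_nonzero _ _ hq0]
      exact hmax _
  have hconst := eqOn_const_of_im_le Metric.isOpen_ball (convex_ball (0 : ℂ) 1).isPreconnected hΦd
    (Metric.mem_ball_self one_pos) hΦle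
  intro τ
  have h1 : A τ = g ((δ⁻¹ • τ : ℍ) : ℂ) := by
    simp only [hg, hG, Function.comp_apply, ofComplex_apply, smul_inv_smul]
  rw [h1, ← Function.Periodic.eq_cuspFunction hpos.ne' hper, ← hΦ0]
  apply hconst
  rw [mem_ball_zero_iff]
  exact Function.Periodic.norm_qParam_lt_one hpos (δ⁻¹ • τ).im_pos

end cusp


open scoped Modular in
/-- Step 3a: a continuous real function on `ℍ` with a limit at `i∞` is bounded above on the
standard fundamental domain, by a value which is either attained there or is the limit. -/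
theorem exists_bound_fd {u : ℍ → ℝ} (hu : Continuous u) {m : ℝ}
    (hm : Tendsto u atImInfty (𝓝 m)) :
    ∃ M : ℝ, (∀ σ ∈ 𝒟, u σ ≤ M) ∧ ((∃ σ ∈ 𝒟, u σ = M) ∨ M = m) := by
  by_cases h : ∀ σ ∈ 𝒟, u σ ≤ m
  · exact ⟨m, h, Or.inr rfl⟩
  · push Not at h
    obtain ⟨σ₀, hσ₀, hlt⟩ := h
    have hev : ∀ᶠ σ in atImInfty, u σ < u σ₀ := hm.eventually (gt_mem_nhds hlt)
    obtain ⟨Y, hY⟩ := (atImInfty_mem _).mp hev
    set Y' : ℝ := max Y σ₀.im with hY'
    have hK : IsCompact (ModularGroup.truncatedFundamentalDomain Y') :=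
      ModularGroup.isCompact_truncatedFundamentalDomain Y'
    have hne : (ModularGroup.truncatedFundamentalDomain Y').Nonempty :=
      ⟨σ₀, hσ₀, le_max_right _ _⟩
    obtain ⟨σs, hσs, hmax⟩ := hK.exists_isMaxOn hne hu.continuousOn
    refine ⟨u σs, ?_, Or.inl ⟨σs, hσs.1, rfl⟩⟩
    intro σ hσ
    by_cases hc : σ.im ≤ Y'
    · exact hmax ⟨hσ, hc⟩
    · have h1 : Y ≤ σ.im := le_trans (le_max_left _ _) (le_of_lt (not_le.mp hc))
      have h2 : u σ < u σ₀ := hY σ h1
      have h3 : u σ₀ ≤ u σs := hmax ⟨hσ₀, le_max_right _ _⟩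
      exact le_of_lt (lt_of_lt_of_le h2 h3)


open scoped Modular in
/-- **Core lemma.** A holomorphic function on `ℍ` whose imaginary part is `Γ₀(N)`-invariant and
which has a limit at every cusp is constant. -/
theorem const_of_im_invariant {N : ℕ} [NeZero N] {A : ℍ → ℂ} (hA : MDiff A)
    (hinv : ∀ γ ∈ Gamma0 N, ∀ τ : ℍ, (A (γ • τ)).im = (A τ).im)
    (hlim : ∀ δ : SL(2, ℤ), ∃ L : ℂ, Tendsto (fun w : ℍ => A (δ • w)) atImInfty (𝓝 L)) :
    ∀ τ τ' : ℍ, A τ = A τ' := by
  choose Lδ hLδ using hlim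
  have hu : ∀ δ : SL(2, ℤ), Continuous (fun σ : ℍ => (A (δ • σ)).im) := fun δ =>
    Complex.continuous_im.comp (mdiff_comp_smul hA δ).continuous
  have hm : ∀ δ : SL(2, ℤ), Tendsto (fun σ : ℍ => (A (δ • σ)).im) atImInfty (𝓝 (Lδ δ).im) :=
    fun δ => (Complex.continuous_im.tendsto _).comp (hLδ δ)
  choose Mδ hMδ using fun δ => exists_bound_fd (hu δ) (hm δ)
  let Q := SL(2, ℤ) ⧸ Gamma0 N
  have : Finite Q := Subgroup.finite_quotient_of_finiteIndex
  have : Nonempty Q := ⟨QuotientGroup.mk 1⟩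
  let rep : Q → SL(2, ℤ) := fun q => (Quotient.out q)⁻¹
  obtain ⟨q₀, hq₀⟩ := Finite.exists_max (fun q : Q => Mδ (rep q))
  have key : ∀ τ : ℍ, (A τ).im ≤ Mδ (rep q₀) := by
    intro τ
    obtain ⟨g, hg⟩ := ModularGroup.exists_smul_mem_fd τ
    set q : Q := QuotientGroup.mk g with hq
    obtain ⟨h, hh⟩ := QuotientGroup.mk_out_eq_mul (Gamma0 N) g
    have h1 : τ = (h : SL(2, ℤ)) • (rep q • (g • τ)) := by
      have : rep q = (h : SL(2, ℤ))⁻¹ * g⁻¹ := by
        simp only [rep, hq, hh, mul_inv_rev]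
      rw [this, ← mul_smul, ← mul_smul]
      simp
    have h2 : (A τ).im = (A (rep q • (g • τ))).im := by
      conv_lhs => rw [h1]
      exact hinv _ h.2 _
    rw [h2]
    exact le_trans ((hMδ (rep q)).1 _ hg) (hq₀ q)
  rcases (hMδ (rep q₀)).2 with ⟨σs, _, hσs⟩ | hM
  · have hconst := const_of_im_le_of_mem hA (rep q₀ • σs) (fun τ => by rw [hσs]; exact key τ)
    intro τ τ'
    rw [hconst τ, hconst τ']
  · have hconst := const_of_im_le_cusp (NeZero.ne N) hA hinv (rep q₀) (hLδ (rep q₀))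
      (fun τ => by rw [← hM]; exact key τ)
    intro τ τ'
    rw [hconst τ, hconst τ']


/-! ## The reflection `τ ↦ -conj τ` -/

section reflect

open ModularCurve.Period

theorem J_smul_smul (δ : SL(2, ℤ)) (τ : ℍ) :
    UpperHalfPlane.J • (δ • τ) = (jConjSL δ) • (UpperHalfPlane.J • τ) := by
  apply UpperHalfPlane.ext
  have hd : ((δ 1 0 : ℤ) : ℂ) * (τ : ℂ) + ((δ 1 1 : ℤ) : ℂ) ≠ 0 := by
    have := UpperHalfPlane.denom_ne_zero (δ : GL (Fin 2) ℝ) τ
    simpa [UpperHalfPlane.denom] using this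
  have hd' : ((δ 1 0 : ℤ) : ℂ) * (starRingEnd ℂ) (τ : ℂ) + ((δ 1 1 : ℤ) : ℂ) ≠ 0 := by
    intro h
    apply hd
    have := congrArg (starRingEnd ℂ) h
    simpa using this
  rw [coe_J_smul, coe_specialLinearGroup_apply, coe_specialLinearGroup_apply, coe_J_smul]
  simp only [jConjSL_coe, jConjMat, algebraMap_int_eq, eq_intCast, Matrix.of_apply,
    Matrix.cons_val', Matrix.cons_val_zero, Matrix.cons_val_one, Matrix.cons_val_fin_one,
    map_div₀, map_add, map_mul, map_intCast, Complex.ofReal_intCast, Int.cast_neg,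
    Complex.ofReal_neg]
  rw [← neg_div]
  congr 1
  · ring
  · ring

theorem tendsto_J_smul : Tendsto (fun w : ℍ => UpperHalfPlane.J • w) atImInfty atImInfty := by
  have him : ∀ w : ℍ, (UpperHalfPlane.J • w).im = w.im := by
    intro w
    have := congrArg Complex.im (coe_J_smul w)
    simpa using this
  simp only [atImInfty, tendsto_comap_iff, Function.comp_def, him]
  exact tendsto_comap

/-- The conjugate-reflected function `τ ↦ conj (F (-conj τ))` is holomorphic if `F` is. -/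
theorem mdiff_conj_reflect {F : ℍ → ℂ} (hF : MDiff F) :
    MDiff (fun τ : ℍ => (starRingEnd ℂ) (F (UpperHalfPlane.J • τ))) := by
  rw [UpperHalfPlane.mdifferentiable_iff] at hF ⊢
  intro z hz
  apply DifferentiableAt.differentiableWithinAt
  have hz' : 0 < (-(starRingEnd ℂ) z).im := by simpa using hz
  have h1 : DifferentiableAt ℂ (F ∘ ofComplex) (-(starRingEnd ℂ) z) :=
    (hF _ hz').differentiableAt (isOpen_upperHalfPlaneSet.mem_nhds hz')
  -- ψ = conj ∘ (F ∘ ofComplex) ∘ conj is differentiable at conj (-conj z) = -z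
  have h2 : DifferentiableAt ℂ ((starRingEnd ℂ) ∘ (F ∘ ofComplex) ∘ (starRingEnd ℂ))
      ((starRingEnd ℂ) (-(starRingEnd ℂ) z)) := h1.conj_conj
  have h3 : (starRingEnd ℂ) (-(starRingEnd ℂ) z) = -z := by simp
  rw [h3] at h2
  have h4 : DifferentiableAt ℂ
      (fun w : ℂ => ((starRingEnd ℂ) ∘ (F ∘ ofComplex) ∘ (starRingEnd ℂ)) (-w)) z :=
    DifferentiableAt.comp z (f := fun w : ℂ => -w) h2 differentiableAt_id.neg
  refine h4.congr_of_eventuallyEq ?_
  filter_upwards [isOpen_upperHalfPlaneSet.mem_nhds hz] with w hw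
  have hw' : 0 < (-(starRingEnd ℂ) w).im := by simpa using hw
  simp only [Function.comp_apply, map_neg]
  congr 2
  rw [UpperHalfPlane.J_smul, ofComplex_apply_of_im_pos hw]

end reflect


/-! ## Constancy from the symmetry of the periods -/

section main

open ModularCurve ModularCurve.Period

variable {N : ℕ} [NeZero N]

theorem const_of_real_increments {A : ℍ → ℂ} (hA : MDiff A)
    (hinc : ∀ γ ∈ Gamma0 N, ∃ c : ℂ, c.im = 0 ∧ ∀ τ : ℍ, A (γ • τ) - A τ = c)
    (hlim : ∀ δ : SL(2, ℤ), ∃ L : ℂ, Tendsto (fun w : ℍ => A (δ • w)) atImInfty (𝓝 L)) :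
    ∀ τ τ' : ℍ, A τ = A τ' := by
  refine const_of_im_invariant (N := N) hA ?_ hlim
  intro γ hγ τ
  obtain ⟨c, hc, h⟩ := hinc γ hγ
  have h1 : A (γ • τ) = A τ + c := by rw [← h τ]; ring
  rw [h1, Complex.add_im, hc, add_zero]

theorem const_of_imag_increments {A : ℍ → ℂ} (hA : MDiff A)
    (hinc : ∀ γ ∈ Gamma0 N, ∃ c : ℂ, c.re = 0 ∧ ∀ τ : ℍ, A (γ • τ) - A τ = c)
    (hlim : ∀ δ : SL(2, ℤ), ∃ L : ℂ, Tendsto (fun w : ℍ => A (δ • w)) atImInfty (𝓝 L)) :
    ∀ τ τ' : ℍ, A τ = A τ' := by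
  have hIA : MDiff (fun τ : ℍ => Complex.I * A τ) := by
    have : MDiff (fun _ : ℍ => Complex.I) := mdifferentiable_const
    exact this.mul hA
  have key := const_of_real_increments (N := N) hIA (by
      intro γ hγ
      obtain ⟨c, hc, h⟩ := hinc γ hγ
      refine ⟨Complex.I * c, by simp [hc], fun τ => ?_⟩
      rw [← h τ]; ring)
    (by
      intro δ
      obtain ⟨L, hL⟩ := hlim δ
      exact ⟨Complex.I * L, hL.const_mul Complex.I⟩)
  intro τ τ'
  have := key τ τ'
  exact mul_left_cancel₀ Complex.I_ne_zero this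

/-- **Lemma R.** If the periods of `F` are (anti)symmetric under `γ ↦ jγ`, then `F` is
constant. `ε = 1` or `ε = -1`. -/
theorem const_of_period_symm {F : ℍ → ℂ} (hF : MDiff F) (per : Gamma0 N → ℂ)
    (hper : ∀ (γ : Gamma0 N) (τ : ℍ), F ((γ : SL(2, ℤ)) • τ) - F τ = per γ)
    (hlim : ∀ δ : SL(2, ℤ), ∃ L : ℂ, Tendsto (fun w : ℍ => F (δ • w)) atImInfty (𝓝 L))
    {ε : ℂ} (hε : ε = 1 ∨ ε = -1)
    (hsym : ∀ γ : Gamma0 N, per (jConjGamma0 N γ) = ε * per γ) :
    ∀ τ τ' : ℍ, F τ = F τ' := by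
  set Fc : ℍ → ℂ := fun τ => (starRingEnd ℂ) (F (UpperHalfPlane.J • τ)) with hFc
  have hFcd : MDiff Fc := mdiff_conj_reflect hF
  have hFcper : ∀ (γ : Gamma0 N) (τ : ℍ),
      Fc ((γ : SL(2, ℤ)) • τ) - Fc τ = (starRingEnd ℂ) (per (jConjGamma0 N γ)) := by
    intro γ τ
    simp only [hFc]
    rw [J_smul_smul, ← map_sub, ← jConjGamma0_coe, hper]
  have hFclim : ∀ δ : SL(2, ℤ), ∃ L : ℂ,
      Tendsto (fun w : ℍ => Fc (δ • w)) atImInfty (𝓝 L) := by
    intro δ
    obtain ⟨L, hL⟩ := hlim (jConjSL δ)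
    refine ⟨(starRingEnd ℂ) L, ?_⟩
    have h1 : Tendsto (fun w : ℍ => F (jConjSL δ • (UpperHalfPlane.J • w))) atImInfty (𝓝 L) :=
      hL.comp tendsto_J_smul
    have h2 := (Complex.continuous_conj.tendsto L).comp h1
    refine h2.congr (fun w => ?_)
    simp only [hFc, Function.comp_apply, J_smul_smul]
  have hXd : MDiff (fun τ : ℍ => F τ - Fc τ) := hF.sub hFcd
  have hYd : MDiff (fun τ : ℍ => F τ + Fc τ) := hF.add hFcd
  have hXlim : ∀ δ : SL(2, ℤ), ∃ L : ℂ,
      Tendsto (fun w : ℍ => F (δ • w) - Fc (δ • w)) atImInfty (𝓝 L) := by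
    intro δ
    obtain ⟨L, hL⟩ := hlim δ
    obtain ⟨L', hL'⟩ := hFclim δ
    exact ⟨L - L', hL.sub hL'⟩
  have hYlim : ∀ δ : SL(2, ℤ), ∃ L : ℂ,
      Tendsto (fun w : ℍ => F (δ • w) + Fc (δ • w)) atImInfty (𝓝 L) := by
    intro δ
    obtain ⟨L, hL⟩ := hlim δ
    obtain ⟨L', hL'⟩ := hFclim δ
    exact ⟨L + L', hL.add hL'⟩
  have hXinc : ∀ (γ : Gamma0 N) (τ : ℍ), (F ((γ : SL(2, ℤ)) • τ) - Fc ((γ : SL(2, ℤ)) • τ))
      - (F τ - Fc τ) = per γ - (starRingEnd ℂ) (ε * per γ) := by
    intro γ τ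
    rw [← hsym γ, ← hFcper γ τ, ← hper γ τ]; ring
  have hYinc : ∀ (γ : Gamma0 N) (τ : ℍ), (F ((γ : SL(2, ℤ)) • τ) + Fc ((γ : SL(2, ℤ)) • τ))
      - (F τ + Fc τ) = per γ + (starRingEnd ℂ) (ε * per γ) := by
    intro γ τ
    rw [← hsym γ, ← hFcper γ τ, ← hper γ τ]; ring
  have hX : ∀ τ τ' : ℍ, F τ - Fc τ = F τ' - Fc τ' := by
    rcases hε with rfl | rfl
    · refine const_of_imag_increments (N := N) hXd ?_ hXlim
      intro γ hγ
      exact ⟨_, by simp, fun τ => hXinc ⟨γ, hγ⟩ τ⟩
    · refine const_of_real_increments (N := N) hXd ?_ hXlim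
      intro γ hγ
      exact ⟨_, by simp, fun τ => hXinc ⟨γ, hγ⟩ τ⟩
  have hY : ∀ τ τ' : ℍ, F τ + Fc τ = F τ' + Fc τ' := by
    rcases hε with rfl | rfl
    · refine const_of_real_increments (N := N) hYd ?_ hYlim
      intro γ hγ
      exact ⟨_, by simp, fun τ => hYinc ⟨γ, hγ⟩ τ⟩
    · refine const_of_imag_increments (N := N) hYd ?_ hYlim
      intro γ hγ
      exact ⟨_, by simp, fun τ => hYinc ⟨γ, hγ⟩ τ⟩
  intro τ τ'
  have h1 := hX τ τ'
  have h2 := hY τ τ'
  have : 2 * F τ = 2 * F τ' := by linear_combination h1 + h2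
  exact mul_left_cancel₀ two_ne_zero this


/-- A cusp form with an equivariant primitive whose periods are (anti)symmetric under the
reflection `γ ↦ jγ` vanishes. -/
theorem eq_zero_of_period_symm (f : CuspForm (Gamma0 N) 2) {F : ℍ → ℂ}
    (hF : HasEquivariantPrimitive N f F) {ε : ℂ} (hε : ε = 1 ∨ ε = -1)
    (hsym : ∀ γ : Gamma0 N, hF.2.2.1.period (jConjGamma0 N γ) = ε * hF.2.2.1.period γ) :
    f = 0 := by
  have hFd : MDiff F := by
    rw [UpperHalfPlane.mdifferentiable_iff]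
    intro z hz
    have := hF.1 ⟨z, hz⟩
    exact this.differentiableAt.differentiableWithinAt
  have hconst := const_of_period_symm (N := N) hFd (fun γ => hF.2.2.1.period γ)
    (fun γ τ => hF.2.2.1.sub_eq_period γ τ) hF.2.2.2 hε hsym
  ext τ
  have h1 : HasDerivAt (F ∘ ofComplex) (f τ) ↑τ := hF.1 τ
  have h2 : HasDerivAt (F ∘ ofComplex) 0 ↑τ := by
    have : (F ∘ ofComplex) =ᶠ[𝓝 (τ : ℂ)] fun _ => F τ := by
      filter_upwards [isOpen_upperHalfPlaneSet.mem_nhds τ.im_pos] with w _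
      exact hconst _ _
    exact (hasDerivAt_const (τ : ℂ) (F τ)).congr_of_eventuallyEq this
  simpa using h1.unique h2

/-- **AN3.** Injectivity of the period pair map, for any linear map `P` computing periods of
equivariant primitives (in particular for the linear period map of the Prelude). -/
theorem injective_coprod_period
    (P : CuspForm (Gamma0 N) 2 →ₗ[ℂ] (Additive (Gamma0 N) →+ ℂ))
    (hP : ∀ f : CuspForm (Gamma0 N) 2, ∃ (F : ℍ → ℂ) (hF : HasEquivariantPrimitive N f F),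
      P f = hF.2.2.1.periodHom) :
    Function.Injective
      (LinearMap.coprod ((LinearMap.id + charInvolution N ℂ ℂ) ∘ₗ P)
        ((LinearMap.id - charInvolution N ℂ ℂ) ∘ₗ P)) := by
  rw [← LinearMap.ker_eq_bot, LinearMap.ker_eq_bot']
  rintro ⟨f, g⟩ h
  have hev : ∀ γ : Gamma0 N,
      P f (Additive.ofMul γ) + P f (Additive.ofMul (jConjGamma0 N γ))
        + (P g (Additive.ofMul γ) - P g (Additive.ofMul (jConjGamma0 N γ))) = 0 := by
    intro γ
    have := DFunLike.congr_fun h (Additive.ofMul γ)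
    simpa [LinearMap.coprod_apply, charInvolution_apply] using this
  have hf : ∀ γ : Gamma0 N, P f (Additive.ofMul (jConjGamma0 N γ)) = -1 * P f (Additive.ofMul γ) := by
    intro γ
    have h1 := hev γ
    have h2 := hev (jConjGamma0 N γ)
    rw [jConjGamma0_jConjGamma0] at h2
    linear_combination (1 / 2 : ℂ) * h1 + (1 / 2 : ℂ) * h2
  have hg : ∀ γ : Gamma0 N, P g (Additive.ofMul (jConjGamma0 N γ)) = 1 * P g (Additive.ofMul γ) := by
    intro γ
    have h1 := hev γ
    have h2 := hev (jConjGamma0 N γ)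
    rw [jConjGamma0_jConjGamma0] at h2
    linear_combination (-1 / 2 : ℂ) * h1 + (1 / 2 : ℂ) * h2
  have hf0 : f = 0 := by
    obtain ⟨F, hF, hPF⟩ := hP f
    refine eq_zero_of_period_symm f hF (Or.inr rfl) (fun γ => ?_)
    have := hf γ
    rwa [hPF, IsEquivariantPrimitive.periodHom_apply, IsEquivariantPrimitive.periodHom_apply]
      at this
  have hg0 : g = 0 := by
    obtain ⟨G, hG, hPG⟩ := hP g
    refine eq_zero_of_period_symm g hG (Or.inl rfl) (fun γ => ?_)
    have := hg γ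
    rwa [hPG, IsEquivariantPrimitive.periodHom_apply, IsEquivariantPrimitive.periodHom_apply]
      at this
  rw [hf0, hg0]
  rfl


/-- Injectivity half of S21, given existence of equivariant primitives and linearity of the
period map (package AN1). -/
theorem injective_periodHomPair
    (hex : ∀ f : CuspForm (Gamma0 N) 2, ∃ F : ℍ → ℂ, HasEquivariantPrimitive N f F)
    (hlin : ExistsPeriodMapLinear N) : Function.Injective (periodHomPair N) := by
  obtain ⟨pml, hpml, heq⟩ := periodHomPair_def N hlin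
  rw [heq]
  refine injective_coprod_period pml (fun f => ?_)
  obtain ⟨F, hF⟩ := hex f
  obtain ⟨F₀, h₀, hp⟩ := periodMap_def N f hF
  exact ⟨F₀, h₀, (hpml f).trans hp⟩

end main

end Fermat.Agent.S21.Inj35

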