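import Mathlib

/-!
# Permutation representations on functions (helper file for S21/GC, helper87)

`G` a group acting on `X`; `L g : (X → ℂ) →ₗ[ℂ] (X → ℂ)`, `(L g v) x = v (g⁻¹ • x)`.
Main results:
* `finrank_ker_L_sub_id` : `finrank (ker (L g - id)) = #orbits of ⟨g⟩`.
* `finrank_ker_Nsum` : if `(L g)^m = id`, `m ≠ 0`, then `finrank (ker (∑_{i<m} (L g)^i)) + #orbits = |X|`.
-/

set_option autoImplicit false

namespace Fermat.Agent.S21.GC87

open scoped BigOperators

section Basic

variable {G : Type*} [Group G] {X : Type*} [MulAction G X]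

/-- The permutation representation on functions. -/
noncomputable def L (g : G) : (X → ℂ) →ₗ[ℂ] (X → ℂ) :=
  LinearMap.funLeft ℂ ℂ (fun x => g⁻¹ • x)

@[simp] lemma L_apply (g : G) (v : X → ℂ) (x : X) : L g v x = v (g⁻¹ • x) := rfl

lemma L_one : L (1 : G) = (LinearMap.id : (X → ℂ) →ₗ[ℂ] (X → ℂ)) := by
  ext v x; simp

lemma L_mul (g h : G) : (L (g * h) : (X → ℂ) →ₗ[ℂ] (X → ℂ)) = (L g).comp (L h) := by
  ext v x; simp [mul_inv_rev, mul_smul]

lemma L_mul_apply (g h : G) (v : X → ℂ) : L (g * h) v = L g (L h v) := by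
  rw [L_mul]; rfl

lemma L_inv_L (g : G) (v : X → ℂ) : L g⁻¹ (L g v) = v := by
  rw [← L_mul_apply, inv_mul_cancel, L_one]; rfl

lemma L_L_inv (g : G) (v : X → ℂ) : L g (L g⁻¹ v) = v := by
  rw [← L_mul_apply, mul_inv_cancel, L_one]; rfl

lemma L_pow (g : G) (m : ℕ) : (L (g ^ m) : (X → ℂ) →ₗ[ℂ] (X → ℂ)) = (L g) ^ m := by
  induction m with
  | zero => rw [pow_zero, pow_zero, L_one]; rfl
  | succ k ih => rw [pow_succ, pow_succ, L_mul, ih]; rfl

lemma L_eq_id_of_forall_smul {g : G} (h : ∀ x : X, g • x = x) :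
    (L g : (X → ℂ) →ₗ[ℂ] (X → ℂ)) = LinearMap.id := by
  ext v x
  have : g⁻¹ • x = x := by
    conv_lhs => rw [← h x]
    rw [inv_smul_smul]
  simp [this]

/-- sum of values is preserved -/
lemma sum_L [Fintype X] (g : G) (v : X → ℂ) : ∑ x, L g v x = ∑ x, v x := by
  simp only [L_apply]
  exact Fintype.sum_equiv (MulAction.toPerm g⁻¹) _ _ (fun x => rfl)

end Basic

section Invariants

variable {G : Type*} [Group G] {X : Type*} [MulAction G X]

/-- an `L g`-invariant function is constant on `⟨g⟩`-orbits -/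
lemma invariant_zpowers {g : G} {v : X → ℂ} (hv : L g v = v) (t : G)
    (ht : t ∈ Subgroup.zpowers g) (x : X) : v (t • x) = v x := by
  let K : Subgroup G :=
    { carrier := {t | ∀ x, v (t • x) = v x}
      one_mem' := fun x => by rw [one_smul]
      mul_mem' := fun {a b} ha hb x => by rw [mul_smul, ha, hb]
      inv_mem' := fun {a} ha x => by
        have := ha (a⁻¹ • x)
        rw [smul_inv_smul] at this
        exact this.symm }
  have hg : g ∈ K := fun x => by
    have := congrFun hv (g • x)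
    rw [L_apply, inv_smul_smul] at this
    exact this.symm
  exact (Subgroup.zpowers_le.mpr hg) ht x

/-- `dim (X → ℂ)^{g} = #orbits of ⟨g⟩`. -/
theorem finrank_ker_L_sub_id [Finite X] (g : G) :
    Module.finrank ℂ (LinearMap.ker ((L g : (X → ℂ) →ₗ[ℂ] (X → ℂ)) - LinearMap.id)) =
      Nat.card (MulAction.orbitRel.Quotient (Subgroup.zpowers g) X) := by
  classical
  have : Fintype X := Fintype.ofFinite X
  have : Fintype (MulAction.orbitRel.Quotient (Subgroup.zpowers g) X) := Fintype.ofFinite _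
  set Q := MulAction.orbitRel.Quotient (Subgroup.zpowers g) X
  let J : (Q → ℂ) →ₗ[ℂ] (X → ℂ) := LinearMap.funLeft ℂ ℂ (fun x => (Quotient.mk'' x : Q))
  have hJinj : Function.Injective J :=
    LinearMap.funLeft_injective_of_surjective ℂ ℂ _ Quotient.mk''_surjective
  have hrange : LinearMap.range J =
      LinearMap.ker ((L g : (X → ℂ) →ₗ[ℂ] (X → ℂ)) - LinearMap.id) := by
    ext v
    rw [LinearMap.mem_range, LinearMap.mem_ker, LinearMap.sub_apply, sub_eq_zero,
      LinearMap.id_apply]
    constructor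
    · rintro ⟨w, rfl⟩
      ext x
      show w (Quotient.mk'' (g⁻¹ • x)) = w (Quotient.mk'' x)
      congr 1
      apply Quotient.sound'
      rw [MulAction.orbitRel_apply]
      exact ⟨⟨g⁻¹, Subgroup.inv_mem _ (Subgroup.mem_zpowers g)⟩, rfl⟩
    · intro hv
      refine ⟨fun q => Quotient.liftOn' q v ?_, ?_⟩
      · intro a b hab
        rw [MulAction.orbitRel_apply] at hab
        obtain ⟨⟨t, ht⟩, rfl⟩ := hab
        exact invariant_zpowers hv t ht b
      · ext x
        rfl
  rw [← hrange, LinearMap.finrank_range_of_inj hJinj, Module.finrank_fintype_fun_eq_card,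
    Nat.card_eq_fintype_card]

end Invariants

section Averaging

variable {V : Type*} [AddCommGroup V] [Module ℂ V] [FiniteDimensional ℂ V]

/-- If `E^m = 1` with `m ≠ 0`, the kernel of `∑_{i<m} E^i` is a complement (in dimension) of the
fixed space of `E`. -/
theorem finrank_ker_sum_pow (E : V →ₗ[ℂ] V) {m : ℕ} (hm : m ≠ 0) (hE : E ^ m = 1) :
    Module.finrank ℂ (LinearMap.ker (∑ i ∈ Finset.range m, E ^ i)) +
      Module.finrank ℂ (LinearMap.ker (E - LinearMap.id)) = Module.finrank ℂ V := by
  set Nm : V →ₗ[ℂ] V := ∑ i ∈ Finset.range m, E ^ i with hNm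
  have hEN : E * Nm = Nm := by
    rw [hNm, Finset.mul_sum]
    have h1 : ∑ i ∈ Finset.range m, E * E ^ i = ∑ i ∈ Finset.range m, E ^ (i + 1) := by
      refine Finset.sum_congr rfl fun i _ => ?_
      rw [pow_succ']
    rw [h1]
    have key : ∑ i ∈ Finset.range m, E ^ (i + 1) + E ^ 0 =
        ∑ i ∈ Finset.range m, E ^ i + E ^ m := by
      rw [← Finset.sum_range_succ', Finset.sum_range_succ]
    rw [hE, pow_zero] at key
    exact add_right_cancel key
  have hfix : ∀ v : V, E v = v → ∀ i : ℕ, (E ^ i) v = v := by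
    intro v hv i
    induction i with
    | zero => simp
    | succ k ih => rw [pow_succ, Module.End.mul_apply, hv, ih]
  have hrange : LinearMap.range Nm = LinearMap.ker (E - LinearMap.id) := by
    ext v
    rw [LinearMap.mem_range, LinearMap.mem_ker, LinearMap.sub_apply, sub_eq_zero,
      LinearMap.id_apply]
    constructor
    · rintro ⟨w, rfl⟩
      have := congrArg (fun f : V →ₗ[ℂ] V => f w) hEN
      simpa [Module.End.mul_apply] using this
    · intro hv
      refine ⟨((m : ℂ)⁻¹) • v, ?_⟩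
      rw [map_smul, hNm, LinearMap.sum_apply]
      rw [Finset.sum_congr rfl (fun i _ => hfix v hv i), Finset.sum_const, Finset.card_range,
        ← Nat.cast_smul_eq_nsmul ℂ, smul_smul, inv_mul_cancel₀ (Nat.cast_ne_zero.mpr hm), one_smul]
  rw [← hrange, add_comm]
  exact LinearMap.finrank_range_add_finrank_ker Nm

end Averaging

end Fermat.Agent.S21.GC87
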