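import Mathlib
import Fermat.Agent.S21.PermRep87

/-!
# Linear algebra for the parabolic cohomology bound (S21/GC second seat, helper87)
-/

set_option autoImplicit false

namespace Fermat.Agent.S21.GC87

open scoped BigOperators
open Module

section Generic

variable {K : Type*} [Field K] {E F : Type*} [AddCommGroup E] [Module K E]
  [AddCommGroup F] [Module K F]

lemma finrank_map_add_finrank_inf_ker [FiniteDimensional K E] (p : Submodule K E)
    (f : E →ₗ[K] F) :
    finrank K (p.map f) + finrank K (p ⊓ LinearMap.ker f : Submodule K E) = finrank K p := by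
  have h := LinearMap.finrank_range_add_finrank_ker (f.domRestrict p)
  rw [LinearMap.range_domRestrict, LinearMap.ker_domRestrict] at h
  have e : (Submodule.comap p.subtype (p ⊓ LinearMap.ker f)) ≃ₗ[K]
      (p ⊓ LinearMap.ker f : Submodule K E) :=
    Submodule.comapSubtypeEquivOfLe inf_le_left
  have h2 : Submodule.comap p.subtype (p ⊓ LinearMap.ker f) =
      Submodule.comap p.subtype (LinearMap.ker f) := by
    rw [Submodule.comap_inf, Submodule.comap_subtype_self, top_inf_eq]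
  rw [← h2, e.finrank_eq] at h
  exact h

/-- `p.prod q ≃ p × q` -/
def prodSubEquiv (p : Submodule K E) (q : Submodule K F) : (p.prod q) ≃ₗ[K] (p × q) where
  toFun z := (⟨z.1.1, z.2.1⟩, ⟨z.1.2, z.2.2⟩)
  invFun w := ⟨(w.1.1, w.2.1), ⟨w.1.2, w.2.2⟩⟩
  map_add' _ _ := rfl
  map_smul' _ _ := rfl
  left_inv _ := rfl
  right_inv _ := rfl

lemma finrank_prodSub [FiniteDimensional K E] [FiniteDimensional K F]
    (p : Submodule K E) (q : Submodule K F) :
    finrank K (p.prod q) = finrank K p + finrank K q := by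
  rw [(prodSubEquiv p q).finrank_eq, Module.finrank_prod]

end Generic

section LA

variable {G : Type*} [Group G] {X : Type*} [MulAction G X]

/-- number of orbits of `⟨g⟩` on `X` -/
noncomputable def orb (X : Type*) [MulAction G X] (g : G) : ℕ :=
  Nat.card (MulAction.orbitRel.Quotient (Subgroup.zpowers g) X)

/-- norm element `∑_{i<m} (L g)^i` -/
noncomputable def Nsum (g : G) (m : ℕ) : (X → ℂ) →ₗ[ℂ] (X → ℂ) :=
  ∑ i ∈ Finset.range m, (L g) ^ i

lemma Nsum_L_sub {g : G} {m : ℕ} (hg : (L g : (X → ℂ) →ₗ[ℂ] (X → ℂ)) ^ m = 1) (v : X → ℂ) :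
    Nsum g m (L g v - v) = 0 := by
  have h := geom_sum_mul (L g : (X → ℂ) →ₗ[ℂ] (X → ℂ)) m
  rw [hg, sub_self] at h
  have h2 := congrArg (fun f : (X → ℂ) →ₗ[ℂ] (X → ℂ) => f v) h
  simpa [Nsum, Module.End.mul_apply] using h2

lemma finrank_ker_Nsum [Finite X] {g : G} {m : ℕ} (hm : m ≠ 0)
    (hg : (L g : (X → ℂ) →ₗ[ℂ] (X → ℂ)) ^ m = 1) :
    finrank ℂ (LinearMap.ker (Nsum g m : (X → ℂ) →ₗ[ℂ] (X → ℂ))) + orb X g = Nat.card X := by
  have : Fintype X := Fintype.ofFinite X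
  have h := finrank_ker_sum_pow (L g : (X → ℂ) →ₗ[ℂ] (X → ℂ)) hm hg
  rw [finrank_ker_L_sub_id, Module.finrank_fintype_fun_eq_card, ← Nat.card_eq_fintype_card] at h
  exact h

/-- closure argument: `v - L g v ∈ W` for all `g` once it holds for generators -/
lemma sub_L_mem_of_closure {s u : G} (hgen : Subgroup.closure {s, u} = ⊤)
    (W : Submodule ℂ (X → ℂ)) (hs : ∀ v, v - L s v ∈ W) (hu : ∀ v, v - L u v ∈ W)
    (g : G) (v : X → ℂ) : v - L g v ∈ W := by
  let Ksub : Subgroup G :=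
    { carrier := {g | ∀ v : X → ℂ, v - L g v ∈ W}
      one_mem' := fun v => by
        rw [L_one]; simp
      mul_mem' := fun {a b} ha hb v => by
        have h1 := hb v
        have h2 := ha (L b v)
        have : v - L (a * b) v = (v - L b v) + (L b v - L a (L b v)) := by
          rw [L_mul_apply]; abel
        rw [this]
        exact W.add_mem h1 h2
      inv_mem' := fun {a} ha v => by
        have h1 := ha (L a⁻¹ v)
        rw [L_L_inv] at h1
        have : v - L a⁻¹ v = -(L a⁻¹ v - v) := by abel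
        rw [this]
        exact W.neg_mem h1 }
  have hle : Subgroup.closure {s, u} ≤ Ksub := by
    rw [Subgroup.closure_le]
    intro x hx
    rcases hx with rfl | hx
    · exact hs
    · rw [Set.mem_singleton_iff] at hx
      subst hx
      exact hu
  have : g ∈ Ksub := hle (hgen ▸ Subgroup.mem_top g)
  exact this v

lemma L_single [DecidableEq X] (g : G) (y : X) :
    L g (Pi.single y (1 : ℂ)) = Pi.single (g • y) (1 : ℂ) := by
  ext z
  rw [L_apply, Pi.single_apply, Pi.single_apply]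
  have : g⁻¹ • z = y ↔ z = g • y := inv_smul_eq_iff
  simp only [this]

end LA

section Aug

variable {G : Type*} [Group G] {X : Type*} [MulAction G X] [Fintype X]

/-- augmentation functional -/
noncomputable def aug : (X → ℂ) →ₗ[ℂ] ℂ where
  toFun v := ∑ x, v x
  map_add' v w := by simp [Finset.sum_add_distrib]
  map_smul' c v := by simp [Finset.mul_sum]

lemma aug_apply (v : X → ℂ) : aug v = ∑ x, v x := rfl

lemma aug_L (g : G) (v : X → ℂ) : aug (L g v) = aug v := sum_L g v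

lemma finrank_ker_aug : Fintype.card X ≤ finrank ℂ (LinearMap.ker (aug : (X → ℂ) →ₗ[ℂ] ℂ)) + 1 := by
  have h := LinearMap.finrank_range_add_finrank_ker (aug : (X → ℂ) →ₗ[ℂ] ℂ)
  rw [Module.finrank_fintype_fun_eq_card] at h
  have h1 : finrank ℂ (LinearMap.range (aug : (X → ℂ) →ₗ[ℂ] ℂ)) ≤ 1 := by
    have := Submodule.finrank_le (LinearMap.range (aug : (X → ℂ) →ₗ[ℂ] ℂ))
    simpa using this
  omega

/-- the augmentation kernel is generated by `v - L s v`, `v - L u v` when `s, u` generate a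
transitive group -/
lemma ker_aug_le [MulAction.IsPretransitive G X] {s u : G}
    (hgen : Subgroup.closure {s, u} = ⊤) (w : X → ℂ) (hw : aug w = 0) :
    ∃ p q : X → ℂ, w = (p - L s p) + (q - L u q) := by
  classical
  set W : Submodule ℂ (X → ℂ) :=
    LinearMap.range (LinearMap.id - (L s : (X → ℂ) →ₗ[ℂ] (X → ℂ))) ⊔
      LinearMap.range (LinearMap.id - (L u : (X → ℂ) →ₗ[ℂ] (X → ℂ))) with hW
  have hsW : ∀ v : X → ℂ, v - L s v ∈ W := fun v =>
    Submodule.mem_sup_left ⟨v, rfl⟩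
  have huW : ∀ v : X → ℂ, v - L u v ∈ W := fun v =>
    Submodule.mem_sup_right ⟨v, rfl⟩
  have hall := sub_L_mem_of_closure hgen W hsW huW
  have hmem : w ∈ W := by
    rcases isEmpty_or_nonempty X with hX | ⟨⟨x₀⟩⟩
    · have : w = 0 := by ext x; exact (hX.false x).elim
      rw [this]; exact W.zero_mem
    · have hsingle : ∀ x : X, (Pi.single x (1:ℂ) - Pi.single x₀ (1:ℂ) : X → ℂ) ∈ W := by
        intro x
        obtain ⟨g, rfl⟩ := MulAction.exists_smul_eq G x₀ x
        have := hall g (Pi.single x₀ (1:ℂ))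
        rw [L_single] at this
        have h2 : (Pi.single (g • x₀) (1:ℂ) - Pi.single x₀ (1:ℂ) : X → ℂ) =
            -(Pi.single x₀ (1:ℂ) - Pi.single (g • x₀) (1:ℂ)) := by abel
        rw [h2]
        exact W.neg_mem this
      have hsum : w = ∑ x, w x • (Pi.single x (1:ℂ) - Pi.single x₀ (1:ℂ) : X → ℂ) := by
        ext z
        rw [Finset.sum_apply]
        simp only [Pi.smul_apply, Pi.sub_apply, smul_eq_mul, mul_sub, Pi.single_apply,
          Finset.sum_sub_distrib, mul_ite, mul_one, mul_zero]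
        rw [Finset.sum_ite_eq Finset.univ z w]
        simp only [Finset.mem_univ, if_true]
        have h0 : (∑ x, if z = x₀ then w x else 0) = 0 := by
          by_cases hz : z = x₀
          · simp only [hz, if_true]
            exact hw
          · simp only [hz, if_false]
            exact Finset.sum_const_zero
        rw [h0, sub_zero]
      rw [hsum]
      exact W.sum_mem fun x _ => W.smul_mem _ (hsingle x)
  rw [hW, Submodule.mem_sup] at hmem
  obtain ⟨a, ⟨p, rfl⟩, b, ⟨q, rfl⟩, hab⟩ := hmem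
  exact ⟨p, q, by rw [← hab]; rfl⟩

end Aug

section Main

variable {G : Type*} [Group G] {X : Type*} [MulAction G X]

/-- `fmap (a,b) = N_t (L s⁻¹ (b - a))`, `t = s⁻¹ u` -/
noncomputable def fmap (s u : G) (m : ℕ) : ((X → ℂ) × (X → ℂ)) →ₗ[ℂ] (X → ℂ) :=
  (Nsum (s⁻¹ * u) m).comp ((L s⁻¹).comp (LinearMap.snd ℂ _ _ - LinearMap.fst ℂ _ _))

lemma fmap_apply (s u : G) (m : ℕ) (z : (X → ℂ) × (X → ℂ)) :
    fmap s u m z = Nsum (s⁻¹ * u) m (L s⁻¹ (z.2 - z.1)) := rfl

/-- pairs killed by the two norm maps -/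
noncomputable def Zsub (s u : G) : Submodule ℂ ((X → ℂ) × (X → ℂ)) :=
  (LinearMap.ker (Nsum s 2 : (X → ℂ) →ₗ[ℂ] (X → ℂ))).prod
    (LinearMap.ker (Nsum u 3 : (X → ℂ) →ₗ[ℂ] (X → ℂ)))

/-- the space containing all "parabolic cocycle data" -/
noncomputable def Ysub (s u : G) (m : ℕ) : Submodule ℂ ((X → ℂ) × (X → ℂ)) :=
  Zsub s u ⊓ LinearMap.ker (fmap s u m)

lemma mem_Ysub_iff (s u : G) (m : ℕ) (z : (X → ℂ) × (X → ℂ)) :
    z ∈ Ysub (X := X) s u m ↔ Nsum s 2 z.1 = 0 ∧ Nsum u 3 z.2 = 0 ∧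
      Nsum (s⁻¹ * u) m (L s⁻¹ (z.2 - z.1)) = 0 := by
  rw [Ysub, Submodule.mem_inf, Zsub, Submodule.mem_prod, LinearMap.mem_ker, LinearMap.mem_ker,
    LinearMap.mem_ker, fmap_apply, and_assoc]

/-- coboundary map -/
noncomputable def Bmap (s u : G) : (X → ℂ) →ₗ[ℂ] ((X → ℂ) × (X → ℂ)) :=
  LinearMap.prod (L s - LinearMap.id) (L u - LinearMap.id)

lemma Bmap_apply (s u : G) (v : X → ℂ) : Bmap s u v = (L s v - v, L u v - v) := rfl

lemma Bmap_mem_Ysub {s u : G} {m : ℕ}
    (hs : (L s : (X → ℂ) →ₗ[ℂ] (X → ℂ)) ^ 2 = 1) (hu : (L u : (X → ℂ) →ₗ[ℂ] (X → ℂ)) ^ 3 = 1)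
    (ht : (L (s⁻¹ * u) : (X → ℂ) →ₗ[ℂ] (X → ℂ)) ^ m = 1) (v : X → ℂ) :
    Bmap s u v ∈ Ysub (X := X) s u m := by
  rw [mem_Ysub_iff, Bmap_apply]
  refine ⟨Nsum_L_sub hs v, Nsum_L_sub hu v, ?_⟩
  have : L s⁻¹ ((L u v - v) - (L s v - v)) = L (s⁻¹ * u) v - v := by
    rw [sub_sub_sub_cancel_right, map_sub, L_inv_L, L_mul_apply]
  show Nsum (s⁻¹ * u) m (L s⁻¹ ((L u v - v) - (L s v - v))) = 0
  rw [this]
  exact Nsum_L_sub ht v

/-- constants -/
noncomputable def constMap (X : Type*) : ℂ →ₗ[ℂ] (X → ℂ) := LinearMap.pi (fun _ => LinearMap.id)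

lemma ker_Bmap_le [MulAction.IsPretransitive G X] {s u : G}
    (hgen : Subgroup.closure {s, u} = ⊤) :
    LinearMap.ker (Bmap (X := X) s u) ≤ LinearMap.range (constMap X) := by
  intro v hv
  rw [LinearMap.mem_ker, Bmap_apply, Prod.mk_eq_zero, sub_eq_zero, sub_eq_zero] at hv
  obtain ⟨hs, hu⟩ := hv
  let Ksub : Subgroup G :=
    { carrier := {g | L g v = v}
      one_mem' := by show L 1 v = v; rw [L_one]; rfl
      mul_mem' := fun {a b} ha hb => by
        show L (a * b) v = v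
        rw [L_mul_apply, hb, ha]
      inv_mem' := fun {a} ha => by
        show L a⁻¹ v = v
        have := L_inv_L a v
        rw [ha] at this
        exact this }
  have hle : Subgroup.closure {s, u} ≤ Ksub := by
    rw [Subgroup.closure_le]
    intro x hx
    rcases hx with rfl | hx
    · exact hs
    · rw [Set.mem_singleton_iff] at hx
      subst hx
      exact hu
  have hall : ∀ g : G, L g v = v := fun g => hle (hgen ▸ Subgroup.mem_top g)
  rcases isEmpty_or_nonempty X with hX | ⟨⟨x₀⟩⟩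
  · exact ⟨0, by ext x; exact (hX.false x).elim⟩
  · refine ⟨v x₀, ?_⟩
    ext x
    obtain ⟨g, rfl⟩ := MulAction.exists_smul_eq G x₀ x
    have := congrFun (hall g) (g • x₀)
    rw [L_apply, inv_smul_smul] at this
    exact this

variable [Fintype X]

lemma card_le_finrank_range_Bmap [MulAction.IsPretransitive G X] {s u : G}
    (hgen : Subgroup.closure {s, u} = ⊤) :
    Fintype.card X ≤ finrank ℂ (LinearMap.range (Bmap (X := X) s u)) + 1 := by
  have h := LinearMap.finrank_range_add_finrank_ker (Bmap (X := X) s u)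
  rw [Module.finrank_fintype_fun_eq_card] at h
  have h1 : finrank ℂ (LinearMap.ker (Bmap (X := X) s u)) ≤ 1 := by
    refine (Submodule.finrank_mono (ker_Bmap_le hgen)).trans ?_
    have := LinearMap.finrank_range_le (constMap X)
    simpa using this
  omega

/-- the dimension bound for `Ysub` -/
theorem finrank_Ysub_le [MulAction.IsPretransitive G X] {s u : G} {m : ℕ}
    (hgen : Subgroup.closure {s, u} = ⊤) (hm : m ≠ 0)
    (hs : (L s : (X → ℂ) →ₗ[ℂ] (X → ℂ)) ^ 2 = 1) (hu : (L u : (X → ℂ) →ₗ[ℂ] (X → ℂ)) ^ 3 = 1)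
    (ht : (L (s⁻¹ * u) : (X → ℂ) →ₗ[ℂ] (X → ℂ)) ^ m = 1) :
    finrank ℂ (Ysub (X := X) s u m) + orb X s + orb X u + orb X (s⁻¹ * u) ≤
      2 * Fintype.card X + 1 := by
  have h1 := finrank_map_add_finrank_inf_ker (Zsub (X := X) s u) (fmap s u m)
  have h2 : finrank ℂ (Zsub (X := X) s u) =
      finrank ℂ (LinearMap.ker (Nsum s 2 : (X → ℂ) →ₗ[ℂ] (X → ℂ))) +
      finrank ℂ (LinearMap.ker (Nsum u 3 : (X → ℂ) →ₗ[ℂ] (X → ℂ))) := finrank_prodSub _ _
  have h3s := finrank_ker_Nsum (X := X) (g := s) (m := 2) (by norm_num) hs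
  have h3u := finrank_ker_Nsum (X := X) (g := u) (m := 3) (by norm_num) hu
  have h3t := finrank_ker_Nsum (X := X) (g := s⁻¹ * u) (m := m) hm ht
  rw [Nat.card_eq_fintype_card] at h3s h3u h3t
  have h4 : (LinearMap.ker (aug : (X → ℂ) →ₗ[ℂ] ℂ)).map (Nsum (s⁻¹ * u) m) ≤
      (Zsub (X := X) s u).map (fmap s u m) := by
    rintro _ ⟨w, hw, rfl⟩
    rw [SetLike.mem_coe, LinearMap.mem_ker] at hw
    have hw' : aug (L s w) = 0 := by rw [aug_L, hw]
    obtain ⟨p, q, hpq⟩ := ker_aug_le hgen (L s w) hw'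
    refine ⟨(L s p - p, q - L u q), ?_, ?_⟩
    · rw [SetLike.mem_coe, Zsub, Submodule.mem_prod, LinearMap.mem_ker, LinearMap.mem_ker]
      refine ⟨Nsum_L_sub hs p, ?_⟩
      have : q - L u q = -(L u q - q) := by abel
      show Nsum u 3 (q - L u q) = 0
      rw [this, map_neg, Nsum_L_sub hu q, neg_zero]
    · rw [fmap_apply]
      have : (q - L u q) - (L s p - p) = L s w := by rw [hpq]; abel
      show Nsum (s⁻¹ * u) m (L s⁻¹ ((q - L u q) - (L s p - p))) = _
      rw [this, L_inv_L]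
  have h5 := finrank_map_add_finrank_inf_ker (LinearMap.ker (aug : (X → ℂ) →ₗ[ℂ] ℂ))
    (Nsum (s⁻¹ * u) m)
  have h6 : finrank ℂ (LinearMap.ker (aug : (X → ℂ) →ₗ[ℂ] ℂ) ⊓
      LinearMap.ker (Nsum (s⁻¹ * u) m) : Submodule ℂ (X → ℂ)) ≤
      finrank ℂ (LinearMap.ker (Nsum (s⁻¹ * u) m : (X → ℂ) →ₗ[ℂ] (X → ℂ))) :=
    Submodule.finrank_mono inf_le_right
  have h7 := Submodule.finrank_mono h4
  have h8 := finrank_ker_aug (X := X)
  have hY : finrank ℂ (Ysub (X := X) s u m) =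
      finrank ℂ (Zsub (X := X) s u ⊓ LinearMap.ker (fmap s u m) : Submodule ℂ _) := rfl
  omega

/-- **Main abstract bound.** -/
theorem finrank_add_orbits_le [MulAction.IsPretransitive G X] {s u : G} {m : ℕ}
    (hgen : Subgroup.closure {s, u} = ⊤) (hm : m ≠ 0)
    (hs : (L s : (X → ℂ) →ₗ[ℂ] (X → ℂ)) ^ 2 = 1) (hu : (L u : (X → ℂ) →ₗ[ℂ] (X → ℂ)) ^ 3 = 1)
    (ht : (L (s⁻¹ * u) : (X → ℂ) →ₗ[ℂ] (X → ℂ)) ^ m = 1)
    (W : Submodule ℂ ((X → ℂ) × (X → ℂ))) (hWY : W ≤ Ysub s u m)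
    (hdisj : Disjoint W (LinearMap.range (Bmap (X := X) s u))) :
    finrank ℂ W + orb X s + orb X u + orb X (s⁻¹ * u) ≤ Fintype.card X + 2 := by
  have hBY : LinearMap.range (Bmap (X := X) s u) ≤ Ysub s u m := by
    rintro _ ⟨v, rfl⟩
    exact Bmap_mem_Ysub hs hu ht v
  have h1 := Submodule.finrank_sup_add_finrank_inf_eq W (LinearMap.range (Bmap (X := X) s u))
  rw [hdisj.eq_bot, finrank_bot, add_zero] at h1
  have h2 : finrank ℂ (W ⊔ LinearMap.range (Bmap (X := X) s u) : Submodule ℂ _) ≤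
      finrank ℂ (Ysub (X := X) s u m) := Submodule.finrank_mono (sup_le hWY hBY)
  have h3 := card_le_finrank_range_Bmap (X := X) hgen
  have h4 := finrank_Ysub_le (X := X) hgen hm hs hu ht
  omega

end Main



end Fermat.Agent.S21.GC87
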