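import Mathlib
import Fermat.Prelude.Def_ModularCurve_PeriodMap
import Fermat.Agent.S21.ParDimLA87

/-!
# Dimension bound for parabolic homomorphisms (S21/GC second seat, helper87)

For `H ≤ SL(2,ℤ)` of finite index with `-1 ∈ H`, `X = SL(2,ℤ) ⧸ H`:
`parabolicHoms ℂ H ℂ` is finite dimensional and
`finrank + #orb(S) + #orb(S*T) + #orb(T) ≤ |X| + 2`.
-/

set_option autoImplicit false

namespace Fermat.Agent.S21.GC87

open scoped MatrixGroups
open ModularCurve.Period ModularGroup Module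

section Shapiro

variable (H : Subgroup SL(2, ℤ))

/-- extension by zero of a homomorphism on `H` -/
noncomputable def ext0 (φ : Additive H →+ ℂ) (g : SL(2, ℤ)) : ℂ :=
  open Classical in if h : g ∈ H then φ (Additive.ofMul ⟨g, h⟩) else 0

lemma ext0_of_mem (φ : Additive H →+ ℂ) {g : SL(2, ℤ)} (h : g ∈ H) :
    ext0 H φ g = φ (Additive.ofMul ⟨g, h⟩) := by
  unfold ext0; rw [dif_pos h]

lemma ext0_mul (φ : Additive H →+ ℂ) {a b : SL(2, ℤ)} (ha : a ∈ H) (hb : b ∈ H) :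
    ext0 H φ (a * b) = ext0 H φ a + ext0 H φ b := by
  rw [ext0_of_mem H φ ha, ext0_of_mem H φ hb, ext0_of_mem H φ (H.mul_mem ha hb), ← map_add]
  rfl

lemma ext0_one (φ : Additive H →+ ℂ) : ext0 H φ 1 = 0 := by
  rw [ext0_of_mem H φ H.one_mem]
  exact map_zero φ

lemma ext0_add (φ ψ : Additive H →+ ℂ) (g : SL(2, ℤ)) :
    ext0 H (φ + ψ) g = ext0 H φ g + ext0 H ψ g := by
  unfold ext0; split_ifs <;> simp

lemma ext0_smul (c : ℂ) (φ : Additive H →+ ℂ) (g : SL(2, ℤ)) :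
    ext0 H (c • φ) g = c * ext0 H φ g := by
  unfold ext0; split_ifs <;> simp

/-- coset representatives -/
noncomputable def rep (x : SL(2, ℤ) ⧸ H) : SL(2, ℤ) := Quotient.out x

lemma mk_rep (x : SL(2, ℤ) ⧸ H) : (QuotientGroup.mk (rep H x) : SL(2, ℤ) ⧸ H) = x :=
  QuotientGroup.out_eq' x

lemma elt_mem (g : SL(2, ℤ)) (x : SL(2, ℤ) ⧸ H) :
    (rep H x)⁻¹ * (g * rep H (g⁻¹ • x)) ∈ H := by
  rw [← QuotientGroup.eq, mk_rep]
  have : (QuotientGroup.mk (g * rep H (g⁻¹ • x)) : SL(2, ℤ) ⧸ H) =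
      g • (QuotientGroup.mk (rep H (g⁻¹ • x)) : SL(2, ℤ) ⧸ H) := rfl
  rw [this, mk_rep, smul_inv_smul]

/-- the Shapiro cocycle -/
noncomputable def coc (φ : Additive H →+ ℂ) (g : SL(2, ℤ)) : (SL(2, ℤ) ⧸ H) → ℂ :=
  fun x => ext0 H φ ((rep H x)⁻¹ * (g * rep H (g⁻¹ • x)))

lemma coc_apply (φ : Additive H →+ ℂ) (g : SL(2, ℤ)) (x : SL(2, ℤ) ⧸ H) :
    coc H φ g x = ext0 H φ ((rep H x)⁻¹ * (g * rep H (g⁻¹ • x))) := rfl

lemma coc_mul (φ : Additive H →+ ℂ) (g h : SL(2, ℤ)) :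
    coc H φ (g * h) = coc H φ g + L g (coc H φ h) := by
  ext x
  rw [Pi.add_apply, L_apply, coc_apply, coc_apply, coc_apply,
    ← ext0_mul H φ (elt_mem H g x) (elt_mem H h (g⁻¹ • x))]
  congr 1
  rw [mul_inv_rev, mul_smul]
  group

lemma coc_one (φ : Additive H →+ ℂ) : coc H φ 1 = 0 := by
  have h := coc_mul H φ 1 1
  rw [mul_one, L_one, LinearMap.id_apply] at h
  exact left_eq_add.mp h

lemma coc_inv (φ : Additive H →+ ℂ) (g : SL(2, ℤ)) :
    coc H φ g⁻¹ = - L g⁻¹ (coc H φ g) := by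
  have h := coc_mul H φ g⁻¹ g
  rw [inv_mul_cancel, coc_one] at h
  exact eq_neg_of_add_eq_zero_left h.symm

lemma coc_pow (φ : Additive H →+ ℂ) (g : SL(2, ℤ)) (k : ℕ) :
    coc H φ (g ^ k) = Nsum g k (coc H φ g) := by
  induction k with
  | zero => rw [pow_zero, coc_one]; simp [Nsum]
  | succ k ih =>
    rw [pow_succ, coc_mul, ih, Nsum, Nsum, Finset.sum_range_succ, LinearMap.add_apply, L_pow]

lemma coc_add (φ ψ : Additive H →+ ℂ) (g : SL(2, ℤ)) :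
    coc H (φ + ψ) g = coc H φ g + coc H ψ g := by
  ext x; simp only [coc_apply, Pi.add_apply, ext0_add]

lemma coc_smul (c : ℂ) (φ : Additive H →+ ℂ) (g : SL(2, ℤ)) :
    coc H (c • φ) g = c • coc H φ g := by
  ext x; simp only [coc_apply, Pi.smul_apply, ext0_smul, smul_eq_mul]

lemma trace_conj (a g : SL(2, ℤ)) :
    ((a⁻¹ * (g * a) : SL(2, ℤ)) : Matrix (Fin 2) (Fin 2) ℤ).trace =
      (g : Matrix (Fin 2) (Fin 2) ℤ).trace := by
  have h1 : ((a⁻¹ * (g * a) : SL(2, ℤ)) : Matrix (Fin 2) (Fin 2) ℤ) =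
      (a⁻¹ : SL(2, ℤ)).1 * (g * a : SL(2, ℤ)).1 := rfl
  rw [h1, Matrix.trace_mul_comm]
  have h2 : (g * a : SL(2, ℤ)).1 * (a⁻¹ : SL(2, ℤ)).1 =
      ((g * a * a⁻¹ : SL(2, ℤ)) : Matrix (Fin 2) (Fin 2) ℤ) := rfl
  rw [h2, mul_inv_cancel_right]

lemma coc_eq_zero_of_parabolic {φ : Additive H →+ ℂ} (hφ : IsParabolicHom H φ)
    (g : SL(2, ℤ)) (hg : (g : Matrix (Fin 2) (Fin 2) ℤ).trace ^ 2 = 4)
    (x : SL(2, ℤ) ⧸ H) (hx : g⁻¹ • x = x) : coc H φ g x = 0 := by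
  have hmem := elt_mem H g x
  rw [coc_apply]
  rw [hx] at hmem ⊢
  rw [ext0_of_mem H φ hmem]
  apply hφ ⟨_, hmem⟩
  show ((rep H x)⁻¹ * (g * rep H x) : SL(2, ℤ)).1.trace ^ 2 = 4
  rw [trace_conj]
  exact hg

end Shapiro

section SL2facts

lemma S_mul_S87 : (S * S : SL(2, ℤ)) = -1 := by
  apply Subtype.ext
  show (S : Matrix (Fin 2) (Fin 2) ℤ) * S = _
  rw [S_mul_S_eq]
  simp

lemma ST_pow_three87 : ((S * T) ^ 3 : SL(2, ℤ)) = -1 := by
  decide

lemma trace_neg_one87 : ((-1 : SL(2, ℤ)) : Matrix (Fin 2) (Fin 2) ℤ).trace ^ 2 = 4 := by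
  decide

lemma trace_T_pow87 (m : ℕ) : ((T ^ m : SL(2, ℤ)) : Matrix (Fin 2) (Fin 2) ℤ).trace ^ 2 = 4 := by
  have h := coe_T_zpow (m : ℤ)
  rw [zpow_natCast] at h
  rw [h, Matrix.trace_fin_two]
  simp

lemma closure_S_ST87 : Subgroup.closure ({S, S * T} : Set SL(2, ℤ)) = ⊤ := by
  rw [eq_top_iff, ← SpecialLinearGroup.SL2Z_generators, Subgroup.closure_le]
  intro x hx
  rcases hx with rfl | hx
  · exact Subgroup.subset_closure (Set.mem_insert _ _)
  · rw [Set.mem_singleton_iff] at hx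
    subst hx
    have h1 : (S : SL(2, ℤ)) ∈ Subgroup.closure ({S, S * T} : Set SL(2, ℤ)) :=
      Subgroup.subset_closure (Set.mem_insert _ _)
    have h2 : (S * T : SL(2, ℤ)) ∈ Subgroup.closure ({S, S * T} : Set SL(2, ℤ)) :=
      Subgroup.subset_closure (Set.mem_insert_of_mem _ rfl)
    have := Subgroup.mul_mem _ (Subgroup.inv_mem _ h1) h2
    rwa [inv_mul_cancel_left] at this

lemma exists_pow_smul_eq87 {G : Type*} [Group G] {X : Type*} [MulAction G X] [Finite X] (g : G) :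
    ∃ m : ℕ, m ≠ 0 ∧ ∀ x : X, g ^ m • x = x := by
  refine ⟨orderOf (MulAction.toPermHom G X g), (orderOf_pos _).ne', fun x => ?_⟩
  have h := pow_orderOf_eq_one (MulAction.toPermHom G X g)
  rw [← map_pow] at h
  have := congrArg (fun τ : Equiv.Perm X => τ x) h
  simpa using this

end SL2facts

section MainThm

variable (H : Subgroup SL(2, ℤ))

lemma neg_one_smul87 (hneg : (-1 : SL(2, ℤ)) ∈ H) (x : SL(2, ℤ) ⧸ H) :
    (-1 : SL(2, ℤ)) • x = x := by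
  induction x using QuotientGroup.induction_on with
  | H g =>
    show (QuotientGroup.mk (-1 * g) : SL(2, ℤ) ⧸ H) = QuotientGroup.mk g
    rw [eq_comm, QuotientGroup.eq]
    have : g⁻¹ * (-1 * g) = -1 := by rw [neg_one_mul, mul_neg, inv_mul_cancel]
    rw [this]; exact hneg

/-- the map `φ ↦ (c_φ(S), c_φ(ST))` -/
noncomputable def Psi : parabolicHoms ℂ H ℂ →ₗ[ℂ]
    ((SL(2, ℤ) ⧸ H → ℂ) × (SL(2, ℤ) ⧸ H → ℂ)) where
  toFun φ := (coc H φ.1 S, coc H φ.1 (S * T))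
  map_add' φ ψ := by
    show (coc H (φ.1 + ψ.1) S, coc H (φ.1 + ψ.1) (S * T)) = _
    rw [coc_add, coc_add]; rfl
  map_smul' c φ := by
    show (coc H (c • φ.1) S, coc H (c • φ.1) (S * T)) = _
    rw [coc_smul, coc_smul]; rfl

lemma Psi_apply (φ : parabolicHoms ℂ H ℂ) : Psi H φ = (coc H φ.1 S, coc H φ.1 (S * T)) := rfl

/-- a cocycle which is a coboundary on the generators comes from the zero homomorphism -/
lemma eq_zero_of_coc_eq (φ : Additive H →+ ℂ) (v : SL(2, ℤ) ⧸ H → ℂ)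
    (hS : coc H φ S = L S v - v) (hU : coc H φ (S * T) = L (S * T) v - v) : φ = 0 := by
  let Ksub : Subgroup SL(2, ℤ) :=
    { carrier := {g | coc H φ g = L g v - v}
      one_mem' := by
        show coc H φ 1 = L 1 v - v
        rw [coc_one, L_one]; simp
      mul_mem' := fun {a b} ha hb => by
        show coc H φ (a * b) = L (a * b) v - v
        have ha' : coc H φ a = L a v - v := ha
        have hb' : coc H φ b = L b v - v := hb
        rw [coc_mul, ha', hb', map_sub, L_mul_apply]; abel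
      inv_mem' := fun {a} ha => by
        show coc H φ a⁻¹ = L a⁻¹ v - v
        have ha' : coc H φ a = L a v - v := ha
        rw [coc_inv, ha', map_sub, L_inv_L]; abel }
  have hle : Subgroup.closure ({S, S * T} : Set SL(2, ℤ)) ≤ Ksub := by
    rw [Subgroup.closure_le]
    intro x hx
    rcases hx with rfl | hx
    · exact hS
    · rw [Set.mem_singleton_iff] at hx
      subst hx
      exact hU
  have hall : ∀ g : SL(2, ℤ), coc H φ g = L g v - v := fun g =>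
    hle (closure_S_ST87 ▸ Subgroup.mem_top g)
  set x₀ : SL(2, ℤ) ⧸ H := QuotientGroup.mk 1 with hx₀
  have hr₀ : rep H x₀ ∈ H := by
    have h1 := mk_rep H x₀
    rw [hx₀, QuotientGroup.eq, mul_one] at h1
    exact (Subgroup.inv_mem_iff H).mp h1
  apply AddMonoidHom.ext
  intro a
  obtain ⟨⟨h, hh⟩, rfl⟩ := Additive.ofMul.surjective a
  have hx : h⁻¹ • x₀ = x₀ := by
    show (QuotientGroup.mk (h⁻¹ * 1) : SL(2, ℤ) ⧸ H) = QuotientGroup.mk 1
    rw [QuotientGroup.eq, mul_one, mul_one, inv_inv]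
    exact hh
  have h1 := congrFun (hall h) x₀
  rw [coc_apply, hx, Pi.sub_apply, L_apply, hx, sub_self,
    ext0_mul H φ (H.inv_mem hr₀) (H.mul_mem hh hr₀), ext0_mul H φ hh hr₀] at h1
  have h2 : ext0 H φ (rep H x₀)⁻¹ + ext0 H φ (rep H x₀) = 0 := by
    rw [← ext0_mul H φ (H.inv_mem hr₀) hr₀, inv_mul_cancel, ext0_one]
  have h3 : ext0 H φ h = 0 := by linear_combination h1 - h2
  rw [ext0_of_mem H φ hh] at h3
  rw [h3]; rfl

/-- **GC, abstract form.** -/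
theorem parabolicHoms_finite_and_bound [H.FiniteIndex] (hneg : (-1 : SL(2, ℤ)) ∈ H) :
    Module.Finite ℂ (parabolicHoms ℂ H ℂ) ∧
      finrank ℂ (parabolicHoms ℂ H ℂ) + orb (SL(2, ℤ) ⧸ H) S + orb (SL(2, ℤ) ⧸ H) (S * T) +
        orb (SL(2, ℤ) ⧸ H) T ≤ Nat.card (SL(2, ℤ) ⧸ H) + 2 := by
  classical
  have : Fintype (SL(2, ℤ) ⧸ H) := Fintype.ofFinite _
  obtain ⟨m, hm0, hm⟩ := exists_pow_smul_eq87 (X := SL(2, ℤ) ⧸ H) (T : SL(2, ℤ))
  have hs : (L S : (SL(2, ℤ) ⧸ H → ℂ) →ₗ[ℂ] _) ^ 2 = 1 := by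
    rw [← L_pow, pow_two, S_mul_S87]
    exact L_eq_id_of_forall_smul (neg_one_smul87 H hneg)
  have hu : (L (S * T) : (SL(2, ℤ) ⧸ H → ℂ) →ₗ[ℂ] _) ^ 3 = 1 := by
    rw [← L_pow, ST_pow_three87]
    exact L_eq_id_of_forall_smul (neg_one_smul87 H hneg)
  have ht : (L (S⁻¹ * (S * T)) : (SL(2, ℤ) ⧸ H → ℂ) →ₗ[ℂ] _) ^ m = 1 := by
    rw [inv_mul_cancel_left, ← L_pow]
    exact L_eq_id_of_forall_smul hm
  have hnegx : ∀ x : SL(2, ℤ) ⧸ H, (-1 : SL(2, ℤ))⁻¹ • x = x := fun x =>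
    inv_smul_eq_iff.mpr (neg_one_smul87 H hneg x).symm
  have hcoc_neg : ∀ φ : parabolicHoms ℂ H ℂ, coc H φ.1 (-1) = 0 := by
    intro φ
    ext x
    exact coc_eq_zero_of_parabolic H φ.2 (-1) trace_neg_one87 x (hnegx x)
  have hY : ∀ φ : parabolicHoms ℂ H ℂ, Psi H φ ∈ Ysub S (S * T) m := by
    intro φ
    rw [mem_Ysub_iff, Psi_apply]
    refine ⟨?_, ?_, ?_⟩
    · show Nsum S 2 (coc H φ.1 S) = 0
      rw [← coc_pow, pow_two, S_mul_S87]
      exact hcoc_neg φ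
    · show Nsum (S * T) 3 (coc H φ.1 (S * T)) = 0
      rw [← coc_pow, ST_pow_three87]
      exact hcoc_neg φ
    · show Nsum (S⁻¹ * (S * T)) m (L S⁻¹ (coc H φ.1 (S * T) - coc H φ.1 S)) = 0
      have hT : coc H φ.1 T = L S⁻¹ (coc H φ.1 (S * T) - coc H φ.1 S) := by
        have h := coc_mul H φ.1 S⁻¹ (S * T)
        rw [inv_mul_cancel_left, coc_inv] at h
        rw [h, map_sub]; abel
      rw [inv_mul_cancel_left, ← hT, ← coc_pow]
      ext x
      refine coc_eq_zero_of_parabolic H φ.2 (T ^ m) (trace_T_pow87 m) x ?_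
      exact inv_smul_eq_iff.mpr (hm x).symm
  have hker : ∀ (φ : parabolicHoms ℂ H ℂ) (v : SL(2, ℤ) ⧸ H → ℂ),
      Bmap S (S * T) v = Psi H φ → φ = 0 := by
    intro φ v hv
    rw [Bmap_apply, Psi_apply, Prod.mk.injEq] at hv
    exact Subtype.ext (eq_zero_of_coc_eq H φ.1 v hv.1.symm hv.2.symm)
  have hinj : Function.Injective (Psi H) := by
    rw [injective_iff_map_eq_zero]
    intro φ hφ
    refine hker φ 0 ?_
    rw [hφ, map_zero]
  have hfin : Module.Finite ℂ (parabolicHoms ℂ H ℂ) := Module.Finite.of_injective (Psi H) hinj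
  refine ⟨hfin, ?_⟩
  have hdisj : Disjoint (LinearMap.range (Psi H))
      (LinearMap.range (Bmap (X := SL(2, ℤ) ⧸ H) S (S * T))) := by
    rw [Submodule.disjoint_def]
    rintro _ ⟨φ, rfl⟩ ⟨v, hv⟩
    rw [hker φ v hv, map_zero]
  have hmain := finrank_add_orbits_le (X := SL(2, ℤ) ⧸ H) closure_S_ST87 hm0 hs hu ht
    (LinearMap.range (Psi H)) (by rintro _ ⟨φ, rfl⟩; exact hY φ) hdisj
  rw [LinearMap.finrank_range_of_inj hinj, inv_mul_cancel_left, ← Nat.card_eq_fintype_card]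
    at hmain
  exact hmain

end MainThm



end Fermat.Agent.S21.GC87
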