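/-
S21 / GC (helper9, independent second seat): the group-cohomological half of S21.

Main results (namespace `Fermat.Agent.S21.ParabolicDim9`):
* `main_generic`: for `Γ ≤ G` of finite index, `s t : G` with `closure {s, s*t} = ⊤`, and a
  submodule `W` of `Hom(Γ, ℂ)` whose Shapiro cocycles have vanishing `s`-, `st`-, `t`-orbit sums:
  `W` is finite-dimensional and
  `finrank W + #orb(s) + #orb(st) + #orb(t) ≤ [G : Γ] + 2`.
* `sl2_main`: for `Γ ≤ SL(2,ℤ)` of finite index containing `-1`, the above for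
  `W = parabolicHoms ℂ Γ ℂ`, `s = S`, `t = T`.
* `parabolicHoms_Gamma0`, `finite_parabolicHoms_Gamma0`, `finrank_parabolicHoms_Gamma0_le`:
  `Module.Finite ℂ (parabolicHoms ℂ (Gamma0 N) ℂ)` and
  `(finrank ℂ (parabolicHoms ℂ (Gamma0 N) ℂ) : ℚ) ≤ 2 * genusFormula N`.
-/
import Mathlib
import Fermat.Prelude.Def_ModularCurve_PeriodMap
import Fermat.Prelude.Def_ModularCurve_GenusNumerics
import Fermat.Agent.S24.Pkg_COMB_ell
import Fermat.Agent.S24.Pkg_COMB_card
import Fermat.Agent.S24.Pkg_COMB_cusp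

set_option autoImplicit false

namespace Fermat.Agent.S21.ParabolicDim9

open scoped BigOperators

section Generic

variable {G X : Type*} [Group G] [MulAction G X]

/-- Orbits of the cyclic group generated by `g`. -/
abbrev Orb (X : Type*) [MulAction G X] (g : G) : Type _ :=
  MulAction.orbitRel.Quotient (Subgroup.zpowers g) X

/-- The orbit of a point under `⟨g⟩`. -/
def orbMk (g : G) (x : X) : Orb X g := Quotient.mk'' x

theorem orbMk_smul (g : G) (x : X) : orbMk g (g • x) = orbMk g x := by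
  apply Quotient.sound'
  show (MulAction.orbitRel (Subgroup.zpowers g) X) (g • x) x
  rw [MulAction.orbitRel_apply]
  exact ⟨⟨g, Subgroup.mem_zpowers g⟩, rfl⟩

theorem orbMk_surjective (g : G) : Function.Surjective (orbMk (X := X) g) :=
  Quotient.mk''_surjective

/-- Precomposition with the action of `g`. -/
def pre (g : G) : (X → ℂ) →ₗ[ℂ] (X → ℂ) := LinearMap.funLeft ℂ ℂ (fun x => g • x)

@[simp] theorem pre_apply (g : G) (v : X → ℂ) (x : X) : pre g v x = v (g • x) := rfl

theorem pre_mul (g h : G) (v : X → ℂ) : pre (g * h) v = pre h (pre g v) := by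
  ext x; simp [mul_smul]

theorem pre_one (v : X → ℂ) : pre (1 : G) v = v := by
  ext x; simp

theorem pre_inv_pre (g : G) (v : X → ℂ) : pre g (pre g⁻¹ v) = v := by
  rw [← pre_mul]; simp [pre_one]

variable [Fintype X]

open Classical in
/-- Sum over the orbits of `⟨g⟩`. -/
noncomputable def orbSum (g : G) : (X → ℂ) →ₗ[ℂ] (Orb X g → ℂ) where
  toFun v o := ∑ x, if orbMk g x = o then v x else 0
  map_add' v w := by
    ext o
    simp only [Pi.add_apply, ← Finset.sum_add_distrib]
    apply Finset.sum_congr rfl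
    intro x _
    split_ifs <;> simp
  map_smul' c v := by
    ext o
    simp only [Pi.smul_apply, smul_eq_mul, RingHom.id_apply, Finset.mul_sum]
    apply Finset.sum_congr rfl
    intro x _
    split_ifs <;> simp

open Classical in
theorem orbSum_apply (g : G) (v : X → ℂ) (o : Orb X g) :
    orbSum g v o = ∑ x, if orbMk g x = o then v x else 0 := rfl

theorem orbSum_pre (g : G) (v : X → ℂ) : orbSum g (pre g v) = orbSum g v := by
  classical
  ext o
  rw [orbSum_apply, orbSum_apply]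
  have key := Equiv.sum_comp (MulAction.toPerm g : Equiv.Perm X)
    (fun y => if orbMk g y = o then v y else 0)
  rw [← key]
  apply Finset.sum_congr rfl
  intro x _
  simp only [MulAction.toPerm_apply, orbMk_smul, pre_apply]

open Classical in
theorem orbSum_single (g : G) (x : X) (c : ℂ) :
    orbSum g (Pi.single x c) = Pi.single (orbMk g x) c := by
  ext o
  rw [orbSum_apply]
  by_cases h : orbMk g x = o
  · subst h
    rw [Pi.single_eq_same]
    rw [Finset.sum_eq_single x]
    · simp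
    · intro y _ hy
      rw [Pi.single_eq_of_ne hy]; simp
    · intro hx; exact absurd (Finset.mem_univ x) hx
  · rw [Pi.single_eq_of_ne (Ne.symm h)]
    apply Finset.sum_eq_zero
    intro y _
    by_cases hy : y = x
    · subst hy; simp [h]
    · rw [Pi.single_eq_of_ne hy]; simp

theorem orbSum_surjective (g : G) : Function.Surjective (orbSum (X := X) g) := by
  classical
  intro t
  have : Finite (Orb X g) := Finite.of_surjective _ (orbMk_surjective g)
  have : Fintype (Orb X g) := Fintype.ofFinite _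
  refine ⟨∑ o : Orb X g, Pi.single (Quotient.out o) (t o), ?_⟩
  rw [map_sum]
  have : ∀ o : Orb X g, orbSum g (Pi.single (Quotient.out o) (t o)) = Pi.single o (t o) := by
    intro o
    rw [orbSum_single]
    congr 1
    exact Quotient.out_eq' o
  simp_rw [this]
  ext o
  simp [Finset.sum_apply, Pi.single_apply]


theorem finrank_ker_orbSum (g : G) :
    Module.finrank ℂ (LinearMap.ker (orbSum (X := X) g)) + Nat.card (Orb X g) = Nat.card X := by
  classical
  have : Finite (Orb X g) := Finite.of_surjective _ (orbMk_surjective g)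
  have : Fintype (Orb X g) := Fintype.ofFinite _
  have h := LinearMap.finrank_range_add_finrank_ker (orbSum (X := X) g)
  rw [LinearMap.range_eq_top.mpr (orbSum_surjective g), finrank_top,
    Module.finrank_fintype_fun_eq_card, Module.finrank_fintype_fun_eq_card] at h
  rw [Nat.card_eq_fintype_card, Nat.card_eq_fintype_card]
  omega

/-- The total sum functional. -/
def total : (X → ℂ) →ₗ[ℂ] ℂ where
  toFun v := ∑ x, v x
  map_add' v w := by simp [Finset.sum_add_distrib]
  map_smul' c v := by simp [Finset.mul_sum]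

theorem total_apply (v : X → ℂ) : total v = ∑ x, v x := rfl

theorem finrank_ker_total [Nonempty X] :
    Module.finrank ℂ (LinearMap.ker (total (X := X))) + 1 = Nat.card X := by
  classical
  have hsurj : Function.Surjective (total (X := X)) := by
    intro c
    obtain ⟨x₀⟩ := ‹Nonempty X›
    refine ⟨Pi.single x₀ c, ?_⟩
    rw [total_apply, Finset.sum_pi_single']
    simp
  have h := LinearMap.finrank_range_add_finrank_ker (total (X := X))
  rw [LinearMap.range_eq_top.mpr hsurj, finrank_top, Module.finrank_self,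
    Module.finrank_fintype_fun_eq_card] at h
  rw [Nat.card_eq_fintype_card]
  omega

theorem sub_pre_mem_ker_orbSum (g : G) (v : X → ℂ) : v - pre g v ∈ LinearMap.ker (orbSum g) := by
  rw [LinearMap.mem_ker, map_sub, orbSum_pre, sub_self]

/-- If `s, u` generate `G`, all `v - v ∘ g` lie in `ker (orbSum s) ⊔ ker (orbSum u)`. -/
theorem sub_pre_mem_sup {s u : G} (hgen : Subgroup.closure {s, u} = ⊤) (g : G) (v : X → ℂ) :
    v - pre g v ∈ LinearMap.ker (orbSum (X := X) s) ⊔ LinearMap.ker (orbSum (X := X) u) := by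
  set P := LinearMap.ker (orbSum (X := X) s) ⊔ LinearMap.ker (orbSum (X := X) u) with hP
  have hg : g ∈ Subgroup.closure {s, u} := by rw [hgen]; trivial
  revert v
  induction hg using Subgroup.closure_induction with
  | mem x hx =>
    intro v
    rcases hx with rfl | rfl
    · exact Submodule.mem_sup_left (sub_pre_mem_ker_orbSum _ v)
    · exact Submodule.mem_sup_right (sub_pre_mem_ker_orbSum _ v)
  | one => intro v; rw [pre_one, sub_self]; exact P.zero_mem
  | mul x y _ _ hx hy =>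
    intro v
    have : v - pre (x * y) v = (v - pre x v) + (pre x v - pre y (pre x v)) := by
      rw [pre_mul]; abel
    rw [this]
    exact P.add_mem (hx v) (hy (pre x v))
  | inv x _ hx =>
    intro v
    have : v - pre x⁻¹ v = -(pre x⁻¹ v - pre x (pre x⁻¹ v)) := by
      rw [pre_inv_pre]; abel
    rw [this]
    exact P.neg_mem (hx _)

omit [Fintype X] in
open Classical in
theorem pre_single (g : G) (x : X) (c : ℂ) : pre g (Pi.single x c) = Pi.single (g⁻¹ • x) c := by
  ext y
  rw [pre_apply]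
  by_cases h : y = g⁻¹ • x
  · subst h; simp
  · rw [Pi.single_eq_of_ne h, Pi.single_eq_of_ne]
    intro h'
    apply h
    rw [← h', inv_smul_smul]

/-- Crux: zero-sum functions lie in `ker (orbSum s) ⊔ ker (orbSum u)` for a transitive action of
a group generated by `s, u`. -/
theorem ker_total_le_sup [MulAction.IsPretransitive G X] {s u : G}
    (hgen : Subgroup.closure {s, u} = ⊤) :
    LinearMap.ker (total (X := X)) ≤
      LinearMap.ker (orbSum (X := X) s) ⊔ LinearMap.ker (orbSum (X := X) u) := by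
  classical
  intro v hv
  rw [LinearMap.mem_ker, total_apply] at hv
  rcases isEmpty_or_nonempty X with hX | ⟨⟨x₀⟩⟩
  · have : v = 0 := by ext x; exact (hX.false x).elim
    rw [this]; exact Submodule.zero_mem _
  have hdecomp : v = ∑ x, (Pi.single x (v x) - Pi.single x₀ (v x)) := by
    rw [Finset.sum_sub_distrib]
    have h1 : ∑ x, (Pi.single x (v x) : X → ℂ) = v := Finset.univ_sum_single v
    have h2 : ∑ x, (Pi.single x₀ (v x) : X → ℂ) = 0 := by
      ext y
      rw [Finset.sum_apply]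
      by_cases hy : y = x₀
      · subst hy; simp [hv]
      · simp [Pi.single_eq_of_ne hy]
    rw [h1, h2, sub_zero]
  rw [hdecomp]
  apply Submodule.sum_mem
  intro x _
  obtain ⟨g, hg⟩ := MulAction.exists_smul_eq G x₀ x
  subst hg
  have := sub_pre_mem_sup hgen g (Pi.single (g • x₀) (v (g • x₀)))
  rwa [pre_single, inv_smul_smul] at this

theorem finrank_inf_le [Nonempty X] [MulAction.IsPretransitive G X] {s u : G}
    (hgen : Subgroup.closure {s, u} = ⊤) :
    Module.finrank ℂ ↥(LinearMap.ker (orbSum (X := X) s) ⊓ LinearMap.ker (orbSum (X := X) u))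
      + Nat.card (Orb X s) + Nat.card (Orb X u) ≤ Nat.card X + 1 := by
  have h1 := finrank_ker_orbSum (X := X) s
  have h2 := finrank_ker_orbSum (X := X) u
  have h3 := Submodule.finrank_sup_add_finrank_inf_eq
    (LinearMap.ker (orbSum (X := X) s)) (LinearMap.ker (orbSum (X := X) u))
  have h4 := Submodule.finrank_mono (ker_total_le_sup (X := X) hgen)
  have h5 := finrank_ker_total (X := X)
  omega

omit [Fintype X] in
/-- A function invariant under generators of a transitively acting group is constant. -/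
theorem const_of_pre_eq [MulAction.IsPretransitive G X] {s u : G}
    (hgen : Subgroup.closure {s, u} = ⊤) (v : X → ℂ) (hs : pre s v = v) (hu : pre u v = v)
    (x y : X) : v x = v y := by
  have hall : ∀ g : G, pre g v = v := by
    intro g
    have hg : g ∈ Subgroup.closure {s, u} := by rw [hgen]; trivial
    induction hg using Subgroup.closure_induction with
    | mem z hz => rcases hz with rfl | rfl <;> assumption
    | one => exact pre_one v
    | mul a b _ _ ha hb => rw [pre_mul, ha, hb]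
    | inv a _ ha =>
      have := pre_inv_pre a⁻¹ v
      rw [inv_inv, ha] at this
      exact this
  obtain ⟨g, hg⟩ := MulAction.exists_smul_eq G y x
  have := congrFun (hall g) y
  rw [pre_apply, hg] at this
  exact this

end Generic


section Coset

variable {G : Type*} [Group G] (Γ : Subgroup G)

/-- A set-theoretic section of `G → G ⧸ Γ`. -/
noncomputable def sec (x : G ⧸ Γ) : G := Quotient.out x

theorem mk_sec (x : G ⧸ Γ) : ((sec Γ x : G) : G ⧸ Γ) = x := QuotientGroup.out_eq' x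

theorem smul_mk_eq (g a : G) : g • ((a : G) : G ⧸ Γ) = ((g * a : G) : G ⧸ Γ) := rfl

theorem kap_mem (g : G) (x : G ⧸ Γ) : (sec Γ (g • x))⁻¹ * g * sec Γ x ∈ Γ := by
  have h : ((sec Γ (g • x) : G) : G ⧸ Γ) = ((g * sec Γ x : G) : G ⧸ Γ) := by
    rw [mk_sec, ← smul_mk_eq, mk_sec]
  rw [QuotientGroup.eq] at h
  rwa [mul_assoc]

/-- The Shapiro cocycle `κ(g, x) = r(g x)⁻¹ g r(x) ∈ Γ`. -/
noncomputable def kap (g : G) (x : G ⧸ Γ) : Γ := ⟨(sec Γ (g • x))⁻¹ * g * sec Γ x, kap_mem Γ g x⟩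

theorem kap_coe (g : G) (x : G ⧸ Γ) : (kap Γ g x : G) = (sec Γ (g • x))⁻¹ * g * sec Γ x := rfl

theorem kap_mul (g h : G) (x : G ⧸ Γ) : kap Γ (g * h) x = kap Γ g (h • x) * kap Γ h x := by
  apply Subtype.ext
  rw [Subgroup.coe_mul, kap_coe, kap_coe, kap_coe, mul_smul]
  group

theorem kap_one (x : G ⧸ Γ) : kap Γ 1 x = 1 := by
  apply Subtype.ext
  rw [kap_coe, one_smul]
  simp

/-- The cocycle `g ↦ (x ↦ φ(κ(g,x)))` attached to a homomorphism `φ`. -/
noncomputable def coc (φ : Additive Γ →+ ℂ) (g : G) : (G ⧸ Γ) → ℂ :=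
  fun x => φ (Additive.ofMul (kap Γ g x))

theorem coc_apply (φ : Additive Γ →+ ℂ) (g : G) (x : G ⧸ Γ) :
    coc Γ φ g x = φ (Additive.ofMul (kap Γ g x)) := rfl

theorem coc_mul (φ : Additive Γ →+ ℂ) (g h : G) :
    coc Γ φ (g * h) = pre h (coc Γ φ g) + coc Γ φ h := by
  ext x
  rw [Pi.add_apply, pre_apply, coc_apply, coc_apply, coc_apply, kap_mul, ofMul_mul, map_add]

theorem coc_one (φ : Additive Γ →+ ℂ) : coc Γ φ 1 = 0 := by
  ext x
  rw [coc_apply, kap_one, ofMul_one, map_zero]; rfl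

theorem coc_inv (φ : Additive Γ →+ ℂ) (g : G) :
    coc Γ φ g⁻¹ = - pre g⁻¹ (coc Γ φ g) := by
  have h := coc_mul Γ φ g g⁻¹
  rw [mul_inv_cancel, coc_one] at h
  exact eq_neg_of_add_eq_zero_right h.symm

/-- `coc` as a linear map in `φ`. -/
noncomputable def cocL (g : G) : (Additive Γ →+ ℂ) →ₗ[ℂ] ((G ⧸ Γ) → ℂ) where
  toFun φ := coc Γ φ g
  map_add' φ ψ := by ext x; rfl
  map_smul' c φ := by ext x; rfl

theorem cocL_apply (g : G) (φ : Additive Γ →+ ℂ) : cocL Γ g φ = coc Γ φ g := rfl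

theorem coc_pow (φ : Additive Γ →+ ℂ) (g : G) (m : ℕ) :
    coc Γ φ (g ^ m) = ∑ i ∈ Finset.range m, pre (g ^ i) (coc Γ φ g) := by
  induction m with
  | zero => simp [coc_one]
  | succ k ih =>
    rw [pow_succ', coc_mul, Finset.sum_range_succ, ih, add_comm]

variable [Γ.FiniteIndex]

attribute [local instance] Subgroup.fintypeQuotientOfFiniteIndex

theorem orbSum_pre_pow (g : G) (i : ℕ) (w : (G ⧸ Γ) → ℂ) :
    orbSum g (pre (g ^ i) w) = orbSum g w := by
  induction i generalizing w with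
  | zero => rw [pow_zero, pre_one]
  | succ k ih => rw [pow_succ, pre_mul, orbSum_pre, ih]

theorem orbSum_coc_eq_zero (φ : Additive Γ →+ ℂ) (g : G) {m : ℕ} (hm : 0 < m)
    (h0 : coc Γ φ (g ^ m) = 0) : orbSum g (coc Γ φ g) = 0 := by
  have h := congrArg (orbSum g) (coc_pow Γ φ g m)
  rw [h0, map_zero, map_sum] at h
  simp_rw [orbSum_pre_pow] at h
  rw [Finset.sum_const, Finset.card_range] at h
  have hm' : (m : ℂ) ≠ 0 := by exact_mod_cast hm.ne'
  have h2 : (m : ℂ) • orbSum g (coc Γ φ g) = 0 := by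
    rw [Nat.cast_smul_eq_nsmul]; exact h.symm
  exact (smul_eq_zero.mp h2).resolve_left hm'

omit [Γ.FiniteIndex] in
/-- If the cocycle of `φ` is the coboundary of `v` on generators `s, u`, then `φ = 0`. -/
theorem eq_zero_of_coc_eq {s u : G} (hgen : Subgroup.closure {s, u} = ⊤)
    (φ : Additive Γ →+ ℂ) (v : (G ⧸ Γ) → ℂ)
    (hs : coc Γ φ s = pre s v - v) (hu : coc Γ φ u = pre u v - v) : φ = 0 := by
  have hall : ∀ g : G, coc Γ φ g = pre g v - v := by
    intro g
    have hg : g ∈ Subgroup.closure {s, u} := by rw [hgen]; trivial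
    induction hg using Subgroup.closure_induction with
    | mem z hz => rcases hz with rfl | rfl <;> assumption
    | one => rw [coc_one, pre_one, sub_self]
    | mul a b _ _ ha hb =>
      rw [coc_mul, ha, hb, pre_mul, map_sub]; abel
    | inv a _ ha =>
      rw [coc_inv, ha, map_sub, ← pre_mul, mul_inv_cancel, pre_one]; abel
  apply AddMonoidHom.ext
  intro γa
  obtain ⟨γ, rfl⟩ := Additive.ofMul.surjective γa
  set x₀ : G ⧸ Γ := ((1 : G) : G ⧸ Γ) with hx₀
  have hfix : (γ : G) • x₀ = x₀ := by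
    rw [hx₀, smul_mk_eq, QuotientGroup.eq]
    simp
  have ha : sec Γ x₀ ∈ Γ := by
    have h := mk_sec Γ x₀
    rw [hx₀, QuotientGroup.eq] at h
    simpa using Γ.inv_mem h
  have hk : kap Γ (γ : G) x₀ = (⟨sec Γ x₀, ha⟩ : Γ)⁻¹ * γ * ⟨sec Γ x₀, ha⟩ := by
    apply Subtype.ext
    rw [kap_coe, hfix]
    rfl
  have h1 := congrFun (hall (γ : G)) x₀
  rw [coc_apply, hk, Pi.sub_apply, pre_apply, hfix, sub_self, ofMul_mul, ofMul_mul, ofMul_inv,
    map_add, map_add, map_neg] at h1
  rw [AddMonoidHom.zero_apply]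
  linear_combination h1

end Coset

section Count

variable {G : Type*} [Group G] (Γ : Subgroup G) [Γ.FiniteIndex]

attribute [local instance] Subgroup.fintypeQuotientOfFiniteIndex

local notation "V" => (G ⧸ Γ) → ℂ

/-- The target space `{(a,b) | Σ_S a = 0, Σ_U b = 0, Σ_T (b - a) = 0}`. -/
noncomputable def Ysub (s u t : G) : Submodule ℂ (V × V) :=
  LinearMap.ker ((orbSum (X := G ⧸ Γ) s).comp (LinearMap.fst ℂ V V)) ⊓
  LinearMap.ker ((orbSum (X := G ⧸ Γ) u).comp (LinearMap.snd ℂ V V)) ⊓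
  LinearMap.ker ((orbSum (X := G ⧸ Γ) t).comp (LinearMap.snd ℂ V V - LinearMap.fst ℂ V V))

theorem mem_Ysub {s u t : G} (y : V × V) :
    y ∈ Ysub Γ s u t ↔ orbSum s y.1 = 0 ∧ orbSum u y.2 = 0 ∧ orbSum t (y.2 - y.1) = 0 := by
  simp only [Ysub, Submodule.mem_inf, LinearMap.mem_ker, LinearMap.comp_apply, LinearMap.fst_apply,
    LinearMap.snd_apply, LinearMap.sub_apply, and_assoc]

theorem finrank_Ysub_le {s u t : G} (hgen : Subgroup.closure {s, u} = ⊤) :
    Module.finrank ℂ (Ysub Γ s u t) + Nat.card (Orb (G ⧸ Γ) s) + Nat.card (Orb (G ⧸ Γ) u)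
      + Nat.card (Orb (G ⧸ Γ) t) ≤ 2 * Nat.card (G ⧸ Γ) + 1 := by
  have : MulAction.IsPretransitive G (G ⧸ Γ) := MulAction.isPretransitive_quotient G Γ
  have : Nonempty (G ⧸ Γ) := ⟨((1 : G) : G ⧸ Γ)⟩
  set Y := Ysub Γ s u t with hY
  -- the map `(a, b) ↦ b - a` on `Y`
  set q : Y →ₗ[ℂ] V := (LinearMap.snd ℂ V V - LinearMap.fst ℂ V V).comp Y.subtype with hq
  have hq_apply : ∀ y : Y, q y = y.1.2 - y.1.1 := fun y => rfl
  have h1 := LinearMap.finrank_range_add_finrank_ker q
  have h2 : Module.finrank ℂ (LinearMap.range q) ≤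
      Module.finrank ℂ (LinearMap.ker (orbSum (X := G ⧸ Γ) t)) := by
    apply Submodule.finrank_mono
    rintro _ ⟨y, rfl⟩
    rw [LinearMap.mem_ker, hq_apply]
    exact ((mem_Ysub Γ y.1).mp y.2).2.2
  have h3 : Module.finrank ℂ (LinearMap.ker q) ≤
      Module.finrank ℂ ↥(LinearMap.ker (orbSum (X := G ⧸ Γ) s) ⊓
        LinearMap.ker (orbSum (X := G ⧸ Γ) u)) := by
    have hmem : ∀ z : LinearMap.ker q, z.1.1.1 ∈ LinearMap.ker (orbSum (X := G ⧸ Γ) s) ⊓
        LinearMap.ker (orbSum (X := G ⧸ Γ) u) := by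
      intro z
      have hz : z.1.1.2 - z.1.1.1 = 0 := by
        have := z.2
        rw [LinearMap.mem_ker, hq_apply] at this
        exact this
      have hz' : z.1.1.2 = z.1.1.1 := sub_eq_zero.mp hz
      have hy := (mem_Ysub Γ z.1.1).mp z.1.2
      refine ⟨LinearMap.mem_ker.mpr hy.1, LinearMap.mem_ker.mpr ?_⟩
      rw [← hz']
      exact hy.2.1
    let f : LinearMap.ker q →ₗ[ℂ] ↥(LinearMap.ker (orbSum (X := G ⧸ Γ) s) ⊓
        LinearMap.ker (orbSum (X := G ⧸ Γ) u)) :=
      LinearMap.codRestrict _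
        ((LinearMap.fst ℂ V V).comp (Y.subtype.comp (LinearMap.ker q).subtype)) hmem
    apply LinearMap.finrank_le_finrank_of_injective (f := f)
    intro z z' hzz
    have h11 : z.1.1.1 = z'.1.1.1 := congrArg Subtype.val hzz
    have hz : z.1.1.2 = z.1.1.1 := by
      have := z.2
      rw [LinearMap.mem_ker, hq_apply] at this
      exact sub_eq_zero.mp this
    have hz' : z'.1.1.2 = z'.1.1.1 := by
      have := z'.2
      rw [LinearMap.mem_ker, hq_apply] at this
      exact sub_eq_zero.mp this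
    apply Subtype.ext
    apply Subtype.ext
    apply Prod.ext
    · exact h11
    · rw [hz, hz', h11]
  have h4 := finrank_inf_le (X := G ⧸ Γ) hgen
  have h5 := finrank_ker_orbSum (X := G ⧸ Γ) t
  omega

/-- `Ψ φ = (c_φ(s), c_φ(u))`. -/
noncomputable def PsiL (s u : G) : (Additive Γ →+ ℂ) →ₗ[ℂ] (V × V) :=
  (cocL Γ s).prod (cocL Γ u)

/-- `D v = (v ∘ s - v, v ∘ u - v)`. -/
noncomputable def DL (s u : G) : V →ₗ[ℂ] (V × V) :=
  ((pre (X := G ⧸ Γ) s) - LinearMap.id).prod ((pre (X := G ⧸ Γ) u) - LinearMap.id)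

omit [Γ.FiniteIndex] in
theorem PsiL_injective {s u : G} (hgen : Subgroup.closure {s, u} = ⊤) :
    Function.Injective (PsiL Γ s u) := by
  rw [← LinearMap.ker_eq_bot, LinearMap.ker_eq_bot']
  intro φ hφ
  have h1 : coc Γ φ s = 0 := congrArg Prod.fst hφ
  have h2 : coc Γ φ u = 0 := congrArg Prod.snd hφ
  apply eq_zero_of_coc_eq Γ hgen φ 0
  · rw [h1, map_zero, sub_self]
  · rw [h2, map_zero, sub_self]

theorem finite_homs {s u : G} (hgen : Subgroup.closure {s, u} = ⊤) :
    Module.Finite ℂ (Additive Γ →+ ℂ) :=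
  Module.Finite.of_injective (PsiL Γ s u) (PsiL_injective Γ hgen)

/-- The abstract dimension bound. -/
theorem main_generic {s t : G} (hgen : Subgroup.closure {s, s * t} = ⊤)
    (W : Submodule ℂ (Additive Γ →+ ℂ))
    (hs : ∀ φ ∈ W, orbSum s (coc Γ φ s) = 0)
    (hu : ∀ φ ∈ W, orbSum (s * t) (coc Γ φ (s * t)) = 0)
    (ht : ∀ φ ∈ W, orbSum t (coc Γ φ t) = 0) :
    Module.Finite ℂ W ∧
      Module.finrank ℂ W + Nat.card (Orb (G ⧸ Γ) s) + Nat.card (Orb (G ⧸ Γ) (s * t))
        + Nat.card (Orb (G ⧸ Γ) t) ≤ Nat.card (G ⧸ Γ) + 2 := by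
  have : MulAction.IsPretransitive G (G ⧸ Γ) := MulAction.isPretransitive_quotient G Γ
  have hfin : Module.Finite ℂ (Additive Γ →+ ℂ) := finite_homs Γ hgen
  have hfinW : Module.Finite ℂ W := inferInstance
  refine ⟨hfinW, ?_⟩
  set u := s * t with hu_def
  -- Θ(φ, v) = Ψ φ - D v
  set Θ : (W × V) →ₗ[ℂ] (V × V) :=
    ((PsiL Γ s u).comp W.subtype).comp (LinearMap.fst ℂ W V) -
      (DL Γ s u).comp (LinearMap.snd ℂ W V) with hΘ
  have hΘ1 : ∀ p : W × V, (Θ p).1 = coc Γ p.1.1 s - (pre s p.2 - p.2) := fun p => rfl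
  have hΘ2 : ∀ p : W × V, (Θ p).2 = coc Γ p.1.1 u - (pre u p.2 - p.2) := fun p => rfl
  have h1 := LinearMap.finrank_range_add_finrank_ker Θ
  rw [Module.finrank_prod, Module.finrank_fintype_fun_eq_card, ← Nat.card_eq_fintype_card] at h1
  have h2 : Module.finrank ℂ (LinearMap.range Θ) ≤ Module.finrank ℂ (Ysub Γ s u t) := by
    apply Submodule.finrank_mono
    rintro _ ⟨p, rfl⟩
    rw [mem_Ysub, hΘ1, hΘ2]
    refine ⟨?_, ?_, ?_⟩
    · rw [map_sub, hs _ p.1.2, map_sub, orbSum_pre, sub_self, sub_self]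
    · rw [map_sub, hu _ p.1.2, map_sub, orbSum_pre, sub_self, sub_self]
    · have e : coc Γ p.1.1 u - (pre u p.2 - p.2) - (coc Γ p.1.1 s - (pre s p.2 - p.2)) =
          (pre t (coc Γ p.1.1 s) - coc Γ p.1.1 s) + coc Γ p.1.1 t
            - (pre t (pre s p.2) - pre s p.2) := by
        rw [hu_def, coc_mul, pre_mul]; abel
      rw [e, map_sub, map_add, map_sub, map_sub, orbSum_pre, orbSum_pre, ht _ p.1.2]
      simp
  have h3 : Module.finrank ℂ (LinearMap.ker Θ) ≤ 1 := by
    let cst : ℂ →ₗ[ℂ] (W × V) :=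
      LinearMap.prod 0 (LinearMap.pi (fun _ => LinearMap.id))
    have hle : LinearMap.ker Θ ≤ LinearMap.range cst := by
      intro p hp
      rw [LinearMap.mem_ker] at hp
      have hp1 : coc Γ p.1.1 s = pre s p.2 - p.2 := by
        have := congrArg Prod.fst hp
        rw [hΘ1] at this
        exact sub_eq_zero.mp this
      have hp2 : coc Γ p.1.1 u = pre u p.2 - p.2 := by
        have := congrArg Prod.snd hp
        rw [hΘ2] at this
        exact sub_eq_zero.mp this
      have hφ : p.1.1 = 0 := eq_zero_of_coc_eq Γ hgen p.1.1 p.2 hp1 hp2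
      have hv1 : pre s p.2 = p.2 := by
        rw [hφ] at hp1
        have : coc Γ (0 : Additive Γ →+ ℂ) s = 0 := (cocL Γ s).map_zero
        rw [this] at hp1
        exact (sub_eq_zero.mp hp1.symm)
      have hv2 : pre u p.2 = p.2 := by
        rw [hφ] at hp2
        have : coc Γ (0 : Additive Γ →+ ℂ) u = 0 := (cocL Γ u).map_zero
        rw [this] at hp2
        exact (sub_eq_zero.mp hp2.symm)
      refine ⟨p.2 ((1 : G) : G ⧸ Γ), ?_⟩
      apply Prod.ext
      · apply Subtype.ext
        exact hφ.symm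
      · funext x
        exact const_of_pre_eq hgen p.2 hv1 hv2 _ _
    calc Module.finrank ℂ (LinearMap.ker Θ) ≤ Module.finrank ℂ (LinearMap.range cst) :=
          Submodule.finrank_mono hle
      _ ≤ Module.finrank ℂ ℂ := LinearMap.finrank_range_le cst
      _ = 1 := Module.finrank_self ℂ
  have h4 := finrank_Ysub_le Γ (t := t) hgen
  omega

end Count


section FiniteOrder

variable {G : Type*} [Group G] (Γ : Subgroup G) [Γ.FiniteIndex]

/-- Every element acts on the finite coset space with finite order. -/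
theorem exists_pow_smul_eq (g : G) : ∃ m : ℕ, 0 < m ∧ ∀ x : G ⧸ Γ, g ^ m • x = x := by
  classical
  have : Fintype (G ⧸ Γ) := Subgroup.fintypeQuotientOfFiniteIndex
  refine ⟨orderOf (MulAction.toPermHom G (G ⧸ Γ) g), orderOf_pos _, fun x => ?_⟩
  have h := pow_orderOf_eq_one (MulAction.toPermHom G (G ⧸ Γ) g)
  rw [← map_pow] at h
  have h2 := congrArg (fun σ : Equiv.Perm (G ⧸ Γ) => σ x) h
  simpa using h2

end FiniteOrder

section SL2

open scoped MatrixGroups
open ModularCurve.Period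

variable (Γ : Subgroup SL(2, ℤ)) [Γ.FiniteIndex]

attribute [local instance] Subgroup.fintypeQuotientOfFiniteIndex

theorem closure_S_ST :
    Subgroup.closure {ModularGroup.S, ModularGroup.S * ModularGroup.T} =
      (⊤ : Subgroup SL(2, ℤ)) := by
  rw [eq_top_iff, ← SpecialLinearGroup.SL2Z_generators, Subgroup.closure_le]
  have h1 : ModularGroup.S ∈
      Subgroup.closure {ModularGroup.S, ModularGroup.S * ModularGroup.T} :=
    Subgroup.subset_closure (by simp)
  have h2 : ModularGroup.S * ModularGroup.T ∈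
      Subgroup.closure {ModularGroup.S, ModularGroup.S * ModularGroup.T} :=
    Subgroup.subset_closure (by simp)
  rintro x (rfl | rfl)
  · exact h1
  · have := Subgroup.mul_mem _ (Subgroup.inv_mem _ h1) h2
    rwa [inv_mul_cancel_left] at this

omit [Γ.FiniteIndex] in
theorem neg_one_smul_coset (hneg : (-1 : SL(2, ℤ)) ∈ Γ) (x : SL(2, ℤ) ⧸ Γ) :
    (-1 : SL(2, ℤ)) • x = x := by
  induction x using QuotientGroup.induction_on with
  | H a =>
    rw [smul_mk_eq, eq_comm, QuotientGroup.eq]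
    have : a⁻¹ * (-1 * a) = -1 := by
      rw [neg_mul, one_mul, mul_neg, inv_mul_cancel]
    rw [this]
    exact hneg

omit [Γ.FiniteIndex] in
theorem coc_eq_zero_of_parabolic {φ : Additive Γ →+ ℂ} (hφ : IsParabolicHom Γ φ)
    (h : SL(2, ℤ)) (htriv : ∀ x : SL(2, ℤ) ⧸ Γ, h • x = x)
    (htr : (h : Matrix (Fin 2) (Fin 2) ℤ).trace ^ 2 = 4) : coc Γ φ h = 0 := by
  funext x
  rw [coc_apply]
  apply hφ
  rw [kap_coe, htriv x, Matrix.SpecialLinearGroup.coe_mul, Matrix.trace_mul_comm,
    ← Matrix.SpecialLinearGroup.coe_mul, mul_inv_cancel_left]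
  exact htr

theorem S_sq_eq : ModularGroup.S ^ 2 = (-1 : SL(2, ℤ)) := by decide

theorem ST_cube_eq : (ModularGroup.S * ModularGroup.T) ^ 3 = (-1 : SL(2, ℤ)) := by decide

theorem trace_neg_one_sq :
    ((-1 : SL(2, ℤ)) : Matrix (Fin 2) (Fin 2) ℤ).trace ^ 2 = 4 := by
  simp

theorem trace_T_pow_sq (m : ℕ) :
    ((ModularGroup.T ^ m : SL(2, ℤ)) : Matrix (Fin 2) (Fin 2) ℤ).trace ^ 2 = 4 := by
  rw [← zpow_natCast, ModularGroup.coe_T_zpow]
  simp [Matrix.trace_fin_two]

/-- The abstract group-cohomological bound for a finite-index subgroup of `SL(2,ℤ)`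
containing `-1`. -/
theorem sl2_main (hneg : (-1 : SL(2, ℤ)) ∈ Γ) :
    Module.Finite ℂ (parabolicHoms ℂ Γ ℂ) ∧
      Module.finrank ℂ (parabolicHoms ℂ Γ ℂ)
        + Nat.card (Orb (SL(2, ℤ) ⧸ Γ) ModularGroup.S)
        + Nat.card (Orb (SL(2, ℤ) ⧸ Γ) (ModularGroup.S * ModularGroup.T))
        + Nat.card (Orb (SL(2, ℤ) ⧸ Γ) ModularGroup.T) ≤ Nat.card (SL(2, ℤ) ⧸ Γ) + 2 := by
  apply main_generic Γ closure_S_ST
  · intro φ hφ
    apply orbSum_coc_eq_zero Γ φ _ (m := 2) (by norm_num)
    apply coc_eq_zero_of_parabolic Γ hφ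
    · intro x; rw [S_sq_eq]; exact neg_one_smul_coset Γ hneg x
    · rw [S_sq_eq]; exact trace_neg_one_sq
  · intro φ hφ
    apply orbSum_coc_eq_zero Γ φ _ (m := 3) (by norm_num)
    apply coc_eq_zero_of_parabolic Γ hφ
    · intro x; rw [ST_cube_eq]; exact neg_one_smul_coset Γ hneg x
    · rw [ST_cube_eq]; exact trace_neg_one_sq
  · intro φ hφ
    obtain ⟨m, hm, hfix⟩ := exists_pow_smul_eq Γ ModularGroup.T
    apply orbSum_coc_eq_zero Γ φ _ hm
    exact coc_eq_zero_of_parabolic Γ hφ _ hfix (trace_T_pow_sq m)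

end SL2

section Gamma0

open scoped MatrixGroups
open ModularCurve ModularCurve.Period CongruenceSubgroup Fermat.Agent.S24

theorem neg_one_mem_Gamma0 (N : ℕ) : (-1 : SL(2, ℤ)) ∈ Gamma0 N := by
  rw [Gamma0_mem]
  simp

/-- **GC**: the parabolic cohomology of `Γ₀(N)` is finite-dimensional of dimension at most
`2 g(X₀(N))`. -/
theorem parabolicHoms_Gamma0 (N : ℕ) [NeZero N] :
    Module.Finite ℂ (parabolicHoms ℂ (Gamma0 N) ℂ) ∧
      (Module.finrank ℂ (parabolicHoms ℂ (Gamma0 N) ℂ) : ℚ) ≤ 2 * genusFormula N := by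
  obtain ⟨hfin, hle⟩ := sl2_main (Gamma0 N) (neg_one_mem_Gamma0 N)
  refine ⟨hfin, ?_⟩
  have hcard : Nat.card (SL(2, ℤ) ⧸ Gamma0 N) = dedekindPsi N := card_X0Cosets N
  have hS : 2 * Nat.card (Orb (SL(2, ℤ) ⧸ Gamma0 N) ModularGroup.S) =
      dedekindPsi N + nuTwo N := two_mul_numOrbits_S N
  have hU : 3 * Nat.card (Orb (SL(2, ℤ) ⧸ Gamma0 N) (ModularGroup.S * ModularGroup.T)) =
      dedekindPsi N + 2 * nuThree N := three_mul_numOrbits_ST N
  have hT : Nat.card (Orb (SL(2, ℤ) ⧸ Gamma0 N) ModularGroup.T) = cuspCount N :=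
    numOrbits_T N
  rw [hcard, hT] at hle
  have hle' : (Module.finrank ℂ (parabolicHoms ℂ (Gamma0 N) ℂ) : ℚ)
      + (Nat.card (Orb (SL(2, ℤ) ⧸ Gamma0 N) ModularGroup.S) : ℚ)
      + (Nat.card (Orb (SL(2, ℤ) ⧸ Gamma0 N) (ModularGroup.S * ModularGroup.T)) : ℚ)
      + (cuspCount N : ℚ) ≤ (dedekindPsi N : ℚ) + 2 := by exact_mod_cast hle
  have hS' : 2 * (Nat.card (Orb (SL(2, ℤ) ⧸ Gamma0 N) ModularGroup.S) : ℚ) =
      (dedekindPsi N : ℚ) + (nuTwo N : ℚ) := by exact_mod_cast hS
  have hU' : 3 * (Nat.card (Orb (SL(2, ℤ) ⧸ Gamma0 N) (ModularGroup.S * ModularGroup.T)) : ℚ) =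
      (dedekindPsi N : ℚ) + 2 * (nuThree N : ℚ) := by exact_mod_cast hU
  unfold genusFormula
  linarith

theorem finite_parabolicHoms_Gamma0 (N : ℕ) [NeZero N] :
    Module.Finite ℂ (parabolicHoms ℂ (Gamma0 N) ℂ) := (parabolicHoms_Gamma0 N).1

theorem finrank_parabolicHoms_Gamma0_le (N : ℕ) [NeZero N] :
    (Module.finrank ℂ (parabolicHoms ℂ (Gamma0 N) ℂ) : ℚ) ≤ 2 * genusFormula N :=
  (parabolicHoms_Gamma0 N).2

end Gamma0

end Fermat.Agent.S21.ParabolicDim9
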